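/-
S43lib / Loc / F3 (helper1).

The Cayley–Hamilton identity behind Ihara avoidance in the unipotent local lifting ring.

Let `Φ, N` be `2 × 2` matrices over a commutative ring with `tr N = 0`, `det N = 0` and
`Φ N = r • N Φ`.  Put `t = tr Φ`, `d = det Φ`, `ω = r t² − (1 + r)² d`.  Then
`(1 − r) · d · ω · N = 0`.
Consequently, in any prime ideal not containing `(1 - r) * d`, either all entries of `N` vanish or
`ω` vanishes; and `ω ≡ disc(Φ) = t² − 4 d` modulo `(r − 1)`.
-/
import Mathlib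

set_option autoImplicit false

namespace Fermat.Agent.S43lib.Loc

open Matrix

variable {R : Type*} [CommRing R]

/-- Cayley–Hamilton for `2 × 2` matrices. -/
theorem sq_eq_trace_smul_sub_det (A : Matrix (Fin 2) (Fin 2) R) :
    A * A = A.trace • A - A.det • (1 : Matrix (Fin 2) (Fin 2) R) := by
  ext i j
  fin_cases i <;> fin_cases j <;>
    simp [Matrix.mul_apply, Fin.sum_univ_two, Matrix.trace_fin_two, Matrix.det_fin_two] <;> ring

/-- `det (a • A − b • 1) = a² det A − a b tr A + b²` for `2 × 2` matrices. -/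
theorem det_smul_sub_smul_one (A : Matrix (Fin 2) (Fin 2) R) (a b : R) :
    (a • A - b • (1 : Matrix (Fin 2) (Fin 2) R)).det = a ^ 2 * A.det - a * b * A.trace + b ^ 2 := by
  simp [Matrix.det_fin_two, Matrix.trace_fin_two]
  ring

/-- The quantity `ω = r t² − (1 + r)² d`. -/
def omegaOf (Φ : Matrix (Fin 2) (Fin 2) R) (r : R) : R :=
  r * Φ.trace ^ 2 - (1 + r) ^ 2 * Φ.det

/-- The discriminant `t² − 4 d` of the characteristic polynomial. -/
def discOf (Φ : Matrix (Fin 2) (Fin 2) R) : R :=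
  Φ.trace ^ 2 - 4 * Φ.det

theorem omegaOf_sub_discOf (Φ : Matrix (Fin 2) (Fin 2) R) (r : R) :
    omegaOf Φ r - discOf Φ = (r - 1) * (Φ.trace ^ 2 - (r + 3) * Φ.det) := by
  unfold omegaOf discOf
  ring

/-- Key identity: `(1 − r) • N (r t Φ − d (1 + r)) = 0`. -/
theorem one_sub_smul_mul_eq_zero (Φ N : Matrix (Fin 2) (Fin 2) R) (r : R)
    (hcomm : Φ * N = r • (N * Φ)) :
    (1 - r) • (N * ((r * Φ.trace) • Φ - (Φ.det * (1 + r)) • (1 : Matrix (Fin 2) (Fin 2) R)))
      = 0 := by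
  have hCH := sq_eq_trace_smul_sub_det Φ
  -- `Φ² N = r² N Φ²`
  have h2 : Φ * Φ * N = (r * r) • (N * (Φ * Φ)) := by
    rw [Matrix.mul_assoc, hcomm, Matrix.mul_smul, ← Matrix.mul_assoc, hcomm, Matrix.smul_mul,
      smul_smul, Matrix.mul_assoc]
  rw [hCH] at h2
  -- expand both sides
  have h3 : Φ.trace • (Φ * N) - Φ.det • N
      = (r * r) • (Φ.trace • (N * Φ) - Φ.det • N) := by
    have e1 : (Φ.trace • Φ - Φ.det • (1 : Matrix (Fin 2) (Fin 2) R)) * N
        = Φ.trace • (Φ * N) - Φ.det • N := by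
      rw [Matrix.sub_mul, Matrix.smul_mul, Matrix.smul_mul, Matrix.one_mul]
    have e2 : N * (Φ.trace • Φ - Φ.det • (1 : Matrix (Fin 2) (Fin 2) R))
        = Φ.trace • (N * Φ) - Φ.det • N := by
      rw [Matrix.mul_sub, Matrix.mul_smul, Matrix.mul_smul, Matrix.mul_one]
    rw [e1, e2] at h2
    exact h2
  rw [hcomm] at h3
  -- now a linear identity in `N Φ` and `N`
  have h4 : (1 - r) • (N * ((r * Φ.trace) • Φ - (Φ.det * (1 + r)) • (1 : Matrix (Fin 2) (Fin 2) R)))
      = (Φ.trace • r • (N * Φ) - Φ.det • N)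
        - (r * r) • (Φ.trace • (N * Φ) - Φ.det • N) := by
    rw [Matrix.mul_sub, Matrix.mul_smul, Matrix.mul_smul, Matrix.mul_one]
    simp only [smul_sub, smul_smul]
    ext i j
    simp only [Matrix.sub_apply, Matrix.smul_apply, smul_eq_mul]
    ring
  rw [h4, h3, sub_self]

/-- `(1 − r) · d · ω · N = 0`. -/
theorem one_sub_mul_det_mul_omega_smul_eq_zero (Φ N : Matrix (Fin 2) (Fin 2) R) (r : R)
    (hcomm : Φ * N = r • (N * Φ)) :
    ((1 - r) * (Φ.det * omegaOf Φ r)) • N = 0 := by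
  set M : Matrix (Fin 2) (Fin 2) R :=
    (r * Φ.trace) • Φ - (Φ.det * (1 + r)) • (1 : Matrix (Fin 2) (Fin 2) R) with hM
  have h1 : (1 - r) • (N * M) = 0 := one_sub_smul_mul_eq_zero Φ N r hcomm
  have hdet : M.det = - (Φ.det * omegaOf Φ r) := by
    rw [hM, det_smul_sub_smul_one]
    unfold omegaOf
    ring
  have h2 : (1 - r) • (N * M) * M.adjugate = (1 - r) • (M.det • N) := by
    rw [Matrix.smul_mul, Matrix.mul_assoc, Matrix.mul_adjugate, Matrix.mul_smul, Matrix.mul_one]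
  rw [h1, Matrix.zero_mul, hdet] at h2
  have h3 : ((1 - r) * (Φ.det * omegaOf Φ r)) • N = - ((1 - r) • (-(Φ.det * omegaOf Φ r)) • N) := by
    rw [smul_smul, mul_neg, neg_smul, neg_neg]
  rw [h3, ← h2, neg_zero]

/-- **F3.** In a prime ideal `𝔟` with `(1 − r) ∉ 𝔟`, `det Φ ∉ 𝔟`, if `Φ N − r N Φ` has entries in `𝔟`
then either all entries of `N` are in `𝔟` or `ω ∈ 𝔟`. -/
theorem entries_mem_or_omega_mem (𝔟 : Ideal R) [𝔟.IsPrime] (Φ N : Matrix (Fin 2) (Fin 2) R) (r : R)
    (hcomm : ∀ i j, (Φ * N - r • (N * Φ)) i j ∈ 𝔟) (hr : 1 - r ∉ 𝔟) (hd : Φ.det ∉ 𝔟) :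
    (∀ i j, N i j ∈ 𝔟) ∨ omegaOf Φ r ∈ 𝔟 := by
  -- pass to the quotient
  let π := Ideal.Quotient.mk 𝔟
  have hcomm' : Φ.map π * N.map π = π r • (N.map π * Φ.map π) := by
    ext i j
    have := hcomm i j
    rw [← Ideal.Quotient.eq_zero_iff_mem] at this
    have e : (Φ.map π * N.map π - π r • (N.map π * Φ.map π)) i j = π ((Φ * N - r • (N * Φ)) i j) := by
      simp only [Matrix.sub_apply, Matrix.smul_apply, Matrix.mul_apply, Matrix.map_apply,
        smul_eq_mul, map_sub, map_mul, map_sum]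
    rw [← sub_eq_zero, ← Matrix.sub_apply, e]
    exact this
  have key := one_sub_mul_det_mul_omega_smul_eq_zero (Φ.map π) (N.map π) (π r) hcomm'
  have hdet : (Φ.map π).det = π Φ.det := by
    rw [← RingHom.mapMatrix_apply, ← RingHom.map_det]
  have hom : omegaOf (Φ.map π) (π r) = π (omegaOf Φ r) := by
    unfold omegaOf
    rw [hdet]
    simp [Matrix.trace_fin_two, map_sub, map_mul, map_add, map_pow]
  by_cases hω : omegaOf Φ r ∈ 𝔟
  · exact Or.inr hω
  · left
    intro i j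
    have h := congrFun (congrFun key i) j
    simp only [Matrix.smul_apply, Matrix.zero_apply, Matrix.map_apply, smul_eq_mul, hdet, hom] at h
    rw [← map_one π, ← map_sub, ← map_mul, ← map_mul, ← map_mul,
      Ideal.Quotient.eq_zero_iff_mem] at h
    rcases Ideal.IsPrime.mem_or_mem inferInstance h with h1 | h1
    · rcases Ideal.IsPrime.mem_or_mem inferInstance h1 with h2 | h2
      · exact absurd h2 hr
      · rcases Ideal.IsPrime.mem_or_mem inferInstance h2 with h3 | h3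
        · exact absurd h3 hd
        · exact absurd h3 hω
    · exact h1

end Fermat.Agent.S43lib.Loc
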