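/-
S43lib / Loc / Datum (helper1).

Quantities attached to a `LocalDatum`: `σ₀ = (ζ + ζ⁻¹)/2`, `δ = σ₀² − 1 = ((ζ − ζ⁻¹)/2)²`,
`e = d₀/φ₀²`; their congruences modulo `ϖ`; transport along ring homomorphisms.
-/
import Mathlib
import Fermat.Agent.S43lib.IA.BlockDefs

set_option autoImplicit false

namespace Fermat.Agent.S43lib.Loc

open Fermat.Agent.S43lib.IA

variable {Λ : Type*} [CommRing Λ] {ϖ : Λ}

/-- `σ₀ = (ζ + ζ⁻¹)/2`. -/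
noncomputable def sigma0 (h2 : IsUnit (2 : Λ)) (D : LocalDatum Λ ϖ) : Λ :=
  ((h2.unit⁻¹ : Λˣ) : Λ) * ((D.ζ : Λ) + ((D.ζ⁻¹ : Λˣ) : Λ))

/-- `δ = σ₀² − 1`. -/
noncomputable def deltaOf (h2 : IsUnit (2 : Λ)) (D : LocalDatum Λ ϖ) : Λ :=
  sigma0 h2 D ^ 2 - 1

/-- `e = d₀ / φ₀²`. -/
noncomputable def eOf (D : LocalDatum Λ ϖ) : Λ :=
  D.d₀ * (((D.φ₀⁻¹ : Λˣ) : Λ)) ^ 2

theorem two_mul_inv2 (h2 : IsUnit (2 : Λ)) : (2 : Λ) * ((h2.unit⁻¹ : Λˣ) : Λ) = 1 := by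
  have := h2.unit.mul_inv
  rw [IsUnit.unit_spec] at this
  exact this

theorem two_mul_sigma0 (h2 : IsUnit (2 : Λ)) (D : LocalDatum Λ ϖ) :
    2 * sigma0 h2 D = (D.ζ : Λ) + ((D.ζ⁻¹ : Λˣ) : Λ) := by
  rw [sigma0, ← mul_assoc, two_mul_inv2, one_mul]

theorem zeta_mul_inv (D : LocalDatum Λ ϖ) : (D.ζ : Λ) * ((D.ζ⁻¹ : Λˣ) : Λ) = 1 := by
  rw [← Units.val_mul, mul_inv_cancel, Units.val_one]

theorem phi_mul_inv (D : LocalDatum Λ ϖ) : (D.φ₀ : Λ) * ((D.φ₀⁻¹ : Λˣ) : Λ) = 1 := by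
  rw [← Units.val_mul, mul_inv_cancel, Units.val_one]

theorem sigma0_sub_one_mem (h2 : IsUnit (2 : Λ)) (D : LocalDatum Λ ϖ) :
    sigma0 h2 D - 1 ∈ Ideal.span {ϖ} := by
  have h1 : (D.ζ : Λ) - 1 ∈ Ideal.span {ϖ} := D.hζ
  have h2' : ((D.ζ⁻¹ : Λˣ) : Λ) - 1 ∈ Ideal.span {ϖ} := by
    have e : ((D.ζ⁻¹ : Λˣ) : Λ) - 1 = -((D.ζ⁻¹ : Λˣ) : Λ) * ((D.ζ : Λ) - 1) := by
      have := zeta_mul_inv D
      linear_combination this
    rw [e]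
    exact Ideal.mul_mem_left _ _ h1
  have e : sigma0 h2 D - 1 =
      ((h2.unit⁻¹ : Λˣ) : Λ) * (((D.ζ : Λ) - 1) + (((D.ζ⁻¹ : Λˣ) : Λ) - 1)) := by
    have := two_mul_inv2 h2
    rw [sigma0]
    linear_combination this
  rw [e]
  exact Ideal.mul_mem_left _ _ (Ideal.add_mem _ h1 h2')

theorem deltaOf_mem (h2 : IsUnit (2 : Λ)) (D : LocalDatum Λ ϖ) : deltaOf h2 D ∈ Ideal.span {ϖ} := by
  have e : deltaOf h2 D = (sigma0 h2 D + 1) * (sigma0 h2 D - 1) := by rw [deltaOf]; ring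
  rw [e]
  exact Ideal.mul_mem_left _ _ (sigma0_sub_one_mem h2 D)

theorem eOf_sub_one_mem (D : LocalDatum Λ ϖ) : eOf D - 1 ∈ Ideal.span {ϖ} := by
  have e : eOf D - 1 = (((D.φ₀⁻¹ : Λˣ) : Λ)) ^ 2 * (D.d₀ - (D.φ₀ : Λ) ^ 2) := by
    have := phi_mul_inv D
    rw [eOf]
    linear_combination ((1 : Λ) + (D.φ₀ : Λ) * ((D.φ₀⁻¹ : Λˣ) : Λ)) * this
  rw [e]
  exact Ideal.mul_mem_left _ _ D.hd

theorem phi_sq_mul_eOf (D : LocalDatum Λ ϖ) : (D.φ₀ : Λ) ^ 2 * eOf D = D.d₀ := by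
  have := phi_mul_inv D
  rw [eOf]
  linear_combination (D.d₀ * (1 + (D.φ₀ : Λ) * ((D.φ₀⁻¹ : Λˣ) : Λ))) * this

/-- `4 δ = (ζ − ζ⁻¹)²`. -/
theorem four_mul_deltaOf (h2 : IsUnit (2 : Λ)) (D : LocalDatum Λ ϖ) :
    4 * deltaOf h2 D = ((D.ζ : Λ) - ((D.ζ⁻¹ : Λˣ) : Λ)) ^ 2 := by
  have h := two_mul_sigma0 h2 D
  have hz := zeta_mul_inv D
  rw [deltaOf]
  linear_combination (2 * sigma0 h2 D + (D.ζ : Λ) + ((D.ζ⁻¹ : Λˣ) : Λ)) * h + 4 * hz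

/-- `δ ≠ 0` in a domain. -/
theorem deltaOf_ne_zero [IsDomain Λ] (h2 : IsUnit (2 : Λ)) (D : LocalDatum Λ ϖ) :
    deltaOf h2 D ≠ 0 := by
  intro h0
  have h4 := four_mul_deltaOf h2 D
  rw [h0, mul_zero] at h4
  have h5 : (D.ζ : Λ) - ((D.ζ⁻¹ : Λˣ) : Λ) = 0 := pow_eq_zero_iff (two_ne_zero) |>.mp h4.symm
  apply D.hζ2
  have hz := zeta_mul_inv D
  linear_combination (D.ζ : Λ) * h5 + hz

/-- Transport of a local datum along an injective ring homomorphism. -/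
noncomputable def _root_.Fermat.Agent.S43lib.IA.LocalDatum.map {Λ' : Type*} [CommRing Λ']
    (D : LocalDatum Λ ϖ) (f : Λ →+* Λ') (hf : Function.Injective f) : LocalDatum Λ' (f ϖ) where
  φ₀ := Units.map f.toMonoidHom D.φ₀
  d₀ := f D.d₀
  rr := f D.rr
  ζ := Units.map f.toMonoidHom D.ζ
  hd := by
    have := Ideal.mem_map_of_mem f D.hd
    rw [Ideal.map_span, Set.image_singleton, map_sub, map_pow] at this
    exact this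
  hr := by
    have := Ideal.mem_map_of_mem f D.hr
    rw [Ideal.map_span, Set.image_singleton, map_sub, map_one] at this
    exact this
  hr1 := fun h => D.hr1 (hf (by rw [h, map_one]))
  hζ := by
    have := Ideal.mem_map_of_mem f D.hζ
    rw [Ideal.map_span, Set.image_singleton, map_sub, map_one] at this
    exact this
  hζ2 := fun h => D.hζ2 (hf (by
    rw [map_pow, map_one]
    exact h))

end Fermat.Agent.S43lib.Loc
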