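/-
S43lib / Loc / RelSet (helper1).

The relations `relsA` of `IA/BlockDefs` in "pointwise" form: a ring homomorphism `g` out of
`P = Λ⟦Var T h⟧` kills `relsA D r` iff the image matrices satisfy `SatA`:
`det Φ = d₀`, `det Σ = 1`, `tr Σ = t`, `Φ Σ = Σ Φ`.
-/
import Mathlib
import Fermat.Agent.S43lib.IA.BlockDefs

set_option autoImplicit false

namespace Fermat.Agent.S43lib.Loc

open MvPowerSeries Fermat.Agent.S43lib.IA

section Aff

variable {A B : Type*} [CommRing A] [CommRing B]

/-- The matrix `c • 1 + E`. -/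
def affMat (c : A) (E : Fin 2 → Fin 2 → A) : Matrix (Fin 2) (Fin 2) A :=
  Matrix.of fun i j => (if i = j then c else 0) + E i j

theorem map_affMat (g : A →+* B) (c : A) (E : Fin 2 → Fin 2 → A) :
    (affMat c E).map g = affMat (g c) (fun i j => g (E i j)) := by
  ext i j
  simp only [affMat, Matrix.map_apply, Matrix.of_apply, map_add]
  split_ifs <;> simp

/-- The type-`(χ, χ⁻¹)` conditions on a pair of matrices `Φ = φ₀ + E false`, `Σ = 1 + E true`. -/
def SatA (φ₀ d₀ t : A) (E : Bool → Fin 2 → Fin 2 → A) : Prop :=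
  (affMat φ₀ (E false)).det = d₀ ∧ (affMat 1 (E true)).det = 1 ∧ (affMat 1 (E true)).trace = t ∧
    affMat φ₀ (E false) * affMat 1 (E true) = affMat 1 (E true) * affMat φ₀ (E false)

theorem SatA.map {φ₀ d₀ t : A} {E : Bool → Fin 2 → Fin 2 → A} (h : SatA φ₀ d₀ t E) (g : A →+* B) :
    SatA (g φ₀) (g d₀) (g t) (fun b i j => g (E b i j)) := by
  obtain ⟨h1, h2, h3, h4⟩ := h
  have e1 := map_affMat g φ₀ (E false)
  have e2 := map_affMat g 1 (E true)
  rw [map_one] at e2
  refine ⟨?_, ?_, ?_, ?_⟩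
  · rw [← e1, ← RingHom.mapMatrix_apply, ← RingHom.map_det, h1]
  · rw [← e2, ← RingHom.mapMatrix_apply, ← RingHom.map_det, h2, map_one]
  · rw [← e2, ← h3]
    simp [Matrix.trace_fin_two]
  · rw [← e1, ← e2, ← Matrix.map_mul, ← Matrix.map_mul, h4]

end Aff

section Rels

variable {Λ : Type*} [CommRing Λ] {ϖ : Λ} {T : Type} {h : ℕ} {B : Type*} [CommRing B]

theorem phiMat_eq_affMat (D : T → LocalDatum Λ ϖ) (r : T) :
    PhiMat (h := h) D r = affMat (C (((D r).φ₀ : Λˣ) : Λ))
      (fun i j => X (Sum.inl (r, false, i, j))) := rfl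

theorem sigMat_eq_affMat (r : T) :
    SigMat Λ h r = affMat 1 (fun i j => X (Sum.inl (r, true, i, j))) := rfl

/-- A ring homomorphism kills `relsA D r` iff the image matrices satisfy `SatA`. -/
theorem forall_relsA_map_eq_zero_iff (D : T → LocalDatum Λ ϖ) (r : T)
    (g : MvPowerSeries (Var T h) Λ →+* B) :
    (∀ t ∈ relsA (h := h) D r, g t = 0) ↔
      SatA (g (C (((D r).φ₀ : Λˣ) : Λ))) (g (C (D r).d₀))
        (g (C (((D r).ζ : Λ) + (((D r).ζ⁻¹ : Λˣ) : Λ))))
        (fun b i j => g (X (Sum.inl (r, b, i, j)))) := by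
  have e1 : (PhiMat (h := h) D r).map g = affMat (g (C (((D r).φ₀ : Λˣ) : Λ)))
      (fun i j => g (X (Sum.inl (r, false, i, j)))) := by
    rw [phiMat_eq_affMat, map_affMat]
  have e2 : (SigMat Λ h r).map g = affMat 1 (fun i j => g (X (Sum.inl (r, true, i, j)))) := by
    rw [sigMat_eq_affMat, map_affMat, map_one]
  unfold SatA
  rw [← e1, ← e2]
  constructor
  · intro hk
    refine ⟨?_, ?_, ?_, ?_⟩
    · have := hk _ (Or.inl (Or.inl (Or.inl rfl)))
      rw [map_sub, sub_eq_zero, RingHom.map_det] at this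
      exact this
    · have := hk _ (Or.inl (Or.inl (Or.inr rfl)))
      rw [map_sub, sub_eq_zero, RingHom.map_det, map_one] at this
      exact this
    · have := hk _ (Or.inl (Or.inr rfl))
      rw [map_sub, sub_eq_zero] at this
      rw [← this]
      simp [Matrix.trace_fin_two]
    · ext i j
      have := hk _ (Or.inr ⟨(i, j), rfl⟩)
      rw [← sub_eq_zero, ← Matrix.sub_apply, ← Matrix.map_mul, ← Matrix.map_mul, ← Matrix.map_sub]
      · exact this
      · intro a b
        exact map_sub g a b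
  · rintro ⟨h1, h2, h3, h4⟩ t ht
    rcases ht with ((rfl | rfl) | rfl) | ⟨ij, rfl⟩
    · rw [map_sub, sub_eq_zero, RingHom.map_det]
      exact h1
    · rw [map_sub, sub_eq_zero, RingHom.map_det, map_one]
      exact h2
    · rw [map_sub, sub_eq_zero, ← h3]
      simp [Matrix.trace_fin_two]
    · have := congrFun (congrFun h4 ij.1) ij.2
      rw [← Matrix.map_mul, ← Matrix.map_mul, Matrix.map_apply, Matrix.map_apply, ← sub_eq_zero,
        ← map_sub] at this
      exact this

end Rels

end Fermat.Agent.S43lib.Loc
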