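/-
S43lib / Loc / Sqrt (helper1).

The Hensel root of `T² + 2 T = c` (`c ∈ 𝔪`, `2` a unit) in a complete local ring: existence,
uniqueness, behaviour under ring homomorphisms.
-/
import Mathlib

set_option autoImplicit false

namespace Fermat.Agent.S43lib.Loc

open IsLocalRing Polynomial

variable {R : Type*} [CommRing R] [IsLocalRing R]

theorem exists_root_sq_add_two_mul [IsAdicComplete (maximalIdeal R) R] (h2 : IsUnit (2 : R))
    {c : R} (hc : c ∈ maximalIdeal R) : ∃ α ∈ maximalIdeal R, α * α + 2 * α = c := by
  have hmonic : (X ^ 2 + C (2 : R) * X - C c : R[X]).Monic := by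
    have h1 : (X ^ 2 + C (2 : R) * X - C c : R[X]) = X ^ 2 + (C (2 : R) * X - C c) := by ring
    rw [h1]
    apply monic_X_pow_add
    refine lt_of_le_of_lt (degree_sub_le _ _) ?_
    refine max_lt ?_ ?_
    · refine lt_of_le_of_lt (degree_C_mul_X_le _) ?_
      norm_num
    · refine lt_of_le_of_lt degree_C_le ?_
      norm_num
  obtain ⟨α, hroot, hmem⟩ := HenselianRing.is_henselian (R := R) (I := maximalIdeal R)
    (X ^ 2 + C (2 : R) * X - C c) hmonic 0
    (by
      simp only [eval_sub, eval_add, eval_pow, eval_X, eval_mul, eval_C]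
      have : (0 : R) ^ 2 + 2 * 0 - c = -c := by ring
      rw [this]
      exact neg_mem hc)
    (by
      simp only [derivative_sub, derivative_add, derivative_X_pow, derivative_mul, derivative_C,
        derivative_X, eval_sub, eval_add, eval_mul, eval_pow, eval_X, eval_C, eval_one,
        eval_zero]
      have e : (((2 : ℕ) : R) * 0 ^ (2 - 1) + (0 * 0 + 2 * 1) - 0 : R) = 2 := by norm_num
      rw [e]
      exact h2.map _)
  refine ⟨α, by simpa using hmem, ?_⟩
  have := hroot
  simp only [IsRoot, eval_sub, eval_add, eval_pow, eval_X, eval_mul, eval_C] at this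
  linear_combination this

theorem root_sq_add_two_mul_unique (h2 : IsUnit (2 : R)) {c α β : R}
    (hα : α ∈ maximalIdeal R) (hβ : β ∈ maximalIdeal R) (h1 : α * α + 2 * α = c)
    (h1' : β * β + 2 * β = c) : α = β := by
  have hu : IsUnit (α + β + 2) := by
    by_contra hn
    have hm : α + β + 2 ∈ maximalIdeal R := hn
    have : (2 : R) ∈ maximalIdeal R := by
      have := Ideal.sub_mem _ hm (Ideal.add_mem _ hα hβ)
      simpa using this
    exact this h2
  have h0 : (α - β) * (α + β + 2) = 0 := by linear_combination h1 - h1'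
  exact sub_eq_zero.mp (hu.mul_left_eq_zero.mp h0)

theorem map_root_mem {K : Type*} [CommRing K] [IsLocalRing K] (ψ : R →+* K) (h2 : IsUnit (2 : R))
    {c α : R} (hα : α ∈ maximalIdeal R) (h1 : α * α + 2 * α = c)
    (hc : ψ c ∈ maximalIdeal K) : ψ α ∈ maximalIdeal K := by
  have hu : IsUnit (α + 2) := by
    by_contra hn
    have hm : α + 2 ∈ maximalIdeal R := hn
    have : (2 : R) ∈ maximalIdeal R := by
      have := Ideal.sub_mem _ hm hα
      simpa using this
    exact this h2
  by_contra hn
  have hn' : IsUnit (ψ α) := by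
    by_contra h
    exact hn h
  have : IsUnit (ψ c) := by
    have e : ψ c = ψ α * ψ (α + 2) := by rw [← map_mul, ← h1]; congr 1; ring
    rw [e]
    exact hn'.mul (hu.map ψ)
  exact hc this

end Fermat.Agent.S43lib.Loc
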