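/-
S43lib / Loc / StageUP (helper1).

The staged ring `W = WRing Λ δ` (`δ = δ(D)`) carries a universal pair of matrices of type
`(χ, χ⁻¹)`:
* (A1) `entW : Bool → Fin 2 → Fin 2 → W`, entries in the maximal ideal, satisfying `SatA`;
* (A2) for every complete local ring `K` with `γ : Λ → K` and entries `E` in the maximal ideal
  satisfying `SatA`, there is a ring homomorphism `ψ : W → K` extending `γ` with `ψ ∘ entW = E`.
-/
import Mathlib
import Fermat.Agent.S43lib.Loc.Stage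
import Fermat.Agent.S43lib.Loc.Sqrt
import Fermat.Agent.S43lib.Loc.Datum
import Fermat.Agent.S43lib.Loc.RelSet

set_option autoImplicit false
set_option linter.style.haveILetI false
set_option linter.unusedSectionVars false
set_option linter.unusedSimpArgs false

namespace Fermat.Agent.S43lib.Loc

open MvPowerSeries IsLocalRing Fermat.Agent.S43lib.IA

universe u

section Elements

variable {Λ : Type u} [CommRing Λ] (δ : Λ)

/-- `a, b, c` in `W`. -/
noncomputable def abcW (i : Fin 3) : WRing Λ δ := WRing.mk Λ δ (X i)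

/-- `x, y, z` in `W`. -/
noncomputable def xyzW (i : Fin 3) : WRing Λ δ := WRing.mk Λ δ (C (xyzH Λ δ i))

/-- The structure map `Λ → W`. -/
noncomputable def lamW : Λ →+* WRing Λ δ := algebraMap Λ (WRing Λ δ)

theorem algebraMap_HRing_apply (l : Λ) :
    algebraMap Λ (HRing Λ δ) l =
      algebraMap (DRing Λ) (HRing Λ δ) (PowerSeries.C (PowerSeries.C l)) := by
  apply QuadraticAlgebra.ext
  · show algebraMap Λ (DRing Λ) l = PowerSeries.C (PowerSeries.C l)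
    rw [PowerSeries.algebraMap_apply, PowerSeries.algebraMap_apply]
    rfl
  · rfl

theorem lamW_apply (l : Λ) :
    lamW δ l = WRing.mk Λ δ (C (algebraMap (DRing Λ) (HRing Λ δ)
      (PowerSeries.C (PowerSeries.C l)))) := by
  show Ideal.Quotient.mk _ (algebraMap Λ (MvPowerSeries (Fin 3) (HRing Λ δ)) l) = _
  rw [MvPowerSeries.algebraMap_apply, algebraMap_HRing_apply]

/-- The minors vanish in `W`. -/
theorem abcW_mul_xyzW (i k : Fin 3) : abcW δ i * xyzW δ k = abcW δ k * xyzW δ i := by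
  rw [← sub_eq_zero, abcW, abcW, xyzW, xyzW, ← map_mul, ← map_mul, ← map_sub,
    Ideal.Quotient.eq_zero_iff_mem]
  exact Ideal.subset_span ⟨(i, k), rfl⟩

/-- `x² + y z = δ` in `W`. -/
theorem xyzW_quadric : xyzW δ 0 * xyzW δ 0 + xyzW δ 1 * xyzW δ 2 = lamW δ δ := by
  rw [lamW_apply, ← xH_sq_add]
  simp only [xyzW, xyzH, map_add, map_mul]
  rfl

end Elements

section A1

variable {Λ : Type u} [CommRing Λ] [IsLocalRing Λ] [IsNoetherianRing Λ]
  [IsAdicComplete (maximalIdeal Λ) Λ] {ϖ : Λ} (h2 : IsUnit (2 : Λ)) (D : LocalDatum Λ ϖ)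
  [hδ : Fact (deltaOf h2 D ∈ maximalIdeal Λ)]

theorem abcW_mem (i : Fin 3) : abcW (deltaOf h2 D) i ∈ maximalIdeal (WRing Λ (deltaOf h2 D)) :=
  WRing.mk_X_mem i

theorem xyzW_mem (i : Fin 3) : xyzW (deltaOf h2 D) i ∈ maximalIdeal (WRing Λ (deltaOf h2 D)) := by
  apply WRing.mk_C_mem
  fin_cases i
  · exact xH_mem_maximalIdeal
  · exact yH_mem_maximalIdeal
  · exact zH_mem_maximalIdeal

theorem lamW_mem_of_mem_span (hϖ : ϖ ∈ maximalIdeal Λ) {l : Λ} (hl : l ∈ Ideal.span {ϖ}) :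
    lamW (deltaOf h2 D) l ∈ maximalIdeal (WRing Λ (deltaOf h2 D)) := by
  have hl' : l ∈ maximalIdeal Λ := (Ideal.span_singleton_le_iff_mem _ |>.mpr hϖ) hl
  rw [lamW_apply]
  apply WRing.mk_C_mem
  apply algebraMap_DRing_mem_maximalIdeal
  rw [mem_maximalIdeal, mem_nonunits_iff, PowerSeries.isUnit_iff_constantCoeff,
    PowerSeries.constantCoeff_C, PowerSeries.isUnit_iff_constantCoeff, PowerSeries.constantCoeff_C]
  exact hl'

theorem isUnit_two_WRing : IsUnit (2 : WRing Λ (deltaOf h2 D)) := by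
  have := h2.map (lamW (deltaOf h2 D))
  rwa [map_ofNat] at this

/-- The constant `c = (e − 1) + a² + b c` whose Hensel root is `α`. -/
noncomputable def cW : WRing Λ (deltaOf h2 D) :=
  lamW (deltaOf h2 D) (eOf D - 1) + abcW (deltaOf h2 D) 0 * abcW (deltaOf h2 D) 0 +
    abcW (deltaOf h2 D) 1 * abcW (deltaOf h2 D) 2

theorem cW_mem (hϖ : ϖ ∈ maximalIdeal Λ) : cW h2 D ∈ maximalIdeal (WRing Λ (deltaOf h2 D)) := by
  refine Ideal.add_mem _ (Ideal.add_mem _ (lamW_mem_of_mem_span h2 D hϖ (eOf_sub_one_mem D)) ?_) ?_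
  · exact Ideal.mul_mem_left _ _ (abcW_mem h2 D 0)
  · exact Ideal.mul_mem_left _ _ (abcW_mem h2 D 2)

theorem exists_alphaW (hϖ : ϖ ∈ maximalIdeal Λ) :
    ∃ α ∈ maximalIdeal (WRing Λ (deltaOf h2 D)), α * α + 2 * α = cW h2 D :=
  exists_root_sq_add_two_mul (isUnit_two_WRing h2 D) (cW_mem h2 D hϖ)

/-- The universal entries in `W`, given the Hensel root `α`. -/
noncomputable def entW (α : WRing Λ (deltaOf h2 D)) :
    Bool → Fin 2 → Fin 2 → WRing Λ (deltaOf h2 D)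
  | false => ![![lamW _ (D.φ₀ : Λ) * (α + abcW _ 0), lamW _ (D.φ₀ : Λ) * abcW _ 1],
      ![lamW _ (D.φ₀ : Λ) * abcW _ 2, lamW _ (D.φ₀ : Λ) * (α - abcW _ 0)]]
  | true => ![![lamW _ (sigma0 h2 D - 1) + xyzW _ 0, xyzW _ 1],
      ![xyzW _ 2, lamW _ (sigma0 h2 D - 1) - xyzW _ 0]]

theorem entW_mem (hϖ : ϖ ∈ maximalIdeal Λ) {α : WRing Λ (deltaOf h2 D)}
    (hα : α ∈ maximalIdeal (WRing Λ (deltaOf h2 D))) (b : Bool) (i j : Fin 2) :
    entW h2 D α b i j ∈ maximalIdeal (WRing Λ (deltaOf h2 D)) := by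
  have hs := lamW_mem_of_mem_span h2 D hϖ (sigma0_sub_one_mem h2 D)
  cases b <;> fin_cases i <;> fin_cases j
  · exact Ideal.mul_mem_left _ _ (Ideal.add_mem _ hα (abcW_mem h2 D 0))
  · exact Ideal.mul_mem_left _ _ (abcW_mem h2 D 1)
  · exact Ideal.mul_mem_left _ _ (abcW_mem h2 D 2)
  · exact Ideal.mul_mem_left _ _ (Ideal.sub_mem _ hα (abcW_mem h2 D 0))
  · exact Ideal.add_mem _ hs (xyzW_mem h2 D 0)
  · exact xyzW_mem h2 D 1
  · exact xyzW_mem h2 D 2
  · exact Ideal.sub_mem _ hs (xyzW_mem h2 D 0)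

/-- (A1): the universal entries satisfy the type-`(χ, χ⁻¹)` conditions. -/
theorem satA_entW {α : WRing Λ (deltaOf h2 D)} (hα : α * α + 2 * α = cW h2 D) :
    SatA (lamW (deltaOf h2 D) (D.φ₀ : Λ)) (lamW _ D.d₀)
      (lamW _ ((D.ζ : Λ) + ((D.ζ⁻¹ : Λˣ) : Λ))) (entW h2 D α) := by
  have hq := xyzW_quadric (deltaOf h2 D)
  have m01 := abcW_mul_xyzW (deltaOf h2 D) 0 1
  have m02 := abcW_mul_xyzW (deltaOf h2 D) 0 2
  have m12 := abcW_mul_xyzW (deltaOf h2 D) 1 2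
  have hd : lamW (deltaOf h2 D) (D.φ₀ : Λ) ^ 2 * lamW _ (eOf D) = lamW _ D.d₀ := by
    rw [← map_pow, ← map_mul, phi_sq_mul_eOf]
  have hδ' : lamW (deltaOf h2 D) (deltaOf h2 D) = lamW _ (sigma0 h2 D) ^ 2 - 1 := by
    rw [deltaOf, map_sub, map_pow, map_one]
  have hζ : lamW (deltaOf h2 D) ((D.ζ : Λ) + ((D.ζ⁻¹ : Λˣ) : Λ)) = 2 * lamW _ (sigma0 h2 D) := by
    rw [← two_mul_sigma0 h2 D, map_mul, map_ofNat]
  have hc : cW h2 D = lamW _ (eOf D) - 1 + abcW _ 0 * abcW _ 0 + abcW _ 1 * abcW _ 2 := by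
    rw [cW, map_sub, map_one]
  refine ⟨?_, ?_, ?_, ?_⟩
  · rw [Matrix.det_fin_two]
    simp only [affMat, entW, Matrix.of_apply, Matrix.cons_val_zero, Matrix.cons_val_one,
      Fin.isValue, if_true, Matrix.cons_val', Matrix.cons_val_fin_one]
    simp only [Fin.isValue, zero_ne_one, one_ne_zero, if_false, zero_add, map_sub, map_one]
    rw [← hd]
    linear_combination (lamW (deltaOf h2 D) (D.φ₀ : Λ)) ^ 2 * (hα.trans hc)
  · rw [Matrix.det_fin_two]
    simp only [affMat, entW, Matrix.of_apply, Matrix.cons_val_zero, Matrix.cons_val_one,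
      Fin.isValue, if_true, Matrix.cons_val', Matrix.cons_val_fin_one]
    simp only [Fin.isValue, zero_ne_one, one_ne_zero, if_false, zero_add, map_sub, map_one]
    linear_combination (-1 : WRing Λ (deltaOf h2 D)) * hq - hδ'
  · rw [Matrix.trace_fin_two]
    simp only [affMat, entW, Matrix.of_apply, Matrix.cons_val_zero, Matrix.cons_val_one,
      Fin.isValue, if_true, Matrix.cons_val', Matrix.cons_val_fin_one, map_sub, map_one]
    rw [hζ]
    ring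
  · ext i j
    fin_cases i <;> fin_cases j <;>
      simp only [Matrix.mul_apply, Fin.sum_univ_two, affMat, entW, Matrix.of_apply,
        Matrix.cons_val_zero, Matrix.cons_val_one, Fin.isValue, if_true, Matrix.cons_val',
        Matrix.cons_val_fin_one, Fin.zero_eta, Fin.mk_one, zero_ne_one, one_ne_zero, if_false,
        zero_add]
    · linear_combination lamW (deltaOf h2 D) (D.φ₀ : Λ) * m12
    · linear_combination (2 * lamW (deltaOf h2 D) (D.φ₀ : Λ)) * m01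
    · linear_combination (-2 * lamW (deltaOf h2 D) (D.φ₀ : Λ)) * m02
    · linear_combination (-lamW (deltaOf h2 D) (D.φ₀ : Λ)) * m12

end A1

section A2

variable {Λ : Type u} [CommRing Λ] [IsLocalRing Λ] [IsNoetherianRing Λ]
  [IsAdicComplete (maximalIdeal Λ) Λ] {ϖ : Λ} (h2 : IsUnit (2 : Λ)) (D : LocalDatum Λ ϖ)
  [hδ : Fact (deltaOf h2 D ∈ maximalIdeal Λ)]
  {K : Type*} [CommRing K] [IsLocalRing K] [IsAdicComplete (maximalIdeal K) K]

/-- (A2), construction: the homomorphism `W → K` attached to `SatA`-data in `K`. -/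
theorem exists_hom_of_satA (γ : Λ →+* K)
    (E : Bool → Fin 2 → Fin 2 → K) (hE : ∀ b i j, E b i j ∈ maximalIdeal K)
    (hS : SatA (γ (D.φ₀ : Λ)) (γ D.d₀) (γ ((D.ζ : Λ) + ((D.ζ⁻¹ : Λˣ) : Λ))) E) :
    ∃ ψ : WRing Λ (deltaOf h2 D) →+* K, (∀ l, ψ (lamW _ l) = γ l) ∧
      ψ (xyzW _ 0) = γ ((h2.unit⁻¹ : Λˣ) : Λ) * (E true 0 0 - E true 1 1) ∧
      ψ (xyzW _ 1) = E true 0 1 ∧ ψ (xyzW _ 2) = E true 1 0 ∧
      ψ (abcW _ 0) = γ ((h2.unit⁻¹ : Λˣ) : Λ) * γ ((D.φ₀⁻¹ : Λˣ) : Λ) * (E false 0 0 - E false 1 1) ∧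
      ψ (abcW _ 1) = γ ((D.φ₀⁻¹ : Λˣ) : Λ) * E false 0 1 ∧
      ψ (abcW _ 2) = γ ((D.φ₀⁻¹ : Λˣ) : Λ) * E false 1 0 := by
  obtain ⟨h1, h2', h3, h4⟩ := hS
  -- abbreviations
  set i2 : K := γ ((h2.unit⁻¹ : Λˣ) : Λ) with hi2
  set iφ : K := γ ((D.φ₀⁻¹ : Λˣ) : Λ) with hiφ
  have h2i : (2 : K) * i2 = 1 := by
    rw [hi2, ← map_ofNat γ 2, ← map_mul, two_mul_inv2, map_one]
  have hφi : γ (D.φ₀ : Λ) * iφ = 1 := by rw [hiφ, ← map_mul, phi_mul_inv, map_one]
  set xK : K := i2 * (E true 0 0 - E true 1 1) with hxK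
  set yK : K := E true 0 1 with hyK
  set zK : K := E true 1 0 with hzK
  set aK : K := i2 * iφ * (E false 0 0 - E false 1 1) with haK
  set bK : K := iφ * E false 0 1 with hbK
  set cK : K := iφ * E false 1 0 with hcK
  -- the relations, entrywise
  rw [Matrix.det_fin_two] at h1 h2'
  rw [Matrix.trace_fin_two] at h3
  have c00 := congrFun (congrFun h4 0) 0
  have c01 := congrFun (congrFun h4 0) 1
  have c10 := congrFun (congrFun h4 1) 0
  simp only [Matrix.mul_apply, Fin.sum_univ_two, affMat, Matrix.of_apply, Fin.isValue, if_true,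
    zero_ne_one, one_ne_zero, if_false, zero_add] at h1 h2' h3 c00 c01 c10
  have hσ : γ (sigma0 h2 D) = i2 * γ ((D.ζ : Λ) + ((D.ζ⁻¹ : Λˣ) : Λ)) := by
    rw [sigma0, map_mul]
  have hδK : γ (deltaOf h2 D) = γ (sigma0 h2 D) ^ 2 - 1 := by
    rw [deltaOf, map_sub, map_pow, map_one]
  -- quadric relation
  have hquad : xK * xK = γ (deltaOf h2 D) - yK * zK := by
    rw [hδK, hσ, ← h3, hxK, hyK, hzK]
    linear_combination (-(1 : K)) * h2' +
      (-((1 + E true 0 0) * (1 + E true 1 1)) * (2 * i2 + 1)) * h2i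
  -- the minors
  have m01 : aK * yK = bK * xK := by
    rw [haK, hyK, hbK, hxK]
    linear_combination (i2 * iφ) * c01
  have m02 : aK * zK = cK * xK := by
    rw [haK, hzK, hcK, hxK]
    linear_combination (-(i2 * iφ)) * c10
  have m12 : bK * zK = cK * yK := by
    rw [hbK, hzK, hcK, hyK]
    linear_combination iφ * c00
  -- the tower of evaluation maps
  obtain ⟨ψ₁, hψ₁C, hψ₁X⟩ := exists_evalRingHom (σ := Unit) γ (fun _ => zK) (fun _ => hE _ _ _)
  obtain ⟨ψ₂, hψ₂C, hψ₂X⟩ := exists_evalRingHom (σ := Unit) ψ₁ (fun _ => yK) (fun _ => hE _ _ _)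
  have hw : xK * xK = ψ₂ (wElt Λ (deltaOf h2 D)) := by
    rw [hquad, wElt, map_sub, map_mul]
    have e1 : ψ₂ (PowerSeries.C (PowerSeries.C (deltaOf h2 D))) = γ (deltaOf h2 D) := by
      rw [show (PowerSeries.C (PowerSeries.C (deltaOf h2 D)) : DRing Λ) =
        MvPowerSeries.C (PowerSeries.C (deltaOf h2 D)) from rfl, hψ₂C]
      exact hψ₁C _
    have e2 : ψ₂ (PowerSeries.X : DRing Λ) = yK := hψ₂X ()
    have e3 : ψ₂ (PowerSeries.C (PowerSeries.X : PowerSeries Λ)) = zK := by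
      rw [show (PowerSeries.C (PowerSeries.X : PowerSeries Λ) : DRing Λ) =
        MvPowerSeries.C (PowerSeries.X : PowerSeries Λ) from rfl, hψ₂C]
      exact hψ₁X ()
    rw [e1, e2, e3]
  set ψH : HRing Λ (deltaOf h2 D) →+* K := quadLift ψ₂ xK hw with hψH
  have habcK : ∀ i : Fin 3, (![aK, bK, cK] : Fin 3 → K) i ∈ maximalIdeal K := by
    intro i
    fin_cases i
    · exact Ideal.mul_mem_left _ _ (Ideal.sub_mem _ (hE _ _ _) (hE _ _ _))
    · exact Ideal.mul_mem_left _ _ (hE _ _ _)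
    · exact Ideal.mul_mem_left _ _ (hE _ _ _)
  obtain ⟨ψ₃, hψ₃C, hψ₃X⟩ := exists_evalRingHom (σ := Fin 3) ψH ![aK, bK, cK] habcK
  have hxyzK : ∀ i : Fin 3, ψH (xyzH Λ (deltaOf h2 D) i) = (![xK, yK, zK] : Fin 3 → K) i := by
    intro i
    fin_cases i
    · exact quadLift_omega ψ₂ xK hw
    · show ψH (yH Λ (deltaOf h2 D)) = yK
      rw [yH, hψH, quadLift_algebraMap]
      exact hψ₂X ()
    · show ψH (zH Λ (deltaOf h2 D)) = zK
      rw [zH, hψH, quadLift_algebraMap,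
        show (PowerSeries.C (PowerSeries.X : PowerSeries Λ) : DRing Λ) =
          MvPowerSeries.C (PowerSeries.X : PowerSeries Λ) from rfl, hψ₂C]
      exact hψ₁X ()
  have hminor : ∀ i k : Fin 3, (![aK, bK, cK] : Fin 3 → K) i * (![xK, yK, zK] : Fin 3 → K) k =
      (![aK, bK, cK] : Fin 3 → K) k * (![xK, yK, zK] : Fin 3 → K) i := by
    intro i k
    fin_cases i <;> fin_cases k
    · rfl
    · exact m01
    · exact m02
    · exact m01.symm
    · rfl
    · exact m12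
    · exact m02.symm
    · exact m12.symm
    · rfl
  have hkill : ∀ F ∈ minorIdeal (xyzH Λ (deltaOf h2 D)), ψ₃ F = 0 := by
    intro F hF
    have hle : minorIdeal (xyzH Λ (deltaOf h2 D)) ≤ RingHom.ker ψ₃ := by
      rw [minorIdeal, Ideal.span_le]
      rintro _ ⟨p, rfl⟩
      rw [SetLike.mem_coe, RingHom.mem_ker, map_sub, map_mul, map_mul, hψ₃X, hψ₃X, hψ₃C, hψ₃C,
        hxyzK, hxyzK, sub_eq_zero]
      exact hminor p.1 p.2
    exact hle hF
  refine ⟨Ideal.Quotient.lift _ ψ₃ hkill, ?_, ?_, ?_, ?_, ?_, ?_, ?_⟩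
  · intro l
    rw [lamW_apply]
    show ψ₃ (C _) = γ l
    rw [hψ₃C, hψH, quadLift_algebraMap,
      show (PowerSeries.C (PowerSeries.C l) : DRing Λ) = MvPowerSeries.C (PowerSeries.C l) from rfl,
      hψ₂C]
    exact hψ₁C l
  · show ψ₃ (C (xyzH Λ (deltaOf h2 D) 0)) = xK
    rw [hψ₃C, hxyzK]
    rfl
  · show ψ₃ (C (xyzH Λ (deltaOf h2 D) 1)) = yK
    rw [hψ₃C, hxyzK]
    rfl
  · show ψ₃ (C (xyzH Λ (deltaOf h2 D) 2)) = zK
    rw [hψ₃C, hxyzK]
    rfl
  · show ψ₃ (X 0) = aK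
    rw [hψ₃X]
    rfl
  · show ψ₃ (X 1) = bK
    rw [hψ₃X]
    rfl
  · show ψ₃ (X 2) = cK
    rw [hψ₃X]
    rfl

/-- (A2), values: the homomorphism of `exists_hom_of_satA` sends the universal entries to `E`. -/
theorem hom_entW (γ : Λ →+* K)
    (E : Bool → Fin 2 → Fin 2 → K) (hE : ∀ b i j, E b i j ∈ maximalIdeal K)
    (hS : SatA (γ (D.φ₀ : Λ)) (γ D.d₀) (γ ((D.ζ : Λ) + ((D.ζ⁻¹ : Λˣ) : Λ))) E)
    (ψ : WRing Λ (deltaOf h2 D) →+* K) (hψl : ∀ l, ψ (lamW _ l) = γ l)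
    (hψx : ψ (xyzW _ 0) = γ ((h2.unit⁻¹ : Λˣ) : Λ) * (E true 0 0 - E true 1 1))
    (hψy : ψ (xyzW _ 1) = E true 0 1) (hψz : ψ (xyzW _ 2) = E true 1 0)
    (hψa : ψ (abcW _ 0) =
      γ ((h2.unit⁻¹ : Λˣ) : Λ) * γ ((D.φ₀⁻¹ : Λˣ) : Λ) * (E false 0 0 - E false 1 1))
    (hψb : ψ (abcW _ 1) = γ ((D.φ₀⁻¹ : Λˣ) : Λ) * E false 0 1)
    (hψc : ψ (abcW _ 2) = γ ((D.φ₀⁻¹ : Λˣ) : Λ) * E false 1 0)
    {α : WRing Λ (deltaOf h2 D)} (hα : α ∈ maximalIdeal (WRing Λ (deltaOf h2 D)))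
    (hα' : α * α + 2 * α = cW h2 D) (b : Bool) (i j : Fin 2) :
    ψ (entW h2 D α b i j) = E b i j := by
  obtain ⟨h1, h2', h3, h4⟩ := hS
  set i2 : K := γ ((h2.unit⁻¹ : Λˣ) : Λ) with hi2
  set iφ : K := γ ((D.φ₀⁻¹ : Λˣ) : Λ) with hiφ
  have h2i : (2 : K) * i2 = 1 := by
    rw [hi2, ← map_ofNat γ 2, ← map_mul, two_mul_inv2, map_one]
  have hφi : γ (D.φ₀ : Λ) * iφ = 1 := by rw [hiφ, ← map_mul, phi_mul_inv, map_one]
  have h2K : IsUnit (2 : K) := by
    have := h2.map γ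
    rwa [map_ofNat] at this
  rw [Matrix.det_fin_two] at h1
  rw [Matrix.trace_fin_two] at h3
  simp only [affMat, Matrix.of_apply, Fin.isValue, if_true, zero_ne_one, one_ne_zero, if_false,
    zero_add] at h1 h3
  have hσ : γ (sigma0 h2 D) = i2 * γ ((D.ζ : Λ) + ((D.ζ⁻¹ : Λˣ) : Λ)) := by
    rw [sigma0, map_mul]
  -- the image of `c`
  set αK : K := i2 * iφ * (E false 0 0 + E false 1 1) with hαK
  have hcK : ψ (cW h2 D) = γ (eOf D) - 1 + ψ (abcW _ 0) * ψ (abcW _ 0) +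
      ψ (abcW _ 1) * ψ (abcW _ 2) := by
    rw [cW, map_add, map_add, map_mul, map_mul, hψl, map_sub, map_one]
  have hp : 1 + αK + ψ (abcW _ 0) = iφ * (γ (D.φ₀ : Λ) + E false 0 0) := by
    rw [hψa, hαK]
    linear_combination (-(1 : K)) * hφi + (iφ * E false 0 0) * h2i
  have hq : 1 + αK - ψ (abcW _ 0) = iφ * (γ (D.φ₀ : Λ) + E false 1 1) := by
    rw [hψa, hαK]
    linear_combination (-(1 : K)) * hφi + (iφ * E false 1 1) * h2i
  have hαKeq : αK * αK + 2 * αK = ψ (cW h2 D) := by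
    rw [hcK, eOf, map_mul, map_pow, ← hiφ, hψb, hψc]
    linear_combination (1 + αK - ψ (abcW _ 0)) * hp +
      (iφ * (γ (D.φ₀ : Λ) + E false 0 0)) * hq + iφ ^ 2 * h1
  have hαKmem : αK ∈ maximalIdeal K :=
    Ideal.mul_mem_left _ _ (Ideal.add_mem _ (hE _ _ _) (hE _ _ _))
  have hcmem : ψ (cW h2 D) ∈ maximalIdeal K := by
    rw [← hαKeq]
    exact Ideal.add_mem _ (Ideal.mul_mem_left _ _ hαKmem) (Ideal.mul_mem_left _ _ hαKmem)
  have hψαmem : ψ α ∈ maximalIdeal K :=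
    map_root_mem ψ (isUnit_two_WRing h2 D) hα hα' hcmem
  have hψα : ψ α = αK := by
    refine root_sq_add_two_mul_unique h2K hψαmem hαKmem ?_ hαKeq
    rw [← hα', map_add, map_mul, map_mul, map_ofNat]
  cases b <;> fin_cases i <;> fin_cases j
  · show ψ (lamW _ (D.φ₀ : Λ) * (α + abcW _ 0)) = E false 0 0
    rw [map_mul, map_add, hψl, hψα, hψa, hαK]
    linear_combination (E false 0 0 * (2 * i2)) * hφi + E false 0 0 * h2i
  · show ψ (lamW _ (D.φ₀ : Λ) * abcW _ 1) = E false 0 1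
    rw [map_mul, hψl, hψb]
    linear_combination E false 0 1 * hφi
  · show ψ (lamW _ (D.φ₀ : Λ) * abcW _ 2) = E false 1 0
    rw [map_mul, hψl, hψc]
    linear_combination E false 1 0 * hφi
  · show ψ (lamW _ (D.φ₀ : Λ) * (α - abcW _ 0)) = E false 1 1
    rw [map_mul, map_sub, hψl, hψα, hψa, hαK]
    linear_combination (E false 1 1 * (2 * i2)) * hφi + E false 1 1 * h2i
  · show ψ (lamW _ (sigma0 h2 D - 1) + xyzW _ 0) = E true 0 0
    rw [map_add, hψl, hψx, map_sub, map_one]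
    linear_combination hσ - i2 * h3 + (1 + E true 0 0) * h2i
  · exact hψy
  · exact hψz
  · show ψ (lamW _ (sigma0 h2 D - 1) - xyzW _ 0) = E true 1 1
    rw [map_sub, hψl, hψx, map_sub, map_one]
    linear_combination hσ - i2 * h3 + (1 + E true 1 1) * h2i

end A2

end Fermat.Agent.S43lib.Loc
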