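/-
S43lib / Loc / Single (helper1).

**The single-prime step.**  Let `Λ` be a complete Noetherian local ring embedded in a good base,
`D` a local datum over `Λ`.  Then `K = Λ⟦Φ, Σ entries⟧ ⧸ (relations of type (χ, χ⁻¹))` is again
embedded in a good base (in particular it is a domain), and `Λ → K` is injective.
-/
import Mathlib
import Fermat.Agent.S43lib.Loc.StageUP
import Fermat.Agent.S43lib.IA.RingFacts

set_option autoImplicit false
set_option linter.style.haveILetI false
set_option linter.unusedSectionVars false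

namespace Fermat.Agent.S43lib.Loc

open MvPowerSeries IsLocalRing Fermat.Agent.S43lib.IA

universe u

/-- A base ring embedded in a good base. -/
def Embeds (Λ : Type u) [CommRing Λ] (ϖ : Λ) : Prop :=
  ∃ (G : Type u) (_ : CommRing G) (ϖG : G) (f : Λ →+* G),
    GoodBase G ϖG ∧ Function.Injective f ∧ f ϖ = ϖG

theorem Embeds.isDomain {Λ : Type u} [CommRing Λ] {ϖ : Λ} (h : Embeds Λ ϖ) : IsDomain Λ := by
  obtain ⟨G, _, ϖG, f, hG, hf, -⟩ := h
  haveI := hG.isDomain
  exact hf.isDomain f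

theorem powerSeries_map_injective {A B : Type*} [CommRing A] [CommRing B] (g : A →+* B)
    (hg : Function.Injective g) : Function.Injective (PowerSeries.map g) := by
  intro a b hab
  ext n
  have := congrArg (PowerSeries.coeff n) hab
  rw [PowerSeries.coeff_map, PowerSeries.coeff_map] at this
  exact hg this

section Single

variable {Λ : Type u} [CommRing Λ] [IsLocalRing Λ] [IsNoetherianRing Λ]
  [IsAdicComplete (maximalIdeal Λ) Λ] {ϖ : Λ}

/-- The single-prime ring. -/
abbrev K₁ (D : LocalDatum Λ ϖ) : Type u :=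
  MvPowerSeries (Var Unit 0) Λ ⧸ idealA (fun _ : Unit => D) 0

theorem single_step (hϖ : ϖ ∈ maximalIdeal Λ) (h2 : IsUnit (2 : Λ)) (D : LocalDatum Λ ϖ)
    (hΛ : Embeds Λ ϖ) :
    idealA (fun _ : Unit => D) 0 ≠ ⊤ ∧
      Function.Injective (algebraMap Λ (K₁ D)) ∧
      Embeds (K₁ D) (Ideal.Quotient.mk (idealA (fun _ : Unit => D) 0) (C ϖ)) := by
  classical
  haveI : IsDomain Λ := hΛ.isDomain
  obtain ⟨G, _, ϖG, f, hG, hf, hfϖ⟩ := hΛ
  -- `δ`
  have hδmem : deltaOf h2 D ∈ maximalIdeal Λ :=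
    (Ideal.span_singleton_le_iff_mem _ |>.mpr hϖ) (deltaOf_mem h2 D)
  haveI : Fact (deltaOf h2 D ∈ maximalIdeal Λ) := ⟨hδmem⟩
  have hδ0 : deltaOf h2 D ≠ 0 := deltaOf_ne_zero h2 D
  have hδreg : ∀ a : Λ, deltaOf h2 D * a = 0 → a = 0 := fun a ha =>
    (mul_eq_zero.mp ha).resolve_left hδ0
  -- the Hensel root and the evaluation map `φ`
  obtain ⟨α, hαmem, hα⟩ := exists_alphaW h2 D hϖ
  let xW : Var Unit 0 → WRing Λ (deltaOf h2 D) :=
    Sum.elim (fun p => entW h2 D α p.2.1 p.2.2.1 p.2.2.2) (fun k => Fin.elim0 k)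
  have hxW : ∀ s, xW s ∈ maximalIdeal (WRing Λ (deltaOf h2 D)) := by
    rintro (p | k)
    · exact entW_mem h2 D hϖ hαmem _ _ _
    · exact Fin.elim0 k
  obtain ⟨φ, hφC, hφX⟩ := exists_evalRingHom (lamW (deltaOf h2 D)) xW hxW
  have hφkill : ∀ t ∈ idealA (fun _ : Unit => D) 0, φ t = 0 := by
    intro t ht
    have hle : idealA (fun _ : Unit => D) 0 ≤ RingHom.ker φ := by
      rw [idealA, Ideal.span_le]
      intro t ht
      obtain ⟨r, hr⟩ := Set.mem_iUnion.mp ht
      rw [SetLike.mem_coe, RingHom.mem_ker]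
      refine (forall_relsA_map_eq_zero_iff (fun _ : Unit => D) r φ).mpr ?_ t hr
      simp only [hφC, hφX]
      exact satA_entW h2 D hα
    exact hle ht
  have hne : idealA (fun _ : Unit => D) 0 ≠ ⊤ := by
    intro htop
    have h1 : (1 : MvPowerSeries (Var Unit 0) Λ) ∈ idealA (fun _ : Unit => D) 0 := by
      rw [htop]; exact Submodule.mem_top
    have := hφkill 1 h1
    rw [map_one] at this
    exact one_ne_zero this
  -- `K` is complete local
  haveI : IsLocalRing (K₁ D) := Fermat.Agent.TeamA.isLocalRing_quotient _ hne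
  haveI : IsLocalHom (Ideal.Quotient.mk (idealA (fun _ : Unit => D) 0)) :=
    Fermat.Agent.TeamA.isLocalHom_quotient_mk _ hne
  haveI : IsAdicComplete (maximalIdeal (K₁ D)) (K₁ D) :=
    Fermat.Agent.TeamA.isAdicComplete_quotient _ hne
  -- the data in `K`
  let mkK : MvPowerSeries (Var Unit 0) Λ →+* K₁ D := Ideal.Quotient.mk _
  let γ : Λ →+* K₁ D := mkK.comp C
  let E : Bool → Fin 2 → Fin 2 → K₁ D := fun b i j => mkK (X (Sum.inl ((), b, i, j)))
  have hXmem : ∀ s : Var Unit 0, mkK (X s) ∈ maximalIdeal (K₁ D) := by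
    intro s
    rw [mem_maximalIdeal, mem_nonunits_iff]
    intro hu
    have := isUnit_of_map_unit mkK _ hu
    rw [MvPowerSeries.isUnit_iff_constantCoeff, constantCoeff_X] at this
    exact not_isUnit_zero this
  have hE : ∀ b i j, E b i j ∈ maximalIdeal (K₁ D) := fun b i j => hXmem _
  have hS : SatA (γ (D.φ₀ : Λ)) (γ D.d₀) (γ ((D.ζ : Λ) + ((D.ζ⁻¹ : Λˣ) : Λ))) E := by
    refine (forall_relsA_map_eq_zero_iff (fun _ : Unit => D) () mkK).mp ?_
    intro t ht
    refine Ideal.Quotient.eq_zero_iff_mem.mpr (Ideal.subset_span ?_)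
    exact Set.mem_iUnion.mpr ⟨(), ht⟩
  obtain ⟨ψ, hψl, hψx, hψy, hψz, hψa, hψb, hψc⟩ := exists_hom_of_satA h2 D γ E hE hS
  have hψE := hom_entW h2 D γ E hE hS ψ hψl hψx hψy hψz hψa hψb hψc hαmem hα
  -- the retract identity
  have hretract : ∀ p, ψ (φ p) = mkK p := by
    have : ψ.comp φ = mkK := by
      refine ringHom_ext_of_isHausdorff (ψ.comp φ) mkK ?_ ?_ ?_
      · intro a
        rw [RingHom.comp_apply, hφC, hψl]
        rfl
      · rintro (p | k)
        · rw [RingHom.comp_apply, hφX]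
          show ψ (entW h2 D α p.2.1 p.2.2.1 p.2.2.2) ∈ _
          rw [hψE]
          exact hE _ _ _
        · exact Fin.elim0 k
      · rintro (⟨⟨⟩, b, i, j⟩ | k)
        · rw [RingHom.comp_apply, hφX]
          exact hψE b i j
        · exact Fin.elim0 k
    intro p
    rw [← this]
    rfl
  have hinj1 := injective_lift_of_retract (idealA (fun _ : Unit => D) 0) φ hφkill ψ hretract
  have hinj2 := WRing.toPowerSeries_injective (Λ := Λ) (δ := deltaOf h2 D) hδreg
  have hinj3 := powerSeries_map_injective (HRing.map f (deltaOf h2 D))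
    (HRing.map_injective f hf (deltaOf h2 D))
  -- the embedding
  let F : K₁ D →+* PowerSeries (HRing G (f (deltaOf h2 D))) :=
    ((PowerSeries.map (HRing.map f (deltaOf h2 D))).comp WRing.toPowerSeries).comp
      (Ideal.Quotient.lift (idealA (fun _ : Unit => D) 0) φ hφkill)
  have hFinj : Function.Injective F := hinj3.comp (hinj2.comp hinj1)
  have hFC : ∀ l : Λ, F (mkK (C l)) =
      PowerSeries.C (algebraMap (DRing G) (HRing G (f (deltaOf h2 D)))
        (PowerSeries.C (PowerSeries.C (f l)))) := by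
    intro l
    show PowerSeries.map (HRing.map f (deltaOf h2 D)) (WRing.toPowerSeries (φ (C l))) = _
    rw [hφC, lamW_apply, WRing.toPowerSeries_mk, reesHom_C, PowerSeries.map_C,
      HRing.map_algebraMap]
  have hdvd : ϖG ∣ f (deltaOf h2 D) := by
    obtain ⟨c, hc⟩ := Ideal.mem_span_singleton'.mp (deltaOf_mem h2 D)
    exact ⟨f c, by rw [← hc, map_mul, hfϖ, mul_comm]⟩
  refine ⟨hne, ?_, ?_⟩
  · -- `Λ → K` is injective
    intro l l' hll'
    have h1 : F (mkK (C l)) = F (mkK (C l')) := by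
      have e : ∀ a : Λ, algebraMap Λ (K₁ D) a = mkK (C a) := fun a => rfl
      rw [← e, ← e, hll']
    rw [hFC, hFC] at h1
    have h2' := PowerSeries.C_injective h1
    have h3 := QuadraticAlgebra.algebraMap_injective h2'
    exact hf (PowerSeries.C_injective (PowerSeries.C_injective h3))
  · refine ⟨PowerSeries (HRing G (f (deltaOf h2 D))), inferInstance,
      PowerSeries.C (ϖH (f (deltaOf h2 D)) ϖG), F, (goodBase_HRing hG hdvd).powerSeries, hFinj, ?_⟩
    show F (mkK (C ϖ)) = _
    rw [hFC, hfϖ]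
    rfl

end Single

end Fermat.Agent.S43lib.Loc
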