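/-
S43lib / Loc / Multi (helper1).

**Induction on the set of auxiliary primes.**  `P ⧸ I^A = Λ⟦Var T h⟧ ⧸ (relations of type (χ, χ⁻¹) at
all r ∈ T)` is a domain, for every complete Noetherian local ring `Λ` embedded in a good base.

Step: for `r₀ ∈ T`, `Λ' = K₁ (D r₀)` (the single-prime ring, again embedded in a good base by
`single_step`), `T' = T ∖ {r₀}`; the ring `P ⧸ I^A` is a retract-image of, hence embeds into,
`Λ'⟦Var T' h⟧ ⧸ I'^A`, which is a domain by induction.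
-/
import Mathlib
import Fermat.Agent.S43lib.Loc.Single

set_option autoImplicit false
set_option linter.style.haveILetI false
set_option linter.unusedSectionVars false

namespace Fermat.Agent.S43lib.Loc

open MvPowerSeries IsLocalRing Fermat.Agent.S43lib.IA

universe u

section Helpers

/-- The image of a non-unit in a local quotient is a non-unit. -/
theorem mk_mem_maximalIdeal {S : Type*} [CommRing S] [IsLocalRing S] (J : Ideal S)
    [IsLocalRing (S ⧸ J)] {a : S} (ha : a ∈ maximalIdeal S) :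
    Ideal.Quotient.mk J a ∈ maximalIdeal (S ⧸ J) := by
  have hJ : J ≠ ⊤ := Ideal.Quotient.nontrivial_iff.mp inferInstance
  haveI := Fermat.Agent.TeamA.isLocalHom_quotient_mk J hJ
  rw [mem_maximalIdeal, mem_nonunits_iff] at ha ⊢
  exact fun hu => ha (isUnit_of_map_unit (Ideal.Quotient.mk J) a hu)

theorem X_mem_maximalIdeal {σ Λ : Type*} [CommRing Λ] [IsLocalRing Λ] (s : σ) :
    (X s : MvPowerSeries σ Λ) ∈ maximalIdeal (MvPowerSeries σ Λ) := by
  rw [Fermat.Agent.TeamA.mem_maximalIdeal_mvPowerSeries_iff, constantCoeff_X]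
  exact zero_mem _

theorem C_mem_maximalIdeal {σ Λ : Type*} [CommRing Λ] [IsLocalRing Λ] {a : Λ}
    (ha : a ∈ maximalIdeal Λ) :
    (C a : MvPowerSeries σ Λ) ∈ maximalIdeal (MvPowerSeries σ Λ) := by
  rw [Fermat.Agent.TeamA.mem_maximalIdeal_mvPowerSeries_iff, constantCoeff_C]
  exact ha

variable {Λ : Type*} [CommRing Λ] {ϖ : Λ} {T : Type} [Fintype T] {h : ℕ} {B : Type*} [CommRing B]

/-- A ring homomorphism kills `idealA` as soon as the image matrices satisfy `SatA` at every `r`. -/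
theorem map_eq_zero_of_mem_idealA (D : T → LocalDatum Λ ϖ) (g : MvPowerSeries (Var T h) Λ →+* B)
    (hS : ∀ r, SatA (g (C (((D r).φ₀ : Λˣ) : Λ))) (g (C (D r).d₀))
        (g (C (((D r).ζ : Λ) + (((D r).ζ⁻¹ : Λˣ) : Λ))))
        (fun b i j => g (X (Sum.inl (r, b, i, j))))) :
    ∀ t ∈ idealA D h, g t = 0 := by
  have hle : idealA D h ≤ RingHom.ker g := by
    rw [idealA, Ideal.span_le]
    intro t ht
    obtain ⟨r, hr⟩ := Set.mem_iUnion.mp ht
    rw [SetLike.mem_coe, RingHom.mem_ker]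
    exact (forall_relsA_map_eq_zero_iff D r g).mpr (hS r) t hr
  exact fun t ht => hle ht

/-- The universal matrices over `P ⧸ I^A` satisfy `SatA`. -/
theorem satA_mk (D : T → LocalDatum Λ ϖ) (r : T) :
    SatA (Ideal.Quotient.mk (idealA D h) (C (((D r).φ₀ : Λˣ) : Λ)))
      (Ideal.Quotient.mk (idealA D h) (C (D r).d₀))
      (Ideal.Quotient.mk (idealA D h) (C (((D r).ζ : Λ) + (((D r).ζ⁻¹ : Λˣ) : Λ))))
      (fun b i j => Ideal.Quotient.mk (idealA D h) (X (Sum.inl (r, b, i, j)))) := by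
  refine (forall_relsA_map_eq_zero_iff D r (Ideal.Quotient.mk (idealA D h))).mp ?_
  intro t ht
  refine Ideal.Quotient.eq_zero_iff_mem.mpr (Ideal.subset_span ?_)
  exact Set.mem_iUnion.mpr ⟨r, ht⟩

/-- `SatA` only depends on the values. -/
theorem SatA.congr {A : Type*} [CommRing A] {φ₀ d₀ t φ₀' d₀' t' : A}
    {E E' : Bool → Fin 2 → Fin 2 → A} (hS : SatA φ₀ d₀ t E) (h1 : φ₀ = φ₀') (h2 : d₀ = d₀')
    (h3 : t = t') (h4 : ∀ b i j, E b i j = E' b i j) : SatA φ₀' d₀' t' E' := by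
  have : E = E' := by
    funext b i j
    exact h4 b i j
  rw [← h1, ← h2, ← h3, ← this]
  exact hS

end Helpers

section Step

variable {Λ : Type u} [CommRing Λ] [IsLocalRing Λ] [IsNoetherianRing Λ]
  [IsAdicComplete (maximalIdeal Λ) Λ] {ϖ : Λ}

theorem localDatum_map_phi {Λ' : Type*} [CommRing Λ'] (D : LocalDatum Λ ϖ) (f : Λ →+* Λ')
    (hf : Function.Injective f) : (((D.map f hf).φ₀ : Λ'ˣ) : Λ') = f (D.φ₀ : Λ) := rfl

theorem localDatum_map_d {Λ' : Type*} [CommRing Λ'] (D : LocalDatum Λ ϖ) (f : Λ →+* Λ')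
    (hf : Function.Injective f) : (D.map f hf).d₀ = f D.d₀ := rfl

theorem localDatum_map_zeta {Λ' : Type*} [CommRing Λ'] (D : LocalDatum Λ ϖ) (f : Λ →+* Λ')
    (hf : Function.Injective f) :
    (((D.map f hf).ζ : Λ'ˣ) : Λ') + (((D.map f hf).ζ⁻¹ : Λ'ˣ) : Λ') =
      f ((D.ζ : Λ) + ((D.ζ⁻¹ : Λˣ) : Λ)) := by
  rw [map_add]
  rfl

/-- The inductive step: removing one prime `r₀`. -/
theorem isDomain_step {T : Type} [Fintype T] [DecidableEq T] (h : ℕ) (D : T → LocalDatum Λ ϖ)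
    (r₀ : T) (hne : idealA (fun _ : Unit => D r₀) 0 ≠ ⊤)
    (hι : Function.Injective (algebraMap Λ (K₁ (D r₀))))
    (IH : IsDomain (MvPowerSeries (Var {r : T // r ≠ r₀} h) (K₁ (D r₀)) ⧸
      idealA (fun r : {r : T // r ≠ r₀} => (D r.1).map (algebraMap Λ (K₁ (D r₀))) hι) h)) :
    IsDomain (MvPowerSeries (Var T h) Λ ⧸ idealA D h) := by
  -- the single-prime ring `Λ'`
  haveI : IsLocalRing (K₁ (D r₀)) := Fermat.Agent.TeamA.isLocalRing_quotient _ hne
  haveI : IsAdicComplete (maximalIdeal (K₁ (D r₀))) (K₁ (D r₀)) :=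
    Fermat.Agent.TeamA.isAdicComplete_quotient _ hne
  let mkΛ : MvPowerSeries (Var Unit 0) Λ →+* K₁ (D r₀) := Ideal.Quotient.mk _
  let ι : Λ →+* K₁ (D r₀) := algebraMap Λ (K₁ (D r₀))
  have hιC : ∀ a : Λ, ι a = mkΛ (C a) := fun a => rfl
  let D' : {r : T // r ≠ r₀} → LocalDatum (K₁ (D r₀)) (ι ϖ) := fun r => (D r.1).map ι hι
  -- the ring `W`
  have hneW : idealA D' h ≠ ⊤ := by
    haveI := IH
    exact Ideal.Quotient.nontrivial_iff.mp inferInstance
  haveI : IsLocalRing (MvPowerSeries (Var {r : T // r ≠ r₀} h) (K₁ (D r₀)) ⧸ idealA D' h) :=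
    Fermat.Agent.TeamA.isLocalRing_quotient _ hneW
  haveI := Fermat.Agent.TeamA.isAdicComplete_quotient _ hneW
  let mkW : MvPowerSeries (Var {r : T // r ≠ r₀} h) (K₁ (D r₀)) →+*
      MvPowerSeries (Var {r : T // r ≠ r₀} h) (K₁ (D r₀)) ⧸ idealA D' h := Ideal.Quotient.mk _
  let gW : K₁ (D r₀) →+* MvPowerSeries (Var {r : T // r ≠ r₀} h) (K₁ (D r₀)) ⧸ idealA D' h :=
    mkW.comp C
  haveI : Nontrivial (MvPowerSeries (Var {r : T // r ≠ r₀} h) (K₁ (D r₀)) ⧸ idealA D' h) :=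
    Ideal.Quotient.nontrivial_iff.mpr hneW
  -- the map `φ : P → W`
  let xφ : Var T h → MvPowerSeries (Var {r : T // r ≠ r₀} h) (K₁ (D r₀)) ⧸ idealA D' h :=
    Sum.elim
      (fun p => if hr : p.1 = r₀ then mkW (C (mkΛ (X (Sum.inl ((), p.2)))))
        else mkW (X (Sum.inl (⟨p.1, hr⟩, p.2))))
      (fun k => mkW (X (Sum.inr k)))
  have hxφ : ∀ s, xφ s ∈ maximalIdeal _ := by
    rintro (p | k)
    · show (if hr : p.1 = r₀ then mkW (C (mkΛ (X (Sum.inl ((), p.2)))))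
        else mkW (X (Sum.inl (⟨p.1, hr⟩, p.2)))) ∈ _
      split_ifs with hr
      · exact mk_mem_maximalIdeal _ (C_mem_maximalIdeal (mk_mem_maximalIdeal _
          (X_mem_maximalIdeal _)))
      · exact mk_mem_maximalIdeal _ (X_mem_maximalIdeal _)
    · exact mk_mem_maximalIdeal _ (X_mem_maximalIdeal _)
  obtain ⟨φ, hφC, hφX⟩ := exists_evalRingHom (mkW.comp (C.comp ι)) xφ hxφ
  have hφX0 : ∀ q : Bool × Fin 2 × Fin 2, φ (X (Sum.inl (r₀, q))) =
      mkW (C (mkΛ (X (Sum.inl ((), q))))) := by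
    intro q
    rw [hφX]
    show (if hr : r₀ = r₀ then mkW (C (mkΛ (X (Sum.inl ((), q)))))
        else mkW (X (Sum.inl (⟨r₀, hr⟩, q)))) = _
    rw [dif_pos rfl]
  have hφX1 : ∀ (r : T) (hr : r ≠ r₀) (q : Bool × Fin 2 × Fin 2), φ (X (Sum.inl (r, q))) =
      mkW (X (Sum.inl (⟨r, hr⟩, q))) := by
    intro r hr q
    rw [hφX]
    show (if hr' : r = r₀ then mkW (C (mkΛ (X (Sum.inl ((), q)))))
        else mkW (X (Sum.inl (⟨r, hr'⟩, q)))) = _
    rw [dif_neg hr]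
  have hφX2 : ∀ k : Fin h, φ (X (Sum.inr k)) = mkW (X (Sum.inr k)) := fun k => hφX _
  have h00 : SatA (φ (C (((D r₀).φ₀ : Λˣ) : Λ))) (φ (C (D r₀).d₀))
      (φ (C (((D r₀).ζ : Λ) + (((D r₀).ζ⁻¹ : Λˣ) : Λ))))
      (fun b i j => φ (X (Sum.inl (r₀, b, i, j)))) := by
    have h0 := SatA.map
      (B := MvPowerSeries (Var {r : T // r ≠ r₀} h) (K₁ (D r₀)) ⧸ idealA D' h)
      (satA_mk (h := 0) (fun _ : Unit => D r₀) ()) gW
    refine h0.congr ?_ ?_ ?_ ?_
    · rw [hφC]; rfl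
    · rw [hφC]; rfl
    · rw [hφC]; rfl
    · intro b i j
      rw [hφX0]
      rfl
  have hφkill : ∀ t ∈ idealA D h, φ t = 0 := by
    refine map_eq_zero_of_mem_idealA D φ fun r => ?_
    by_cases hr : r = r₀
    · subst hr
      exact h00
    · have h0 := satA_mk (h := h) D' ⟨r, hr⟩
      refine h0.congr ?_ ?_ ?_ ?_
      · rw [hφC]; rfl
      · rw [hφC]; rfl
      · rw [hφC, localDatum_map_zeta]; rfl
      · intro b i j
        rw [hφX1 r hr]
  have hneP : idealA D h ≠ ⊤ := by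
    intro htop
    have h1 : (1 : MvPowerSeries (Var T h) Λ) ∈ idealA D h := by
      rw [htop]; exact Submodule.mem_top
    have := hφkill 1 h1
    rw [map_one] at this
    have h2 : mkW 1 = 0 := by
      rw [map_one]
      exact this
    exact hneW ((Ideal.eq_top_iff_one _).mpr (Ideal.Quotient.eq_zero_iff_mem.mp h2))
  -- `P ⧸ I` is complete local
  haveI : IsLocalRing (MvPowerSeries (Var T h) Λ ⧸ idealA D h) :=
    Fermat.Agent.TeamA.isLocalRing_quotient _ hneP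
  haveI : IsAdicComplete (maximalIdeal (MvPowerSeries (Var T h) Λ ⧸ idealA D h))
      (MvPowerSeries (Var T h) Λ ⧸ idealA D h) :=
    Fermat.Agent.TeamA.isAdicComplete_quotient _ hneP
  let mkP : MvPowerSeries (Var T h) Λ →+* MvPowerSeries (Var T h) Λ ⧸ idealA D h :=
    Ideal.Quotient.mk _
  -- `Λ' → P ⧸ I`
  let x₁ : Var Unit 0 → MvPowerSeries (Var T h) Λ ⧸ idealA D h :=
    Sum.elim (fun p => mkP (X (Sum.inl (r₀, p.2)))) (fun k => Fin.elim0 k)
  have hx₁ : ∀ s, x₁ s ∈ maximalIdeal _ := by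
    rintro (p | k)
    · exact mk_mem_maximalIdeal _ (X_mem_maximalIdeal _)
    · exact Fin.elim0 k
  obtain ⟨e₁, he₁C, he₁X⟩ := exists_evalRingHom (mkP.comp C) x₁ hx₁
  have he₁kill : ∀ t ∈ idealA (fun _ : Unit => D r₀) 0, e₁ t = 0 := by
    refine map_eq_zero_of_mem_idealA (fun _ : Unit => D r₀) e₁ fun _ => ?_
    have h0 := satA_mk (h := h) D r₀
    refine h0.congr ?_ ?_ ?_ ?_
    · rw [he₁C]; rfl
    · rw [he₁C]; rfl
    · rw [he₁C]; rfl
    · intro b i j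
      rw [he₁X]
      rfl
  let ιR : K₁ (D r₀) →+* MvPowerSeries (Var T h) Λ ⧸ idealA D h :=
    Ideal.Quotient.lift _ e₁ he₁kill
  have hιR : ∀ p, ιR (mkΛ p) = e₁ p := fun p => Ideal.Quotient.lift_mk _ _ _
  -- `W → P ⧸ I`
  let x₂ : Var {r : T // r ≠ r₀} h → MvPowerSeries (Var T h) Λ ⧸ idealA D h :=
    Sum.elim (fun p => mkP (X (Sum.inl (p.1.1, p.2)))) (fun k => mkP (X (Sum.inr k)))
  have hx₂ : ∀ s, x₂ s ∈ maximalIdeal _ := by
    rintro (p | k)
    · exact mk_mem_maximalIdeal _ (X_mem_maximalIdeal _)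
    · exact mk_mem_maximalIdeal _ (X_mem_maximalIdeal _)
  obtain ⟨e₂, he₂C, he₂X⟩ := exists_evalRingHom ιR x₂ hx₂
  have he₂ι : ∀ a : Λ, e₂ (C (ι a)) = mkP (C a) := by
    intro a
    rw [he₂C, hιC, hιR, he₁C]
    rfl
  have he₂kill : ∀ t ∈ idealA D' h, e₂ t = 0 := by
    refine map_eq_zero_of_mem_idealA D' e₂ fun r => ?_
    have h0 := satA_mk (h := h) D r.1
    refine h0.congr ?_ ?_ ?_ ?_
    · show _ = e₂ (C (ι _))
      rw [he₂ι]
    · show _ = e₂ (C (ι _))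
      rw [he₂ι]
    · rw [localDatum_map_zeta, he₂ι]
    · intro b i j
      rw [he₂X]
      rfl
  let ψ : (MvPowerSeries (Var {r : T // r ≠ r₀} h) (K₁ (D r₀)) ⧸ idealA D' h) →+*
      MvPowerSeries (Var T h) Λ ⧸ idealA D h := Ideal.Quotient.lift _ e₂ he₂kill
  have hψ : ∀ p, ψ (mkW p) = e₂ p := fun p => Ideal.Quotient.lift_mk _ _ _
  -- the retract identity
  have hretract : ∀ p, ψ (φ p) = mkP p := by
    have hX : ∀ s, (ψ.comp φ) (X s) = mkP (X s) := by
      rintro (⟨r, q⟩ | k)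
      · by_cases hr : r = r₀
        · subst hr
          rw [RingHom.comp_apply, hφX0, hψ, he₂C, hιR, he₁X]
          rfl
        · rw [RingHom.comp_apply, hφX1 r hr, hψ, he₂X]
          rfl
      · rw [RingHom.comp_apply, hφX2, hψ, he₂X]
        rfl
    have : ψ.comp φ = mkP := by
      refine ringHom_ext_of_isHausdorff (ψ.comp φ) mkP ?_ ?_ hX
      · intro a
        rw [RingHom.comp_apply, hφC]
        show ψ (mkW (C (ι a))) = _
        rw [hψ, he₂ι]
      · intro s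
        rw [hX]
        exact mk_mem_maximalIdeal _ (X_mem_maximalIdeal _)
    intro p
    rw [← this]
    rfl
  haveI := IH
  exact isDomain_of_retract (idealA D h) φ hφkill ψ hretract

end Step

section Induction

/-- `P ⧸ I^A` is a domain: induction on the number of primes. -/
theorem isDomain_quot_idealA_aux (n : ℕ) :
    ∀ (Λ : Type u) [CommRing Λ] [IsLocalRing Λ] [IsNoetherianRing Λ]
      [IsAdicComplete (maximalIdeal Λ) Λ] (ϖ : Λ) (_ : ϖ ∈ maximalIdeal Λ) (_ : IsUnit (2 : Λ))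
      (_ : Embeds Λ ϖ) (T : Type) [Fintype T] (_ : Fintype.card T = n) (h : ℕ)
      (D : T → LocalDatum Λ ϖ), IsDomain (MvPowerSeries (Var T h) Λ ⧸ idealA D h) := by
  induction n with
  | zero =>
    intro Λ _ _ _ _ ϖ hϖ h2 hΛ T _ hT h D
    haveI : IsDomain Λ := hΛ.isDomain
    haveI : IsEmpty T := Fintype.card_eq_zero_iff.mp hT
    have h0 : idealA D h = ⊥ := by
      rw [idealA, Set.iUnion_of_empty, Ideal.span_empty]
    rw [h0]
    exact (Ideal.Quotient.isDomain_iff_prime _).mpr Ideal.isPrime_bot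
  | succ n ih =>
    intro Λ _ _ _ _ ϖ hϖ h2 hΛ T _ hT h D
    letI : DecidableEq T := Classical.decEq T
    haveI : Nonempty T := Fintype.card_pos_iff.mp (by omega)
    obtain ⟨r₀⟩ := ‹Nonempty T›
    obtain ⟨hne, hι, hemb⟩ := single_step hϖ h2 (D r₀) hΛ
    haveI : IsLocalRing (K₁ (D r₀)) := Fermat.Agent.TeamA.isLocalRing_quotient _ hne
    haveI : IsAdicComplete (maximalIdeal (K₁ (D r₀))) (K₁ (D r₀)) :=
      Fermat.Agent.TeamA.isAdicComplete_quotient _ hne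
    refine isDomain_step h D r₀ hne hι ?_
    refine ih (K₁ (D r₀)) (algebraMap Λ (K₁ (D r₀)) ϖ) ?_ ?_ hemb {r : T // r ≠ r₀} ?_ h _
    · exact mk_mem_maximalIdeal _ (C_mem_maximalIdeal hϖ)
    · exact h2.map (algebraMap Λ (K₁ (D r₀)))
    · rw [Fintype.card_subtype_compl, Fintype.card_subtype_eq, hT]
      rfl

/-- A discrete valuation ring (in the form used by the block) is its own good base. -/
theorem embeds_self {𝒪 : Type u} [CommRing 𝒪] [IsDomain 𝒪] [IsLocalRing 𝒪] [IsNoetherianRing 𝒪]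
    (ϖ : 𝒪) (hϖ0 : ϖ ≠ 0) (hϖ : maximalIdeal 𝒪 = Ideal.span {ϖ}) : Embeds 𝒪 ϖ := by
  have hmem : ϖ ∈ maximalIdeal 𝒪 := by
    rw [hϖ]
    exact Ideal.mem_span_singleton_self ϖ
  have hprime : Prime ϖ := by
    rw [← Ideal.span_singleton_prime hϖ0, ← hϖ]
    exact (maximalIdeal.isMaximal 𝒪).isPrime
  refine ⟨𝒪, inferInstance, ϖ, RingHom.id 𝒪, ⟨inferInstance, fun a b hab => hprime.dvd_or_dvd hab,
    ?_, ?_⟩, Function.injective_id, rfl⟩
  · rwa [mem_maximalIdeal, mem_nonunits_iff] at hmem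
  · intro g hg
    have hbot := Ideal.iInf_pow_eq_bot_of_isLocalRing (maximalIdeal 𝒪)
      (maximalIdeal.isMaximal 𝒪).ne_top
    have : g ∈ ⨅ i, maximalIdeal 𝒪 ^ i := by
      rw [Ideal.mem_iInf]
      intro n
      rw [hϖ, Ideal.span_singleton_pow, Ideal.mem_span_singleton]
      exact hg n
    rw [hbot] at this
    exact this

/-- **RF1**: `P ⧸ I^A` is a domain. -/
theorem isDomain_quot_idealA {𝒪 : Type u} [CommRing 𝒪] [IsDomain 𝒪] [IsLocalRing 𝒪]
    [IsNoetherianRing 𝒪] [IsAdicComplete (maximalIdeal 𝒪) 𝒪] (ϖ : 𝒪) (hϖ0 : ϖ ≠ 0)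
    (hϖ : maximalIdeal 𝒪 = Ideal.span {ϖ}) (h2 : IsUnit (2 : 𝒪)) (T : Type) [Fintype T] (h : ℕ)
    (D : T → LocalDatum 𝒪 ϖ) : IsDomain (MvPowerSeries (Var T h) 𝒪 ⧸ idealA D h) := by
  have hmem : ϖ ∈ maximalIdeal 𝒪 := by
    rw [hϖ]
    exact Ideal.mem_span_singleton_self ϖ
  exact isDomain_quot_idealA_aux (Fintype.card T) 𝒪 ϖ hmem h2 (embeds_self ϖ hϖ0 hϖ) T rfl h D

end Induction

end Fermat.Agent.S43lib.Loc
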