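/-
S43lib / Loc / DimBound (helper1).

**RF2**: `dim P ⧸ I^A ≤ 3|T| + h + 1`.

The `3|T| + h + 1` elements `ϖ`, `z_k`, and at each `r` the three "diagonal" combinations
`(Φ₀₀ − Φ₁₁) − 2φ₀ Σ₀₁`, `Φ₀₁ − φ₀ Σ₁₀`, `2Φ₁₀ − φ₀ (Σ₀₀ − Σ₁₁)` form a system of parameters: modulo
them every variable is nilpotent.
-/
import Mathlib
import Fermat.Agent.S43lib.Loc.Multi

set_option autoImplicit false
set_option linter.style.haveILetI false
set_option linter.unusedSectionVars false

namespace Fermat.Agent.S43lib.Loc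

open IsLocalRing Fermat.Agent.S43lib.IA

universe u

section Nilp

variable {B : Type*} [CommRing B]

/-- Modulo `ϖ` and the three parameters, the entries of `Φ − φ₀` and `Σ − 1` lie in every prime. -/
theorem entries_mem_of_satA (𝔭 : Ideal B) [𝔭.IsPrime] (φ : B) (E : Bool → Fin 2 → Fin 2 → B)
    (hS : SatA φ (φ ^ 2) 2 E) (i2 : B) (h2 : 2 * i2 = 1) (iφ : B) (hφ : φ * iφ = 1) (w : B)
    (hw : (4 * φ + (E false 0 0 + E false 1 1)) * w = 1)
    (p1 : E false 0 0 - E false 1 1 - 2 * φ * E true 0 1 = 0)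
    (p2 : E false 0 1 - φ * E true 1 0 = 0)
    (p3 : 2 * E false 1 0 - φ * (E true 0 0 - E true 1 1) = 0) :
    ∀ b i j, E b i j ∈ 𝔭 := by
  suffices hall : E false 0 0 ∈ 𝔭 ∧ E false 0 1 ∈ 𝔭 ∧ E false 1 0 ∈ 𝔭 ∧ E false 1 1 ∈ 𝔭 ∧
      E true 0 0 ∈ 𝔭 ∧ E true 0 1 ∈ 𝔭 ∧ E true 1 0 ∈ 𝔭 ∧ E true 1 1 ∈ 𝔭 by
    obtain ⟨a1, a2, a3, a4, a5, a6, a7, a8⟩ := hall
    intro b i j
    cases b <;> fin_cases i <;> fin_cases j <;> assumption
  obtain ⟨H1, H2, H3, H4⟩ := hS
  have C00 := congrFun (congrFun H4 0) 0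
  have C01 := congrFun (congrFun H4 0) 1
  have C10 := congrFun (congrFun H4 1) 0
  simp only [affMat, Matrix.det_fin_two, Matrix.trace_fin_two, Matrix.of_apply, Matrix.mul_apply,
    Fin.sum_univ_two] at H1 H2 H3 C00 C01 C10
  simp only [Fin.isValue, ↓reduceIte, one_ne_zero, zero_ne_one] at H1 H2 H3 C00 C01 C10
  clear H4
  -- names
  generalize E false 0 0 = e00 at *
  generalize E false 0 1 = e01 at *
  generalize E false 1 0 = e10 at *
  generalize E false 1 1 = e11 at *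
  generalize E true 0 0 = x at *
  generalize E true 0 1 = y at *
  generalize E true 1 0 = z at *
  generalize E true 1 1 = n11 at *
  have hp : 𝔭.IsPrime := inferInstance
  have c2 : ∀ a : B, 2 * a = 0 → a = 0 := fun a ha => by
    have : a = i2 * (2 * a) := by linear_combination (-a) * h2
    rw [this, ha, mul_zero]
  have cφ : ∀ a : B, φ * a = 0 → a = 0 := fun a ha => by
    have : a = iφ * (φ * a) := by linear_combination (-a) * hφ
    rw [this, ha, mul_zero]
  have hn11 : n11 = -x := by linear_combination H3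
  subst hn11
  have he10 : e10 = φ * x := by
    have : 2 * (e10 - φ * x) = 0 := by linear_combination p3
    linear_combination c2 _ this
  have he01 : e01 = φ * z := by linear_combination p2
  have hd : e00 - e11 = 2 * φ * y := by linear_combination p1
  have hz2 : z ^ 2 = x * y := by
    have : φ * (z ^ 2 - x * y) = 0 := by linear_combination C00 - z * he01 + y * he10
    linear_combination cφ _ this
  have hy2 : y ^ 2 = x * z := by
    have : 2 * (φ * (y ^ 2 - x * z)) = 0 := by linear_combination C01 - y * hd + 2 * x * he01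
    linear_combination cφ _ (c2 _ this)
  have hxyz : x ^ 2 = y * z := by
    have : 2 * (φ * (x ^ 2 - y * z)) = 0 := by linear_combination C10 - 2 * x * he10 + z * hd
    linear_combination cφ _ (c2 _ this)
  have hx2 : x ^ 2 = 0 := by
    have : 2 * x ^ 2 = 0 := by linear_combination hxyz - H2
    exact c2 _ this
  have hyz : y * z = 0 := by linear_combination hx2 - hxyz
  have hy3 : y ^ 3 = 0 := by linear_combination y * hy2 + x * hyz
  have hz3 : z ^ 3 = 0 := by linear_combination z * hz2 + x * hyz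
  have hx : x ∈ 𝔭 := hp.mem_of_pow_mem 2 (by rw [hx2]; exact zero_mem _)
  have hy : y ∈ 𝔭 := hp.mem_of_pow_mem 3 (by rw [hy3]; exact zero_mem _)
  have hz : z ∈ 𝔭 := hp.mem_of_pow_mem 3 (by rw [hz3]; exact zero_mem _)
  have he01m : e01 ∈ 𝔭 := by rw [he01]; exact Ideal.mul_mem_left _ _ hz
  have he10m : e10 ∈ 𝔭 := by rw [he10]; exact Ideal.mul_mem_left _ _ hx
  have hdm : e00 - e11 ∈ 𝔭 := by rw [hd]; exact Ideal.mul_mem_left _ _ hy
  have hs1 : (e00 + e11) * (4 * φ + (e00 + e11)) = 4 * e01 * e10 + (e00 - e11) ^ 2 := by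
    linear_combination 4 * H1
  have hsm : e00 + e11 ∈ 𝔭 := by
    have : e00 + e11 = ((e00 + e11) * (4 * φ + (e00 + e11))) * w := by
      linear_combination (-(e00 + e11)) * hw
    rw [this, hs1]
    refine Ideal.mul_mem_right _ _ (Ideal.add_mem _ (Ideal.mul_mem_left _ _ he10m) ?_)
    exact Ideal.pow_mem_of_mem _ hdm 2 (by norm_num)
  have he00m : e00 ∈ 𝔭 := by
    have : e00 = i2 * ((e00 + e11) + (e00 - e11)) := by linear_combination (-e00) * h2
    rw [this]
    exact Ideal.mul_mem_left _ _ (Ideal.add_mem _ hsm hdm)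
  have he11m : e11 ∈ 𝔭 := by
    have : e11 = i2 * ((e00 + e11) - (e00 - e11)) := by linear_combination (-e11) * h2
    rw [this]
    exact Ideal.mul_mem_left _ _ (Ideal.sub_mem _ hsm hdm)
  exact ⟨he00m, he01m, he10m, he11m, hx, hy, hz, neg_mem hx⟩

end Nilp

section Dim

open MvPowerSeries

variable {𝒪 : Type u} [CommRing 𝒪] [IsLocalRing 𝒪] [IsNoetherianRing 𝒪] {ϖ : 𝒪} {T : Type}
  [Fintype T]

/-- The system of parameters of `P ⧸ I^A`. -/
noncomputable def paramA (D : T → LocalDatum 𝒪 ϖ) (h : ℕ) :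
    Unit ⊕ (T × Fin 3) ⊕ Fin h → MvPowerSeries (Var T h) 𝒪
  | Sum.inl _ => C ϖ
  | Sum.inr (Sum.inl (r, i)) =>
      ![X (Sum.inl (r, false, 0, 0)) - X (Sum.inl (r, false, 1, 1)) -
          2 * C ((D r).φ₀ : 𝒪) * X (Sum.inl (r, true, 0, 1)),
        X (Sum.inl (r, false, 0, 1)) - C ((D r).φ₀ : 𝒪) * X (Sum.inl (r, true, 1, 0)),
        2 * X (Sum.inl (r, false, 1, 0)) -
          C ((D r).φ₀ : 𝒪) * (X (Sum.inl (r, true, 0, 0)) - X (Sum.inl (r, true, 1, 1)))] i
  | Sum.inr (Sum.inr k) => X (Sum.inr k)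

theorem paramA_mem_maximalIdeal (hϖ : ϖ ∈ maximalIdeal 𝒪) (D : T → LocalDatum 𝒪 ϖ) (h : ℕ)
    (a : Unit ⊕ (T × Fin 3) ⊕ Fin h) :
    paramA D h a ∈ maximalIdeal (MvPowerSeries (Var T h) 𝒪) := by
  rw [Fermat.Agent.TeamA.mem_maximalIdeal_mvPowerSeries_iff]
  rcases a with _ | ⟨r, i⟩ | k
  · simpa [paramA] using hϖ
  · fin_cases i <;> simp [paramA]
  · simp [paramA]

/-- Key: a surjection `π : P → B` killing `I^A` and the parameters has a zero-dimensional target. -/
theorem krullDimLE_zero_of_params (hϖ : maximalIdeal 𝒪 = Ideal.span {ϖ}) (h2 : IsUnit (2 : 𝒪))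
    (h : ℕ) (D : T → LocalDatum 𝒪 ϖ) {B : Type*} [CommRing B]
    (π : MvPowerSeries (Var T h) 𝒪 →+* B) (hπsurj : Function.Surjective π)
    (hkill : ∀ t ∈ idealA D h, π t = 0) (hπ0 : ∀ a, π (paramA D h a) = 0) :
    Ring.KrullDimLE 0 B := by
  classical
  have hπϖ : π (C ϖ) = 0 := hπ0 (Sum.inl ())
  have hπspan : ∀ a : 𝒪, a ∈ Ideal.span {ϖ} → π (C a) = 0 := by
    intro a ha
    obtain ⟨c, rfl⟩ := Ideal.mem_span_singleton'.mp ha
    rw [map_mul, map_mul, hπϖ, mul_zero]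
  refine Ring.krullDimLE_zero_iff.mpr fun 𝔭 hp => ?_
  haveI := hp
  -- all variables lie in the pull-back of `𝔭`
  have hX : ∀ v : Var T h, π (X v) ∈ 𝔭 := by
    rintro (⟨r, b, i, j⟩ | k)
    · -- the relations at `r`
      have hS : SatA (π (C ((D r).φ₀ : 𝒪))) (π (C (D r).d₀))
          (π (C (((D r).ζ : 𝒪) + (((D r).ζ⁻¹ : 𝒪ˣ) : 𝒪))))
          (fun b i j => π (X (Sum.inl (r, b, i, j)))) := by
        refine (forall_relsA_map_eq_zero_iff D r π).mp fun t ht => hkill t ?_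
        exact Ideal.subset_span (Set.mem_iUnion.mpr ⟨r, ht⟩)
      have hS' : SatA (π (C ((D r).φ₀ : 𝒪))) (π (C ((D r).φ₀ : 𝒪)) ^ 2) 2
          (fun b i j => π (X (Sum.inl (r, b, i, j)))) := by
        refine hS.congr rfl ?_ ?_ (fun _ _ _ => rfl)
        · rw [← map_pow, ← map_pow, ← sub_eq_zero, ← map_sub, ← map_sub]
          exact hπspan _ (D r).hd
        · have e : ((D r).ζ : 𝒪) + (((D r).ζ⁻¹ : 𝒪ˣ) : 𝒪) - 2 ∈ Ideal.span {ϖ} := by
            have h1 := (D r).hζ
            have h3 : (((D r).ζ⁻¹ : 𝒪ˣ) : 𝒪) - 1 ∈ Ideal.span {ϖ} := by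
              have : (((D r).ζ⁻¹ : 𝒪ˣ) : 𝒪) - 1 =
                  -(((D r).ζ⁻¹ : 𝒪ˣ) : 𝒪) * (((D r).ζ : 𝒪) - 1) := by
                linear_combination (zeta_mul_inv (D r))
              rw [this]
              exact Ideal.mul_mem_left _ _ h1
            have := Ideal.add_mem _ h1 h3
            convert this using 1
            ring
          have := hπspan _ e
          rw [map_sub, map_sub, sub_eq_zero] at this
          rw [this, map_ofNat, map_ofNat]
      obtain ⟨u2, hu2⟩ := h2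
      have hw : IsUnit (4 * C ((D r).φ₀ : 𝒪) + (X (Sum.inl (r, false, 0, 0)) +
          X (Sum.inl (r, false, 1, 1))) : MvPowerSeries (Var T h) 𝒪) := by
        rw [MvPowerSeries.isUnit_iff_constantCoeff]
        simp only [map_add, map_mul, constantCoeff_C, constantCoeff_X, add_zero, map_ofNat]
        have h4 : (4 : 𝒪) = (u2 : 𝒪) * (u2 : 𝒪) := by rw [hu2]; norm_num
        rw [h4]
        exact (u2.isUnit.mul u2.isUnit).mul (D r).φ₀.isUnit
      obtain ⟨W, hW⟩ := hw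
      have key := entries_mem_of_satA 𝔭 (π (C ((D r).φ₀ : 𝒪)))
        (fun b i j => π (X (Sum.inl (r, b, i, j)))) hS'
        (π (C ((u2⁻¹ : 𝒪ˣ) : 𝒪))) ?_ (π (C (((D r).φ₀⁻¹ : 𝒪ˣ) : 𝒪))) ?_
        (π ((W⁻¹ : (MvPowerSeries (Var T h) 𝒪)ˣ) : MvPowerSeries (Var T h) 𝒪)) ?_ ?_ ?_ ?_
      · exact key b i j
      · rw [← map_ofNat π 2, ← map_mul]
        have : (2 : MvPowerSeries (Var T h) 𝒪) * C ((u2⁻¹ : 𝒪ˣ) : 𝒪) = 1 := by
          rw [← map_ofNat (C (σ := Var T h) (R := 𝒪)) 2, ← map_mul, ← hu2, Units.mul_inv, map_one]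
        rw [this, map_one]
      · rw [← map_mul, ← map_mul, Units.mul_inv, map_one, map_one]
      · have : (4 * π (C ((D r).φ₀ : 𝒪)) + (π (X (Sum.inl (r, false, 0, 0))) +
            π (X (Sum.inl (r, false, 1, 1))))) = π (W : MvPowerSeries (Var T h) 𝒪) := by
          rw [hW, map_add, map_add, map_mul, map_ofNat]
        show (4 * π (C ((D r).φ₀ : 𝒪)) + (π (X (Sum.inl (r, false, 0, 0))) +
            π (X (Sum.inl (r, false, 1, 1))))) * _ = 1
        rw [this, ← map_mul, Units.mul_inv, map_one]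
      · have := hπ0 (Sum.inr (Sum.inl (r, 0)))
        simpa [paramA, map_ofNat] using this
      · have := hπ0 (Sum.inr (Sum.inl (r, 1)))
        simpa [paramA, map_ofNat] using this
      · have := hπ0 (Sum.inr (Sum.inl (r, 2)))
        simpa [paramA, map_ofNat] using this
    · have e : π (X (Sum.inr k)) = 0 := hπ0 (Sum.inr (Sum.inr k))
      rw [e]
      exact zero_mem _
  -- the pull-back of `𝔭` is the maximal ideal
  have hcomap : 𝔭.comap π = maximalIdeal (MvPowerSeries (Var T h) 𝒪) := by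
    apply le_antisymm
    · exact IsLocalRing.le_maximalIdeal (Ideal.comap_ne_top π hp.ne_top)
    · rw [Fermat.Agent.TeamA.maximalIdeal_mvPowerSeries, sup_le_iff]
      constructor
      · rw [Ideal.span_le]
        rintro _ ⟨v, rfl⟩
        exact hX v
      · rw [Ideal.map_le_iff_le_comap]
        intro a ha
        rw [hϖ] at ha
        rw [Ideal.mem_comap, Ideal.mem_comap, ← c_eq_algebraMap, hπspan a ha]
        exact zero_mem _
  have hmap := Ideal.map_comap_of_surjective π hπsurj 𝔭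
  rw [hcomap] at hmap
  rcases Ideal.map_eq_top_or_isMaximal_of_surjective π hπsurj
    (maximalIdeal.isMaximal (MvPowerSeries (Var T h) 𝒪)) with htop | hmax
  · rw [hmap] at htop
    exact absurd htop hp.ne_top
  · rw [hmap] at hmax
    exact hmax

/-- **RF2.** -/
theorem ringKrullDim_quot_idealA_le (hϖ : maximalIdeal 𝒪 = Ideal.span {ϖ}) (h2 : IsUnit (2 : 𝒪))
    (h : ℕ) (D : T → LocalDatum 𝒪 ϖ) (hne : idealA D h ≠ ⊤) :
    ringKrullDim (MvPowerSeries (Var T h) 𝒪 ⧸ idealA D h) ≤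
      ((3 * Fintype.card T + h + 1 : ℕ) : WithBot ℕ∞) := by
  classical
  have hϖm : ϖ ∈ maximalIdeal 𝒪 := by
    rw [hϖ]
    exact Ideal.mem_span_singleton_self ϖ
  haveI : IsLocalRing (MvPowerSeries (Var T h) 𝒪 ⧸ idealA D h) :=
    Fermat.Agent.TeamA.isLocalRing_quotient _ hne
  let mkP : MvPowerSeries (Var T h) 𝒪 →+* MvPowerSeries (Var T h) 𝒪 ⧸ idealA D h :=
    Ideal.Quotient.mk _
  let s : Finset (MvPowerSeries (Var T h) 𝒪 ⧸ idealA D h) :=
    Finset.univ.image (fun a => mkP (paramA D h a))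
  have hs : (s : Set (MvPowerSeries (Var T h) 𝒪 ⧸ idealA D h)) ⊆
      Ring.jacobson (MvPowerSeries (Var T h) 𝒪 ⧸ idealA D h) := by
    rw [IsLocalRing.ringJacobson_eq_maximalIdeal]
    intro t ht
    obtain ⟨a, -, rfl⟩ := Finset.mem_image.mp (Finset.mem_coe.mp ht)
    exact mk_mem_maximalIdeal _ (paramA_mem_maximalIdeal hϖm D h a)
  have hcard : s.card ≤ 3 * Fintype.card T + h + 1 := by
    refine Finset.card_image_le.trans ?_
    simp only [Finset.card_univ, Fintype.card_sum, Fintype.card_prod, Fintype.card_fin,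
      Fintype.card_unit]
    omega
  have hmem : ∀ a, mkP (paramA D h a) ∈
      Ideal.span (s : Set (MvPowerSeries (Var T h) 𝒪 ⧸ idealA D h)) := fun a =>
    Ideal.subset_span (Finset.mem_coe.mpr (Finset.mem_image.mpr ⟨a, Finset.mem_univ _, rfl⟩))
  have h0 : Ring.KrullDimLE 0 ((MvPowerSeries (Var T h) 𝒪 ⧸ idealA D h) ⧸
      Ideal.span (s : Set (MvPowerSeries (Var T h) 𝒪 ⧸ idealA D h))) := by
    let π : MvPowerSeries (Var T h) 𝒪 →+* (MvPowerSeries (Var T h) 𝒪 ⧸ idealA D h) ⧸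
        Ideal.span (s : Set (MvPowerSeries (Var T h) 𝒪 ⧸ idealA D h)) :=
      (Ideal.Quotient.mk (Ideal.span (s : Set (MvPowerSeries (Var T h) 𝒪 ⧸ idealA D h)))).comp mkP
    have hπsurj : Function.Surjective π :=
      Ideal.Quotient.mk_surjective.comp Ideal.Quotient.mk_surjective
    refine krullDimLE_zero_of_params hϖ h2 h D
      (B := (MvPowerSeries (Var T h) 𝒪 ⧸ idealA D h) ⧸
        Ideal.span (s : Set (MvPowerSeries (Var T h) 𝒪 ⧸ idealA D h))) π hπsurj ?_ ?_
    · intro t ht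
      exact (congrArg (Ideal.Quotient.mk _) (Ideal.Quotient.eq_zero_iff_mem.mpr ht)).trans
        (map_zero _)
    · intro a
      exact Ideal.Quotient.eq_zero_iff_mem.mpr (hmem a)
  rw [Ring.krullDimLE_iff] at h0
  calc ringKrullDim (MvPowerSeries (Var T h) 𝒪 ⧸ idealA D h)
      ≤ ringKrullDim ((MvPowerSeries (Var T h) 𝒪 ⧸ idealA D h) ⧸
          Ideal.span (s : Set (MvPowerSeries (Var T h) 𝒪 ⧸ idealA D h))) + s.card :=
        ringKrullDim_le_ringKrullDim_quotient_add_card s hs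
    _ ≤ ((0 : ℕ) : WithBot ℕ∞) + ((3 * Fintype.card T + h + 1 : ℕ) : WithBot ℕ∞) :=
        add_le_add h0 (by exact_mod_cast hcard)
    _ = ((3 * Fintype.card T + h + 1 : ℕ) : WithBot ℕ∞) := by
        rw [Nat.cast_zero, zero_add]

end Dim

end Fermat.Agent.S43lib.Loc
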