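/-
S43lib / Loc / TraceKernel (helper1).

**The trace function sees the kernel.**  Let `ρ : G →* M_n(A)` be a matrix representation whose image
spans `M_n(A)` (e.g. `A` local and `ρ` residually absolutely irreducible, by Nakayama:
`span_range_eq_top_of_residual`).  Then for every `τ ∈ G` the ideal generated by the differences
`tr ρ(τ h) − tr ρ(h)`, `h ∈ G`, is the ideal generated by the entries of `ρ(τ) − 1`
(`span_trace_sub_eq_entryIdeal`).  In particular `ρ(τ) = 1` iff `tr ρ(τ h) = tr ρ(h)` for all `h`.
-/
import Mathlib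

set_option autoImplicit false
set_option linter.style.haveILetI false
set_option linter.unusedSectionVars false

namespace Fermat.Agent.S43lib.Loc

open IsLocalRing

section TraceForm

variable {A : Type*} [CommRing A] {n : Type*} [Fintype n] [DecidableEq n]

/-- The ideal generated by the entries of a matrix. -/
def entryIdeal (X : Matrix n n A) : Ideal A :=
  Ideal.span (Set.range fun ij : n × n => X ij.1 ij.2)

theorem entryIdeal_eq_bot_iff (X : Matrix n n A) : entryIdeal X = ⊥ ↔ X = 0 := by
  rw [entryIdeal, Ideal.span_eq_bot]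
  constructor
  · intro h
    ext i j
    exact h _ ⟨(i, j), rfl⟩
  · rintro rfl _ ⟨ij, rfl⟩
    rfl

/-- The linear form `Y ↦ tr (X Y)`. -/
def traceMulLeft (X : Matrix n n A) : Matrix n n A →ₗ[A] A :=
  (Matrix.traceLinearMap n A A).comp (LinearMap.mulLeft A X)

theorem traceMulLeft_apply (X Y : Matrix n n A) : traceMulLeft X Y = (X * Y).trace := rfl

theorem trace_mul_mem_entryIdeal (X Y : Matrix n n A) : (X * Y).trace ∈ entryIdeal X := by
  rw [Matrix.trace]
  refine Ideal.sum_mem _ fun i _ => ?_
  rw [Matrix.diag_apply, Matrix.mul_apply]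
  refine Ideal.sum_mem _ fun j _ => ?_
  exact Ideal.mul_mem_right _ _ (Ideal.subset_span ⟨(i, j), rfl⟩)

theorem trace_mul_single (X : Matrix n n A) (i j : n) :
    (X * Matrix.single j i (1 : A)).trace = X i j := by
  rw [Matrix.trace_mul_comm, Matrix.trace, Finset.sum_eq_single j]
  · rw [Matrix.diag_apply, Matrix.mul_apply, Finset.sum_eq_single i]
    · rw [Matrix.single_apply_same, one_mul]
    · intro k _ hk
      rw [Matrix.single_apply_of_ne (h := fun h => hk h.2.symm), zero_mul]
    · intro h
      exact absurd (Finset.mem_univ i) h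
  · intro k _ hk
    rw [Matrix.diag_apply, Matrix.mul_apply]
    refine Finset.sum_eq_zero fun l _ => ?_
    rw [Matrix.single_apply_of_ne (h := fun h => hk h.1.symm), zero_mul]
  · intro h
    exact absurd (Finset.mem_univ j) h

/-- If `S` spans `M_n(A)`, the traces `tr (X Y)`, `Y ∈ S`, generate the ideal of entries of `X`. -/
theorem span_trace_mul_eq_entryIdeal (X : Matrix n n A) (S : Set (Matrix n n A))
    (hS : Submodule.span A S = ⊤) :
    Ideal.span ((fun Y => (X * Y).trace) '' S) = entryIdeal X := by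
  apply le_antisymm
  · rw [Ideal.span_le]
    rintro _ ⟨Y, -, rfl⟩
    exact trace_mul_mem_entryIdeal X Y
  · rw [entryIdeal, Ideal.span_le]
    rintro _ ⟨⟨i, j⟩, rfl⟩
    have h1 : Matrix.single j i (1 : A) ∈ Submodule.span A S := by
      rw [hS]
      exact Submodule.mem_top
    have h2 := Submodule.mem_map_of_mem (f := traceMulLeft X) h1
    rw [Submodule.map_span, traceMulLeft_apply, trace_mul_single] at h2
    exact h2

end TraceForm

section Rep

variable {A : Type*} [CommRing A] {n : Type*} [Fintype n] [DecidableEq n] {G : Type*} [Monoid G]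

/-- **The trace function sees the kernel**: if `ρ(G)` spans `M_n(A)`, the differences
`tr ρ(τ h) − tr ρ(h)` generate the ideal of entries of `ρ(τ) − 1`. -/
theorem span_trace_sub_eq_entryIdeal (ρ : G →* Matrix n n A)
    (hρ : Submodule.span A (Set.range ρ) = ⊤) (τ : G) :
    Ideal.span (Set.range fun h : G => (ρ (τ * h)).trace - (ρ h).trace) =
      entryIdeal (ρ τ - 1) := by
  rw [← span_trace_mul_eq_entryIdeal (ρ τ - 1) (Set.range ρ) hρ]
  congr 1
  ext x
  constructor
  · rintro ⟨h, rfl⟩
    refine ⟨ρ h, ⟨h, rfl⟩, ?_⟩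
    show ((ρ τ - 1) * ρ h).trace = (ρ (τ * h)).trace - (ρ h).trace
    rw [Matrix.sub_mul, Matrix.one_mul, Matrix.trace_sub, map_mul]
  · rintro ⟨_, ⟨h, rfl⟩, rfl⟩
    refine ⟨h, ?_⟩
    show (ρ (τ * h)).trace - (ρ h).trace = ((ρ τ - 1) * ρ h).trace
    rw [Matrix.sub_mul, Matrix.one_mul, Matrix.trace_sub, map_mul]

/-- `ρ(τ) = 1` iff `τ` does not change the trace function. -/
theorem eq_one_iff_forall_trace_mul (ρ : G →* Matrix n n A)
    (hρ : Submodule.span A (Set.range ρ) = ⊤) (τ : G) :
    ρ τ = 1 ↔ ∀ h : G, (ρ (τ * h)).trace = (ρ h).trace := by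
  constructor
  · intro h1 h
    rw [map_mul, h1, Matrix.one_mul]
  · intro h
    have h0 : Ideal.span (Set.range fun h : G => (ρ (τ * h)).trace - (ρ h).trace) = ⊥ := by
      rw [Ideal.span_eq_bot]
      rintro _ ⟨g, rfl⟩
      exact sub_eq_zero.mpr (h g)
    rw [span_trace_sub_eq_entryIdeal ρ hρ τ, entryIdeal_eq_bot_iff, sub_eq_zero] at h0
    exact h0

/-- the entries of `ρ(τ) − 1` lie in an ideal `J` iff all `tr ρ(τ h) − tr ρ(h)` do. -/
theorem entryIdeal_le_iff (ρ : G →* Matrix n n A)
    (hρ : Submodule.span A (Set.range ρ) = ⊤) (τ : G) (J : Ideal A) :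
    entryIdeal (ρ τ - 1) ≤ J ↔ ∀ h : G, (ρ (τ * h)).trace - (ρ h).trace ∈ J := by
  rw [← span_trace_sub_eq_entryIdeal ρ hρ τ, Ideal.span_le]
  constructor
  · intro h g
    exact h ⟨g, rfl⟩
  · rintro h _ ⟨g, rfl⟩
    exact h g

end Rep

section Nakayama

variable {A : Type*} [CommRing A] [IsLocalRing A] {n : Type*} [Fintype n] [DecidableEq n]
  {G : Type*} [Monoid G]

/-- A matrix whose entries lie in `I` belongs to `I • ⊤`. -/
theorem mem_smul_top_of_forall_mem (I : Ideal A) (Z : Matrix n n A) (hZ : ∀ i j, Z i j ∈ I) :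
    Z ∈ I • (⊤ : Submodule A (Matrix n n A)) := by
  rw [Matrix.matrix_eq_sum_single Z]
  refine Submodule.sum_mem _ fun i _ => Submodule.sum_mem _ fun j _ => ?_
  have : Matrix.single i j (Z i j) = Z i j • Matrix.single i j (1 : A) := by
    rw [Matrix.smul_single, smul_eq_mul, mul_one]
  rw [this]
  exact Submodule.smul_mem_smul (hZ i j) Submodule.mem_top

/-- **Nakayama**: a residually spanning family of matrices over a local ring spans. -/
theorem span_eq_top_of_residual (S : Set (Matrix n n A))
    (hS : Submodule.span (ResidueField A) ((fun Y : Matrix n n A => Y.map (residue A)) '' S) = ⊤) :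
    Submodule.span A S = ⊤ := by
  rw [eq_top_iff]
  refine Submodule.le_of_le_smul_of_le_jacobson_bot (I := maximalIdeal A)
    (Module.Finite.fg_top) ?_ ?_
  · rw [IsLocalRing.jacobson_eq_maximalIdeal ⊥ bot_ne_top]
  · intro Y _
    -- reduce `Y`
    have hY : Y.map (residue A) ∈
        Submodule.span (ResidueField A) ((fun Y : Matrix n n A => Y.map (residue A)) '' S) := by
      rw [hS]
      exact Submodule.mem_top
    -- an element of `span S` with the same reduction
    have key : ∀ W ∈ Submodule.span (ResidueField A)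
        ((fun Y : Matrix n n A => Y.map (residue A)) '' S),
        ∃ V ∈ Submodule.span A S, V.map (residue A) = W := by
      intro W hW
      induction hW using Submodule.span_induction with
      | mem W hW =>
        obtain ⟨V, hV, rfl⟩ := hW
        exact ⟨V, Submodule.subset_span hV, rfl⟩
      | zero => exact ⟨0, Submodule.zero_mem _, by ext; simp⟩
      | add W₁ W₂ _ _ h₁ h₂ =>
        obtain ⟨V₁, hV₁, rfl⟩ := h₁
        obtain ⟨V₂, hV₂, rfl⟩ := h₂
        exact ⟨V₁ + V₂, Submodule.add_mem _ hV₁ hV₂, by ext; simp⟩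
      | smul c W _ h =>
        obtain ⟨V, hV, rfl⟩ := h
        obtain ⟨c, rfl⟩ := residue_surjective c
        exact ⟨c • V, Submodule.smul_mem _ c hV, by ext; simp⟩
    obtain ⟨V, hV, hVY⟩ := key _ hY
    have hZ : ∀ i j, (Y - V) i j ∈ maximalIdeal A := by
      intro i j
      have := congrFun (congrFun hVY i) j
      rw [Matrix.map_apply, Matrix.map_apply] at this
      rw [Matrix.sub_apply, ← residue_eq_zero_iff, map_sub, this, sub_self]
    have e : Y = V + (Y - V) := by abel
    rw [e]
    exact Submodule.add_mem_sup hV (mem_smul_top_of_forall_mem _ _ hZ)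

/-- A residually absolutely irreducible representation over a local ring spans the matrix algebra. -/
theorem span_range_eq_top_of_residual (ρ : G →* Matrix n n A)
    (hρ : Submodule.span (ResidueField A)
      (Set.range fun h : G => (ρ h).map (residue A)) = ⊤) :
    Submodule.span A (Set.range ρ) = ⊤ := by
  refine span_eq_top_of_residual _ ?_
  rw [← hρ]
  congr 1
  ext W
  constructor
  · rintro ⟨_, ⟨h, rfl⟩, rfl⟩
    exact ⟨h, rfl⟩
  · rintro ⟨h, rfl⟩
    exact ⟨ρ h, ⟨h, rfl⟩, rfl⟩

/-- **TRACE-KERNEL over a local ring**: for a residually absolutely irreducible `ρ`, the ideal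
generated by `tr ρ(τ h) − tr ρ(h)` is the ideal of the entries of `ρ(τ) − 1`. -/
theorem span_trace_sub_eq_entryIdeal_of_residual (ρ : G →* Matrix n n A)
    (hρ : Submodule.span (ResidueField A)
      (Set.range fun h : G => (ρ h).map (residue A)) = ⊤) (τ : G) :
    Ideal.span (Set.range fun h : G => (ρ (τ * h)).trace - (ρ h).trace) =
      entryIdeal (ρ τ - 1) :=
  span_trace_sub_eq_entryIdeal ρ (span_range_eq_top_of_residual ρ hρ) τ

end Nakayama

end Fermat.Agent.S43lib.Loc
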