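/-
S43lib / Loc / BrauerNesbitt2 (helper1).

**Brauer–Nesbitt for an absolutely irreducible representation.**  Let `ρ₁, ρ₂ : G →* M_n(k)` be two
matrix representations over a field with the same trace function, and assume that `ρ₁(G)` spans
`M_n(k)` (absolute irreducibility).  Then `ρ₁` and `ρ₂` are conjugate:
`∃ U` invertible, `U * ρ₁ g = ρ₂ g * U`.

Proof: `X, Y : k[G] → M_n(k)` the linear extensions.  The trace form gives `ker Y ⊆ ker X`
(`X` is onto), hence `Y` is onto by dimension count, hence `ker X ⊆ ker Y`; so `Y = φ ∘ X` for an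
algebra endomorphism `φ` of `M_n(k)`, which is inner (Skolem–Noether, proved by hand with matrix
units).
-/
import Mathlib
import Fermat.Agent.S43lib.Loc.TraceKernel
import Fermat.Agent.TeamA.Burnside
import Fermat.Agent.TeamA.MatRep

set_option autoImplicit false
set_option linter.style.haveILetI false
set_option linter.unusedSectionVars false

namespace Fermat.Agent.S43lib.Loc

section Core

variable {k : Type*} [Field k] {n : Type*} [Fintype n] [DecidableEq n] {G : Type*} [Monoid G]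

/-- A matrix orthogonal to everything for the trace form vanishes. -/
theorem eq_zero_of_forall_trace_mul_eq_zero {A : Type*} [CommRing A] (Z : Matrix n n A)
    (h : ∀ W : Matrix n n A, (Z * W).trace = 0) : Z = 0 := by
  ext i j
  rw [← trace_mul_single Z i j, h]
  rfl

/-- Step A: the two representations differ by an injective algebra endomorphism of `M_n(k)`. -/
theorem exists_algHom_of_trace_eq (ρ₁ ρ₂ : G →* Matrix n n k)
    (hspan : Submodule.span k (Set.range ρ₁) = ⊤)
    (htr : ∀ g, (ρ₁ g).trace = (ρ₂ g).trace) :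
    ∃ φ : Matrix n n k →ₐ[k] Matrix n n k, Function.Injective φ ∧ ∀ g, φ (ρ₁ g) = ρ₂ g := by
  classical
  let X : MonoidAlgebra k G →ₐ[k] Matrix n n k := MonoidAlgebra.lift k (Matrix n n k) G ρ₁
  let Y : MonoidAlgebra k G →ₐ[k] Matrix n n k := MonoidAlgebra.lift k (Matrix n n k) G ρ₂
  have hXof : ∀ g, X (MonoidAlgebra.of k G g) = ρ₁ g := fun g => MonoidAlgebra.lift_of _ _
  have hYof : ∀ g, Y (MonoidAlgebra.of k G g) = ρ₂ g := fun g => MonoidAlgebra.lift_of _ _
  have hXrange : LinearMap.range X.toLinearMap = ⊤ := by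
    rw [eq_top_iff, ← hspan, Submodule.span_le]
    rintro _ ⟨g, rfl⟩
    exact ⟨MonoidAlgebra.of k G g, hXof g⟩
  have hXsurj : Function.Surjective X := LinearMap.range_eq_top.mp hXrange
  have htrXY : ∀ a, (X a).trace = (Y a).trace := by
    intro a
    induction a using MonoidAlgebra.induction_on with
    | of g => rw [hXof, hYof, htr]
    | add a b ha hb => rw [map_add, map_add, Matrix.trace_add, Matrix.trace_add, ha, hb]
    | smul r a ha => rw [map_smul, map_smul, Matrix.trace_smul, Matrix.trace_smul, ha]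
  -- `ker Y ⊆ ker X`
  have hker1 : ∀ a, Y a = 0 → X a = 0 := by
    intro a ha
    refine eq_zero_of_forall_trace_mul_eq_zero _ fun W => ?_
    obtain ⟨b, rfl⟩ := hXsurj W
    rw [← map_mul, htrXY, map_mul, ha, Matrix.zero_mul, Matrix.trace_zero]
  -- a linear section of `X`
  obtain ⟨s, hs⟩ := LinearMap.exists_rightInverse_of_surjective X.toLinearMap hXrange
  have hs' : ∀ Z, X (s Z) = Z := fun Z => congrArg (fun f : _ →ₗ[k] _ => f Z) hs
  let ψ : Matrix n n k →ₗ[k] Matrix n n k := Y.toLinearMap ∘ₗ s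
  have hψinj : Function.Injective ψ := by
    rw [injective_iff_map_eq_zero]
    intro Z hZ
    have := hker1 (s Z) hZ
    rwa [hs'] at this
  have hψsurj : Function.Surjective ψ := LinearMap.injective_iff_surjective.mp hψinj
  have hYsurj : Function.Surjective Y := fun W => by
    obtain ⟨Z, hZ⟩ := hψsurj W
    exact ⟨s Z, hZ⟩
  -- `ker X ⊆ ker Y`
  have hker2 : ∀ a, X a = 0 → Y a = 0 := by
    intro a ha
    refine eq_zero_of_forall_trace_mul_eq_zero _ fun W => ?_
    obtain ⟨b, rfl⟩ := hYsurj W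
    rw [← map_mul, ← htrXY, map_mul, ha, Matrix.zero_mul, Matrix.trace_zero]
  have hψX : ∀ a, ψ (X a) = Y a := by
    intro a
    show Y (s (X a)) = Y a
    rw [← sub_eq_zero, ← map_sub]
    apply hker2
    rw [map_sub, hs', sub_self]
  refine ⟨AlgHom.ofLinearMap ψ ?_ ?_, hψinj, fun g => ?_⟩
  · have h1 := hψX 1
    have hX1 : X 1 = 1 := map_one X
    have hY1 : Y 1 = 1 := map_one Y
    rw [hX1, hY1] at h1
    exact h1
  · intro Z W
    obtain ⟨a, rfl⟩ := hXsurj Z
    obtain ⟨b, rfl⟩ := hXsurj W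
    rw [← map_mul, hψX, hψX, hψX, map_mul]
  · show ψ (ρ₁ g) = ρ₂ g
    rw [← hXof, hψX, hYof]

/-- Step B (Skolem–Noether for `M_n(k)`, by hand): an injective algebra endomorphism of `M_n(k)` is
inner. -/
theorem exists_conj_of_algHom [Nonempty n] (φ : Matrix n n k →ₐ[k] Matrix n n k)
    (hφ : Function.Injective φ) :
    ∃ U : Matrix n n k, IsUnit U ∧ ∀ Z, U * Z = φ Z * U := by
  classical
  obtain ⟨i₀⟩ := ‹Nonempty n›
  let E : n → n → Matrix n n k := fun i j => Matrix.single i j 1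
  have hEE : ∀ i j l m, E i j * E l m = if j = l then E i m else 0 := by
    intro i j l m
    split_ifs with h
    · subst h
      show Matrix.single i j (1 : k) * Matrix.single j m 1 = Matrix.single i m 1
      rw [Matrix.single_mul_single_same, one_mul]
    · exact Matrix.single_mul_single_of_ne _ _ _ _ h _
  have hφEE : ∀ i j l m, φ (E i j) * φ (E l m) = if j = l then φ (E i m) else 0 := by
    intro i j l m
    rw [← map_mul, hEE]
    split_ifs
    · rfl
    · exact map_zero φ
  have hEv : ∀ i j (v : n → k), (E i j).mulVec v = Pi.single i (v j) := by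
    intro i j v
    show (Matrix.single i j (1 : k)).mulVec v = _
    rw [Matrix.single_mulVec, one_mul]
    rfl
  -- a vector not killed by `φ (E i₀ i₀)`
  have hne : φ (E i₀ i₀) ≠ 0 := by
    intro h
    have h0 : E i₀ i₀ = 0 := hφ (h.trans (map_zero φ).symm)
    have h1 := congrFun (congrFun h0 i₀) i₀
    rw [show E i₀ i₀ i₀ i₀ = 1 from Matrix.single_apply_same _ _ _] at h1
    exact one_ne_zero h1
  obtain ⟨x, hx⟩ : ∃ x : n → k, (φ (E i₀ i₀)).mulVec x ≠ 0 := by
    by_contra hall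
    push Not at hall
    apply hne
    ext i j
    have := congrFun (hall (Pi.single j 1)) i
    rw [Matrix.mulVec_single_one] at this
    exact this
  -- the matrix with `i₀`-th column `x`
  let C : Matrix n n k := Matrix.of fun i j => if j = i₀ then x i else 0
  have hC : C.mulVec (Pi.single i₀ 1) = x := by
    rw [Matrix.mulVec_single_one]
    funext i
    show (if i₀ = i₀ then x i else 0) = x i
    rw [if_pos rfl]
  let U : Matrix n n k := ∑ l, φ (E l i₀) * C * E i₀ l
  have hU1 : ∀ i j, U * E i j = φ (E i i₀) * C * E i₀ j := by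
    intro i j
    show (∑ l, φ (E l i₀) * C * E i₀ l) * E i j = _
    rw [Finset.sum_mul, Finset.sum_eq_single i]
    · rw [Matrix.mul_assoc, hEE, if_pos rfl]
    · intro l _ hl
      rw [Matrix.mul_assoc, hEE, if_neg hl, Matrix.mul_zero]
    · intro h
      exact absurd (Finset.mem_univ i) h
  have hU2 : ∀ i j, φ (E i j) * U = φ (E i i₀) * C * E i₀ j := by
    intro i j
    show φ (E i j) * (∑ l, φ (E l i₀) * C * E i₀ l) = _
    rw [Finset.mul_sum, Finset.sum_eq_single j]
    · rw [← Matrix.mul_assoc, ← Matrix.mul_assoc, hφEE, if_pos rfl]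
    · intro l _ hl
      rw [← Matrix.mul_assoc, ← Matrix.mul_assoc, hφEE, if_neg (Ne.symm hl), Matrix.zero_mul,
        Matrix.zero_mul]
    · intro h
      exact absurd (Finset.mem_univ j) h
  have hUZ : ∀ Z, U * Z = φ Z * U := by
    intro Z
    conv_lhs => rw [Matrix.matrix_eq_sum_single Z]
    conv_rhs => rw [Matrix.matrix_eq_sum_single Z]
    rw [Finset.mul_sum, map_sum, Finset.sum_mul]
    refine Finset.sum_congr rfl fun i _ => ?_
    rw [Finset.mul_sum, map_sum, Finset.sum_mul]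
    refine Finset.sum_congr rfl fun j _ => ?_
    have : Matrix.single i j (Z i j) = Z i j • E i j := by
      show _ = Z i j • Matrix.single i j (1 : k)
      rw [Matrix.smul_single, smul_eq_mul, mul_one]
    rw [this, Matrix.mul_smul, map_smul, Matrix.smul_mul, hU1, hU2]
  refine ⟨U, ?_, hUZ⟩
  rw [← Matrix.mulVec_injective_iff_isUnit]
  -- the `i₀`-th column of `U`
  have hUcol : U.mulVec (Pi.single i₀ 1) = (φ (E i₀ i₀)).mulVec x := by
    have h1 : (U * E i₀ i₀).mulVec (Pi.single i₀ 1) = U.mulVec (Pi.single i₀ 1) := by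
      rw [← Matrix.mulVec_mulVec, hEv, Pi.single_eq_same]
    rw [← h1, hU1, ← Matrix.mulVec_mulVec, ← Matrix.mulVec_mulVec, hEv, Pi.single_eq_same, hC]
  intro a b hab
  have h0 : U.mulVec (a - b) = 0 := by rw [Matrix.mulVec_sub, hab, sub_self]
  have key : ∀ m, (a - b) m = 0 := by
    intro m
    have h1 : U.mulVec ((E i₀ m).mulVec (a - b)) = 0 := by
      rw [Matrix.mulVec_mulVec, hUZ, ← Matrix.mulVec_mulVec, h0, Matrix.mulVec_zero]
    rw [hEv] at h1
    have h2 : (Pi.single i₀ ((a - b) m) : n → k) = (a - b) m • Pi.single i₀ 1 := by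
      rw [← Pi.single_smul, smul_eq_mul, mul_one]
    rw [h2, Matrix.mulVec_smul, hUcol] at h1
    exact (smul_eq_zero.mp h1).resolve_right hx
  funext m
  have := key m
  rwa [Pi.sub_apply, sub_eq_zero] at this

/-- **Brauer–Nesbitt** (absolutely irreducible case): equal traces ⟹ conjugate. -/
theorem exists_conj_of_trace_eq (ρ₁ ρ₂ : G →* Matrix n n k)
    (hspan : Submodule.span k (Set.range ρ₁) = ⊤)
    (htr : ∀ g, (ρ₁ g).trace = (ρ₂ g).trace) :
    ∃ U : Matrix n n k, IsUnit U ∧ ∀ g, U * ρ₁ g = ρ₂ g * U := by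
  rcases isEmpty_or_nonempty n with hn | hn
  · exact ⟨1, isUnit_one, fun g => Subsingleton.elim _ _⟩
  obtain ⟨φ, hφ, hφρ⟩ := exists_algHom_of_trace_eq ρ₁ ρ₂ hspan htr
  obtain ⟨U, hU, hUZ⟩ := exists_conj_of_algHom φ hφ
  exact ⟨U, hU, fun g => by rw [hUZ, hφρ]⟩

/-- **Brauer–Nesbitt**, characteristic polynomial form. -/
theorem exists_conj_of_charpoly_eq (ρ₁ ρ₂ : G →* Matrix n n k)
    (hspan : Submodule.span k (Set.range ρ₁) = ⊤)
    (hcp : ∀ g, (ρ₁ g).charpoly = (ρ₂ g).charpoly) :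
    ∃ U : Matrix n n k, IsUnit U ∧ ∀ g, U * ρ₁ g = ρ₂ g * U := by
  rcases isEmpty_or_nonempty n with hn | hn
  · exact ⟨1, isUnit_one, fun g => Subsingleton.elim _ _⟩
  refine exists_conj_of_trace_eq ρ₁ ρ₂ hspan fun g => ?_
  rw [Matrix.trace_eq_neg_charpoly_coeff, Matrix.trace_eq_neg_charpoly_coeff, hcp]

end Core

section Residual

open Fermat.Agent.TeamA.Rep

variable {k : Type} [Field k]

/-- The matrices of an absolutely irreducible residual representation span `M₂(k)`. -/
theorem span_range_matOfRes_eq_top (ρ : ResidualGaloisRep k) (h : ρ.IsAbsolutelyIrreducible)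
    (b : Module.Basis (Fin 2) k ρ.V) :
    Submodule.span k (Set.range (matOfRes ρ b)) = ⊤ := by
  have h1 := Fermat.Agent.TeamA.Burnside.span_range_eq_top ρ h
  have h2 : Set.range (matOfRes ρ b) = (LinearMap.toMatrix b b) '' Set.range ρ.ρ := by
    ext W
    constructor
    · rintro ⟨g, rfl⟩
      exact ⟨ρ.ρ g, ⟨g, rfl⟩, rfl⟩
    · rintro ⟨_, ⟨g, rfl⟩, rfl⟩
      exact ⟨g, rfl⟩
  have h3 : Submodule.span k
      (((LinearMap.toMatrix b b : Module.End k ρ.V ≃ₗ[k] Matrix (Fin 2) (Fin 2) k) :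
        Module.End k ρ.V →ₗ[k] Matrix (Fin 2) (Fin 2) k) '' Set.range ρ.ρ) = ⊤ := by
    rw [← Submodule.map_span, h1, Submodule.map_top]
    exact LinearMap.range_eq_top.mpr (LinearMap.toMatrix b b).surjective
  rw [h2]
  exact h3

/-- **Brauer–Nesbitt for residual Galois representations**: an absolutely irreducible residual
representation is determined by its characteristic polynomials. -/
theorem res_isEquiv_of_charpoly_eq (ρ₁ ρ₂ : ResidualGaloisRep k)
    (h : ρ₁.IsAbsolutelyIrreducible)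
    (hcp : ∀ σ, LinearMap.charpoly (ρ₁.ρ σ) = LinearMap.charpoly (ρ₂.ρ σ)) : ρ₁.IsEquiv ρ₂ := by
  let b₁ : Module.Basis (Fin 2) k ρ₁.V := Module.finBasisOfFinrankEq k ρ₁.V ρ₁.finrank_eq
  let b₂ : Module.Basis (Fin 2) k ρ₂.V := Module.finBasisOfFinrankEq k ρ₂.V ρ₂.finrank_eq
  let r₁ : (AlgebraicClosure ℚ ≃ₐ[ℚ] AlgebraicClosure ℚ) →* Matrix (Fin 2) (Fin 2) k :=
    { toFun := matOfRes ρ₁ b₁
      map_one' := matOfRes_one ρ₁ b₁
      map_mul' := matOfRes_mul ρ₁ b₁ }
  let r₂ : (AlgebraicClosure ℚ ≃ₐ[ℚ] AlgebraicClosure ℚ) →* Matrix (Fin 2) (Fin 2) k :=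
    { toFun := matOfRes ρ₂ b₂
      map_one' := matOfRes_one ρ₂ b₂
      map_mul' := matOfRes_mul ρ₂ b₂ }
  have hspan : Submodule.span k (Set.range r₁) = ⊤ := span_range_matOfRes_eq_top ρ₁ h b₁
  have hcp' : ∀ g, (r₁ g).charpoly = (r₂ g).charpoly := by
    intro g
    show (LinearMap.toMatrix b₁ b₁ (ρ₁.ρ g)).charpoly = (LinearMap.toMatrix b₂ b₂ (ρ₂.ρ g)).charpoly
    rw [LinearMap.charpoly_toMatrix, LinearMap.charpoly_toMatrix, hcp]
  obtain ⟨U, hU, hUr⟩ := exists_conj_of_charpoly_eq r₁ r₂ hspan hcp'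
  obtain ⟨u, rfl⟩ := hU
  exact res_isEquiv_of_conj ρ₁ ρ₂ b₁ b₂ (u : Matrix (Fin 2) (Fin 2) k)
    ((u⁻¹ : (Matrix (Fin 2) (Fin 2) k)ˣ) : Matrix (Fin 2) (Fin 2) k) u.mul_inv u.inv_mul hUr

end Residual

end Fermat.Agent.S43lib.Loc
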