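/-
S43lib / Loc / TraceKernelGal (helper1).

`TraceKernel` for `GaloisRepAdic`: if `ρ : GaloisRepAdic A` (`A` local) is residually absolutely
irreducible, then
* `span_range_matOf_eq_top`: the matrices `matOf ρ b g` span `M₂(A)`;
* `span_range_rho_eq_top`  : the operators `ρ.ρ g` span `End_A(V)`;
* `span_trace_sub_eq_entryIdeal_gal`: the ideal generated by `tr ρ(τ g) − tr ρ(g)` is the ideal of
  the entries of `matOf ρ b τ − 1`;
* `rho_eq_one_iff_forall_trace`: `ρ.ρ τ = 1 ↔ ∀ g, tr ρ(τ g) = tr ρ(g)`.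
-/
import Mathlib
import Fermat.Agent.S43lib.Loc.TraceKernel
import Fermat.Agent.S43lib.Loc.BrauerNesbitt2
import Fermat.Agent.TeamA.MatRep

set_option autoImplicit false
set_option linter.style.haveILetI false
set_option linter.unusedSectionVars false

namespace Fermat.Agent.S43lib.Loc

open IsLocalRing Fermat.Agent.TeamA.Rep

local notation "Γℚ" => (AlgebraicClosure ℚ ≃ₐ[ℚ] AlgebraicClosure ℚ)

variable {A : Type} [CommRing A] [IsLocalRing A]

/-- The matrices of a residually absolutely irreducible representation span `M₂(A)`. -/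
theorem span_range_matOf_eq_top (ρ : GaloisRepAdic A) (h : ρ.residual.IsAbsolutelyIrreducible)
    (b : Module.Basis (Fin 2) A ρ.V) :
    Submodule.span A (Set.range (matOf ρ b)) = ⊤ := by
  have h1 := span_range_matOfRes_eq_top ρ.residual h (residualBasis ρ b)
  have h2 : (Set.range fun g : Γℚ => (matOfHom ρ b g).map (residue A)) =
      Set.range (matOfRes ρ.residual (residualBasis ρ b)) := by
    congr 1
    funext g
    rw [matOfHom_apply, matOfRes_residual]
  have h3 := span_range_eq_top_of_residual (matOfHom ρ b) (by rw [h2]; exact h1)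
  exact h3

/-- The operators of a residually absolutely irreducible representation span `End_A(V)`. -/
theorem span_range_rho_eq_top (ρ : GaloisRepAdic A) (h : ρ.residual.IsAbsolutelyIrreducible) :
    Submodule.span A (Set.range ρ.ρ) = (⊤ : Submodule A (Module.End A ρ.V)) := by
  let b : Module.Basis (Fin 2) A ρ.V := Module.finBasisOfFinrankEq A ρ.V ρ.finrank_eq
  have h1 := span_range_matOf_eq_top ρ h b
  have h2 : Set.range (matOf ρ b) =
      (((LinearMap.toMatrix b b : Module.End A ρ.V ≃ₗ[A] Matrix (Fin 2) (Fin 2) A) :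
        Module.End A ρ.V →ₗ[A] Matrix (Fin 2) (Fin 2) A)) '' Set.range ρ.ρ := by
    ext W
    constructor
    · rintro ⟨g, rfl⟩
      exact ⟨ρ.ρ g, ⟨g, rfl⟩, rfl⟩
    · rintro ⟨_, ⟨g, rfl⟩, rfl⟩
      exact ⟨g, rfl⟩
  rw [h2, ← Submodule.map_span] at h1
  rw [eq_top_iff]
  intro f _
  have hf : (LinearMap.toMatrix b b : Module.End A ρ.V ≃ₗ[A] Matrix (Fin 2) (Fin 2) A) f ∈
      (⊤ : Submodule A (Matrix (Fin 2) (Fin 2) A)) := Submodule.mem_top
  rw [← h1] at hf
  obtain ⟨f', hf', hff'⟩ := hf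
  have : f' = f := (LinearMap.toMatrix b b).injective hff'
  rw [← this]
  exact hf'

/-- **TRACE-KERNEL for `GaloisRepAdic`**. -/
theorem span_trace_sub_eq_entryIdeal_gal (ρ : GaloisRepAdic A)
    (h : ρ.residual.IsAbsolutelyIrreducible) (b : Module.Basis (Fin 2) A ρ.V) (τ : Γℚ) :
    Ideal.span (Set.range fun g : Γℚ => ρ.trace (τ * g) - ρ.trace g) =
      entryIdeal (matOf ρ b τ - 1) := by
  have h1 := span_trace_sub_eq_entryIdeal (matOfHom ρ b) (span_range_matOf_eq_top ρ h b) τ
  have htr : ∀ g, ρ.trace g = (matOfHom ρ b g).trace := fun g =>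
    LinearMap.trace_eq_matrix_trace A b (ρ.ρ g)
  rw [← matOfHom_apply, ← h1]
  congr 2
  funext g
  rw [htr, htr]

/-- `ρ(τ) = 1` iff `τ` does not change the trace function. -/
theorem rho_eq_one_iff_forall_trace (ρ : GaloisRepAdic A)
    (h : ρ.residual.IsAbsolutelyIrreducible) (τ : Γℚ) :
    ρ.ρ τ = 1 ↔ ∀ g : Γℚ, ρ.trace (τ * g) = ρ.trace g := by
  let b : Module.Basis (Fin 2) A ρ.V := Module.finBasisOfFinrankEq A ρ.V ρ.finrank_eq
  have htr : ∀ g, ρ.trace g = (matOfHom ρ b g).trace := fun g =>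
    LinearMap.trace_eq_matrix_trace A b (ρ.ρ g)
  have h1 := eq_one_iff_forall_trace_mul (matOfHom ρ b) (span_range_matOf_eq_top ρ h b) τ
  constructor
  · intro h2 g
    show LinearMap.trace A ρ.V (ρ.ρ (τ * g)) = LinearMap.trace A ρ.V (ρ.ρ g)
    rw [map_mul, h2, one_mul]
  · intro h2
    have h3 : matOfHom ρ b τ = 1 := h1.mpr fun g => by rw [← htr, ← htr, h2]
    have h4 : LinearMap.toMatrix b b (ρ.ρ τ) = LinearMap.toMatrix b b 1 := by
      rw [LinearMap.toMatrix_one]
      exact h3
    exact (LinearMap.toMatrix b b).injective h4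

end Fermat.Agent.S43lib.Loc
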