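/-
S43lib / Loc / HeckeLocal (helper1).

GENERIC FACTS on a commutative algebra `B` acting FAITHFULLY on a finite `𝒪`-module `M`
(the Hecke algebra `𝕋_Q` acting on `M_Q`), `𝒪` a complete noetherian local ring:

* `finite_of_faithful`         : `B` is a finite `𝒪`-module;
* `isUnit_of_surjective_smul`  : `t ∈ B` acting surjectively on `M` is a unit of `B`;
* `isLocalRing_of_surjective_smul` : if `π : P → B` is surjective, `𝔪 ⊂ P` is a proper ideal and every
  `s ∉ 𝔪` acts surjectively on `M ≠ 0`, then `B` is local, with `π s ∈ 𝔪_B ↔ s ∈ 𝔪`;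
* `isLocalHom_algebraMap_of_finite` : `𝒪 → B` is a local homomorphism (`B` local, finite over `𝒪`);
* `isAdicComplete_of_finite`   : `B` is `𝔪_B`-adically complete;
* `residue_algebraMap_surjective`, `finite_residueField` : the residue field of `B`;
* `heckeLocal_package`         : all of it in one statement;
* `bijective_smul_localizedModule` : `s ∉ 𝔪` acts bijectively on `LocalizedModule 𝔪.primeCompl M₀`.
-/
import Mathlib
import Fermat.Prelude.Thm_IsLocalRing_isAdicComplete_of_module_finite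

set_option autoImplicit false
set_option linter.style.haveILetI false
set_option linter.unusedSectionVars false

namespace Fermat.Agent.S43lib.Loc.HeckeLocal

open IsLocalRing

section Faithful

variable {𝒪 : Type*} [CommRing 𝒪] {B : Type*} [CommRing B] [Algebra 𝒪 B]
  {M : Type*} [AddCommGroup M] [Module 𝒪 M] [Module B M] [IsScalarTower 𝒪 B M]

theorem eq_zero_of_forall_smul_eq_zero [FaithfulSMul B M] {t : B} (h : ∀ m : M, t • m = 0) :
    t = 0 :=
  FaithfulSMul.eq_of_smul_eq_smul (α := M) fun m => by rw [h m, zero_smul]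

/-- A commutative algebra acting faithfully on a finite module over a noetherian ring is finite. -/
theorem finite_of_faithful [IsNoetherianRing 𝒪] [Module.Finite 𝒪 M] [FaithfulSMul B M] :
    Module.Finite 𝒪 B := by
  let φ : B →ₗ[𝒪] Module.End 𝒪 M := (Algebra.lsmul 𝒪 𝒪 M : B →ₐ[𝒪] Module.End 𝒪 M).toLinearMap
  have hφ : Function.Injective φ := by
    intro a b hab
    apply FaithfulSMul.eq_of_smul_eq_smul (α := M)
    intro m
    exact congrArg (fun f : Module.End 𝒪 M => f m) hab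
  exact Module.Finite.of_injective φ hφ

/-- An element of `B` acting surjectively on `M` is a unit. -/
theorem isUnit_of_surjective_smul [Module.Finite 𝒪 M] [FaithfulSMul B M] (t : B)
    (ht : Function.Surjective fun m : M => t • m) : IsUnit t := by
  haveI : Module.Finite B M := Module.Finite.of_restrictScalars_finite 𝒪 B M
  have hfg : (⊤ : Submodule B M).FG := Module.finite_def.mp inferInstance
  have hle : (⊤ : Submodule B M) ≤ Ideal.span {t} • (⊤ : Submodule B M) := by
    intro m _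
    obtain ⟨m', rfl⟩ := ht m
    exact Submodule.smul_mem_smul (Ideal.mem_span_singleton_self t) Submodule.mem_top
  obtain ⟨r, hr1, hr2⟩ :=
    Submodule.exists_sub_one_mem_and_smul_eq_zero_of_fg_of_le_smul (Ideal.span {t}) ⊤ hfg hle
  have hr0 : r = 0 := eq_zero_of_forall_smul_eq_zero (M := M) fun m => hr2 m Submodule.mem_top
  rw [hr0, zero_sub, Ideal.neg_mem_iff, Ideal.mem_span_singleton] at hr1
  exact isUnit_of_dvd_one hr1

theorem nontrivial_of_faithful [Nontrivial M] : Nontrivial B := by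
  by_contra h
  rw [not_nontrivial_iff_subsingleton] at h
  obtain ⟨m, m', hm⟩ := exists_pair_ne M
  apply hm
  rw [← one_smul B m, ← one_smul B m', Subsingleton.elim (1 : B) 0, zero_smul, zero_smul]

end Faithful

section PureRing

variable {P B : Type*} [CommRing P] [CommRing B] (π : P →+* B) (hπ : Function.Surjective π)
  (𝔪 : Ideal P) (h𝔪 : 𝔪 ≠ ⊤)

include hπ h𝔪 in
/-- If `π : P → B` is surjective, `B ≠ 0` and every `s ∉ 𝔪` becomes a unit of `B`, then `π s` is a
unit iff `s ∉ 𝔪`. -/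
theorem isUnit_map_iff_of_isUnit [Nontrivial B] (hunit : ∀ s : P, s ∉ 𝔪 → IsUnit (π s)) (s : P) :
    IsUnit (π s) ↔ s ∉ 𝔪 := by
  have hker : ∀ x : P, π x = 0 → x ∈ 𝔪 := by
    intro x hx
    by_contra hxm
    have h1 := hunit x hxm
    rw [hx] at h1
    exact not_isUnit_zero h1
  constructor
  · intro hu hs
    obtain ⟨c, hc⟩ := hu.exists_right_inv
    obtain ⟨t, rfl⟩ := hπ c
    have h1 : π (s * t - 1) = 0 := by rw [map_sub, map_mul, hc, map_one, sub_self]
    have h2 := hker _ h1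
    have h3 : (1 : P) ∈ 𝔪 := by
      have := 𝔪.sub_mem (𝔪.mul_mem_right t hs) h2
      rwa [sub_sub_cancel] at this
    exact h𝔪 ((Ideal.eq_top_iff_one _).mpr h3)
  · exact hunit s

include hπ h𝔪 in
/-- **Locality criterion.** -/
theorem isLocalRing_of_isUnit_map [Nontrivial B] (hunit : ∀ s : P, s ∉ 𝔪 → IsUnit (π s)) :
    IsLocalRing B := by
  refine IsLocalRing.of_nonunits_add ?_
  intro a b ha hb
  obtain ⟨s, rfl⟩ := hπ a
  obtain ⟨s', rfl⟩ := hπ b
  rw [mem_nonunits_iff, isUnit_map_iff_of_isUnit π hπ 𝔪 h𝔪 hunit, not_not] at ha hb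
  rw [mem_nonunits_iff, ← map_add, isUnit_map_iff_of_isUnit π hπ 𝔪 h𝔪 hunit, not_not]
  exact 𝔪.add_mem ha hb

include hπ h𝔪 in
theorem map_mem_maximalIdeal_iff_of_isUnit [IsLocalRing B]
    (hunit : ∀ s : P, s ∉ 𝔪 → IsUnit (π s)) (s : P) : π s ∈ maximalIdeal B ↔ s ∈ 𝔪 := by
  rw [mem_maximalIdeal, mem_nonunits_iff, isUnit_map_iff_of_isUnit π hπ 𝔪 h𝔪 hunit, not_not]

include hπ h𝔪 in
theorem maximalIdeal_eq_map_of_isUnit [IsLocalRing B]
    (hunit : ∀ s : P, s ∉ 𝔪 → IsUnit (π s)) : maximalIdeal B = 𝔪.map π := by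
  apply le_antisymm
  · intro b hb
    obtain ⟨s, rfl⟩ := hπ b
    exact Ideal.mem_map_of_mem π ((map_mem_maximalIdeal_iff_of_isUnit π hπ 𝔪 h𝔪 hunit s).mp hb)
  · rw [Ideal.map_le_iff_le_comap]
    intro s hs
    exact (map_mem_maximalIdeal_iff_of_isUnit π hπ 𝔪 h𝔪 hunit s).mpr hs

end PureRing

section Local

variable {𝒪 : Type*} [CommRing 𝒪] {B : Type*} [CommRing B] [Algebra 𝒪 B]
  {M : Type*} [AddCommGroup M] [Module 𝒪 M] [Module B M] [IsScalarTower 𝒪 B M]
  {P : Type*} [CommRing P] (π : P →+* B) (hπ : Function.Surjective π) (𝔪 : Ideal P)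
  (h𝔪 : 𝔪 ≠ ⊤)

include hπ h𝔪 in
/-- Under the hypotheses of `isLocalRing_of_surjective_smul`: `π s` is a unit iff `s ∉ 𝔪`. -/
theorem isUnit_map_iff [Nontrivial M] [Module.Finite 𝒪 M] [FaithfulSMul B M]
    (hsurj : ∀ s : P, s ∉ 𝔪 → Function.Surjective fun m : M => π s • m) (s : P) :
    IsUnit (π s) ↔ s ∉ 𝔪 := by
  haveI : Nontrivial B := nontrivial_of_faithful (M := M)
  exact isUnit_map_iff_of_isUnit π hπ 𝔪 h𝔪
    (fun s hs => isUnit_of_surjective_smul (𝒪 := 𝒪) (M := M) (π s) (hsurj s hs)) s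

include hπ h𝔪 in
/-- **Locality of the Hecke algebra**: if every `s ∉ 𝔪` acts surjectively on `M ≠ 0`, then `B` is a
local ring. -/
theorem isLocalRing_of_surjective_smul [Nontrivial M] [Module.Finite 𝒪 M] [FaithfulSMul B M]
    (hsurj : ∀ s : P, s ∉ 𝔪 → Function.Surjective fun m : M => π s • m) : IsLocalRing B := by
  haveI : Nontrivial B := nontrivial_of_faithful (M := M)
  exact isLocalRing_of_isUnit_map π hπ 𝔪 h𝔪
    (fun s hs => isUnit_of_surjective_smul (𝒪 := 𝒪) (M := M) (π s) (hsurj s hs))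

include hπ h𝔪 in
theorem map_mem_maximalIdeal_iff [Nontrivial M] [Module.Finite 𝒪 M] [FaithfulSMul B M]
    [IsLocalRing B]
    (hsurj : ∀ s : P, s ∉ 𝔪 → Function.Surjective fun m : M => π s • m) (s : P) :
    π s ∈ maximalIdeal B ↔ s ∈ 𝔪 :=
  map_mem_maximalIdeal_iff_of_isUnit π hπ 𝔪 h𝔪
    (fun s hs => isUnit_of_surjective_smul (𝒪 := 𝒪) (M := M) (π s) (hsurj s hs)) s

include hπ h𝔪 in
theorem maximalIdeal_eq_map [Nontrivial M] [Module.Finite 𝒪 M] [FaithfulSMul B M]
    [IsLocalRing B]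
    (hsurj : ∀ s : P, s ∉ 𝔪 → Function.Surjective fun m : M => π s • m) :
    maximalIdeal B = 𝔪.map π :=
  maximalIdeal_eq_map_of_isUnit π hπ 𝔪 h𝔪
    (fun s hs => isUnit_of_surjective_smul (𝒪 := 𝒪) (M := M) (π s) (hsurj s hs))

end Local

section LocalHom

variable {𝒪 : Type*} [CommRing 𝒪] [IsLocalRing 𝒪] {B : Type*} [CommRing B] [Algebra 𝒪 B]

/-- A finite local algebra over a local ring is a local algebra. -/
theorem isLocalHom_algebraMap_of_finite [IsLocalRing B] [Module.Finite 𝒪 B] :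
    IsLocalHom (algebraMap 𝒪 B) := by
  constructor
  intro a ha
  by_contra hna
  have ham : a ∈ maximalIdeal 𝒪 := (mem_maximalIdeal a).mpr hna
  have hfg : (⊤ : Submodule 𝒪 B).FG := Module.finite_def.mp inferInstance
  have hle : (⊤ : Submodule 𝒪 B) ≤ maximalIdeal 𝒪 • (⊤ : Submodule 𝒪 B) := by
    intro b _
    obtain ⟨c, hc⟩ := ha.exists_right_inv
    have hb : b = a • (c * b) := by
      rw [Algebra.smul_def, ← mul_assoc, hc, one_mul]
    rw [hb]
    exact Submodule.smul_mem_smul ham Submodule.mem_top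
  have hbot := Submodule.eq_bot_of_le_smul_of_le_jacobson_bot (maximalIdeal 𝒪) ⊤ hfg hle
    (IsLocalRing.maximalIdeal_le_jacobson ⊥)
  have h1 : (1 : B) ∈ (⊤ : Submodule 𝒪 B) := Submodule.mem_top
  rw [hbot, Submodule.mem_bot] at h1
  exact one_ne_zero h1

/-- A finite local algebra over a complete noetherian local ring is complete. -/
theorem isAdicComplete_of_finite [IsNoetherianRing 𝒪] [IsAdicComplete (maximalIdeal 𝒪) 𝒪]
    [IsLocalRing B] [Module.Finite 𝒪 B] : IsAdicComplete (maximalIdeal B) B := by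
  haveI := isLocalHom_algebraMap_of_finite (𝒪 := 𝒪) (B := B)
  exact IsLocalRing.isAdicComplete_of_module_finite (𝒪 := 𝒪) (T := B)

/-- A finite algebra over a noetherian ring is noetherian. -/
theorem isNoetherianRing_of_finite [IsNoetherianRing 𝒪] [Module.Finite 𝒪 B] :
    IsNoetherianRing B :=
  isNoetherian_of_isNoetherianRing_of_finite 𝒪 B |> fun h =>
    isNoetherian_of_tower 𝒪 h

end LocalHom

section Jacobson

/-- In a finite algebra over a local ring, the maximal ideal of the base lands in the Jacobson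
radical. -/
theorem algebraMap_mem_jacobson_bot {𝒪 : Type*} [CommRing 𝒪] [IsLocalRing 𝒪] {B : Type*}
    [CommRing B] [Algebra 𝒪 B] [Module.Finite 𝒪 B] {a : 𝒪} (ha : a ∈ maximalIdeal 𝒪) :
    algebraMap 𝒪 B a ∈ Ideal.jacobson (⊥ : Ideal B) := by
  rw [Ideal.mem_jacobson_bot]
  intro y
  set u : B := algebraMap 𝒪 B a * y + 1 with hu
  let N : Submodule 𝒪 B := (Ideal.span {u}).restrictScalars 𝒪
  have hfg : (⊤ : Submodule 𝒪 B).FG := Module.finite_def.mp inferInstance
  have hle : (⊤ : Submodule 𝒪 B) ≤ N ⊔ maximalIdeal 𝒪 • (⊤ : Submodule 𝒪 B) := by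
    intro b _
    have hb : b = u * b + a • (-(y * b)) := by
      rw [hu, Algebra.smul_def]; ring
    rw [hb]
    refine Submodule.add_mem_sup ?_ (Submodule.smul_mem_smul ha Submodule.mem_top)
    show u * b ∈ Ideal.span {u}
    exact Ideal.mul_mem_right _ _ (Ideal.mem_span_singleton_self u)
  have h1 := Submodule.le_of_le_smul_of_le_jacobson_bot hfg
    (IsLocalRing.maximalIdeal_le_jacobson ⊥) hle
  have h2 : (1 : B) ∈ N := h1 Submodule.mem_top
  have h3 : (1 : B) ∈ Ideal.span {u} := h2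
  rw [Ideal.mem_span_singleton] at h3
  exact isUnit_of_dvd_one h3

/-- An element of `p`-power order is congruent to `1` modulo the Jacobson radical when `p` lies in
it. -/
theorem sub_one_mem_jacobson_bot_of_pow {B : Type*} [CommRing B] {p : ℕ} (hp : p.Prime)
    (hpJ : (p : B) ∈ Ideal.jacobson (⊥ : Ideal B)) {x : B} {n : ℕ} (hx : x ^ p ^ n = 1) :
    x - 1 ∈ Ideal.jacobson (⊥ : Ideal B) := by
  obtain ⟨r, hr⟩ := exists_add_pow_prime_pow_eq hp (x - 1) 1 n
  rw [sub_add_cancel, hx, one_pow] at hr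
  have h1 : (x - 1) ^ p ^ n = (p : B) * (-((x - 1) * r)) := by linear_combination -hr
  apply (Ideal.isRadical_jacobson (⊥ : Ideal B))
  refine ⟨p ^ n, ?_⟩
  rw [h1]
  exact Ideal.mul_mem_right _ _ hpJ

/-- A unit plus an element of the Jacobson radical is a unit. -/
theorem isUnit_of_sub_mem_jacobson_bot {B : Type*} [CommRing B] {x u : B} (hu : IsUnit u)
    (h : x - u ∈ Ideal.jacobson (⊥ : Ideal B)) : IsUnit x := by
  obtain ⟨v, rfl⟩ := hu
  have h1 := Ideal.mem_jacobson_bot.mp h (↑v⁻¹ : B)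
  have h2 : x = ((x - ↑v) * ↑v⁻¹ + 1) * ↑v := by
    rw [add_mul, mul_assoc, Units.inv_mul, mul_one, one_mul, sub_add_cancel]
  rw [h2]
  exact h1.mul v.isUnit

end Jacobson

section Residue

variable {𝒪 : Type*} [CommRing 𝒪] [IsLocalRing 𝒪] {B : Type*} [CommRing B] [Algebra 𝒪 B]
  [IsLocalRing B]

/-- If every element of `B` is congruent to a constant modulo `𝔪_B`, the residue field of `B` is a
quotient of `𝒪`. -/
theorem residue_algebraMap_surjective
    (h : ∀ b : B, ∃ a : 𝒪, b - algebraMap 𝒪 B a ∈ maximalIdeal B) :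
    Function.Surjective ((residue B).comp (algebraMap 𝒪 B)) := by
  intro y
  obtain ⟨b, rfl⟩ := residue_surjective y
  obtain ⟨a, ha⟩ := h b
  refine ⟨a, ?_⟩
  rw [RingHom.comp_apply, eq_comm, ← sub_eq_zero, ← map_sub, residue_eq_zero_iff]
  exact ha

theorem ker_residue_comp_algebraMap
    (h : ∀ b : B, ∃ a : 𝒪, b - algebraMap 𝒪 B a ∈ maximalIdeal B) :
    RingHom.ker ((residue B).comp (algebraMap 𝒪 B)) = maximalIdeal 𝒪 := by
  haveI : (RingHom.ker ((residue B).comp (algebraMap 𝒪 B))).IsMaximal :=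
    RingHom.ker_isMaximal_of_surjective _ (residue_algebraMap_surjective h)
  exact IsLocalRing.eq_maximalIdeal inferInstance

/-- Under the same hypothesis `𝒪 → B` is a local homomorphism. -/
theorem isLocalHom_algebraMap_of_residue
    (h : ∀ b : B, ∃ a : 𝒪, b - algebraMap 𝒪 B a ∈ maximalIdeal B) :
    IsLocalHom (algebraMap 𝒪 B) := by
  constructor
  intro a ha
  by_contra hna
  have ham : a ∈ maximalIdeal 𝒪 := (mem_maximalIdeal a).mpr hna
  rw [← ker_residue_comp_algebraMap h, RingHom.mem_ker, RingHom.comp_apply,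
    residue_eq_zero_iff, mem_maximalIdeal, mem_nonunits_iff] at ham
  exact ham ha

theorem finite_residueField [Finite (ResidueField 𝒪)]
    (h : ∀ b : B, ∃ a : 𝒪, b - algebraMap 𝒪 B a ∈ maximalIdeal B) :
    Finite (ResidueField B) := by
  have hsurj := residue_algebraMap_surjective h
  have hker := ker_residue_comp_algebraMap h
  let f : ResidueField 𝒪 → ResidueField B := fun x =>
    residue B (algebraMap 𝒪 B (Function.surjInv residue_surjective x))
  have hf : Function.Surjective f := by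
    intro y
    obtain ⟨a, ha⟩ := hsurj y
    refine ⟨residue 𝒪 a, ?_⟩
    show residue B (algebraMap 𝒪 B _) = y
    rw [← ha, RingHom.comp_apply, ← sub_eq_zero, ← map_sub, ← map_sub]
    have h1 : Function.surjInv residue_surjective (residue 𝒪 a) - a ∈ maximalIdeal 𝒪 := by
      rw [← residue_eq_zero_iff, map_sub, Function.surjInv_eq residue_surjective, sub_self]
    rw [← hker, RingHom.mem_ker, RingHom.comp_apply] at h1
    exact h1
  exact Finite.of_surjective f hf

end Residue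

section Localized

variable {P : Type*} [CommRing P] (𝔪 : Ideal P) [𝔪.IsPrime] (M₀ : Type*) [AddCommGroup M₀]
  [Module P M₀]

/-- Elements outside `𝔪` act bijectively on the localisation at `𝔪`. -/
theorem bijective_smul_localizedModule {s : P} (hs : s ∉ 𝔪) :
    Function.Bijective fun y : LocalizedModule 𝔪.primeCompl M₀ => s • y := by
  have h := IsLocalizedModule.map_units (LocalizedModule.mkLinearMap 𝔪.primeCompl M₀)
    (⟨s, hs⟩ : 𝔪.primeCompl)
  have h2 := (Module.End.isUnit_iff _).mp h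
  convert h2 using 1
  funext y
  exact (Module.algebraMap_end_apply (R := P) (S := P) (a := s) (m := y)).symm

end Localized

section Package

variable {𝒪 : Type*} [CommRing 𝒪] [IsLocalRing 𝒪] [IsNoetherianRing 𝒪]
  [IsAdicComplete (maximalIdeal 𝒪) 𝒪]
  {B : Type*} [CommRing B] [Algebra 𝒪 B]
  {M : Type*} [AddCommGroup M] [Module 𝒪 M] [Module B M] [IsScalarTower 𝒪 B M]
  {P : Type*} [CommRing P] [Algebra 𝒪 P]

/-- **Package, unit form**: `B` a nonzero finite `𝒪`-algebra, `π : P → B` a surjective `𝒪`-algebra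
map, `𝔪 ⊂ P` a proper ideal with `P ⧸ 𝔪` a quotient of `𝒪`, every `s ∉ 𝔪` a unit of `B`. -/
theorem localAlgebra_package [Nontrivial B] [Module.Finite 𝒪 B]
    (π : P →ₐ[𝒪] B) (hπ : Function.Surjective π) (𝔪 : Ideal P) (h𝔪 : 𝔪 ≠ ⊤)
    (hunit : ∀ s : P, s ∉ 𝔪 → IsUnit (π s))
    (hres : ∀ s : P, ∃ a : 𝒪, s - algebraMap 𝒪 P a ∈ 𝔪) :
    ∃ _ : IsLocalRing B, IsNoetherianRing B ∧
      IsAdicComplete (maximalIdeal B) B ∧ IsLocalHom (algebraMap 𝒪 B) ∧
      (∀ s : P, π s ∈ maximalIdeal B ↔ s ∈ 𝔪) ∧ maximalIdeal B = 𝔪.map (π : P →+* B) ∧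
      (∀ b : B, ∃ a : 𝒪, b - algebraMap 𝒪 B a ∈ maximalIdeal B) ∧
      Function.Surjective ((residue B).comp (algebraMap 𝒪 B)) ∧
      (Finite (ResidueField 𝒪) → Finite (ResidueField B)) := by
  haveI hloc : IsLocalRing B := isLocalRing_of_isUnit_map (π : P →+* B) hπ 𝔪 h𝔪 hunit
  have hmem := map_mem_maximalIdeal_iff_of_isUnit (π : P →+* B) hπ 𝔪 h𝔪 hunit
  have hcong : ∀ b : B, ∃ a : 𝒪, b - algebraMap 𝒪 B a ∈ maximalIdeal B := by
    intro b
    obtain ⟨s, rfl⟩ := hπ b
    obtain ⟨a, ha⟩ := hres s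
    refine ⟨a, ?_⟩
    have := (hmem (s - algebraMap 𝒪 P a)).mpr ha
    rwa [map_sub, RingHom.coe_coe, AlgHom.commutes] at this
  exact ⟨hloc, isNoetherianRing_of_finite (𝒪 := 𝒪), isAdicComplete_of_finite (𝒪 := 𝒪),
    isLocalHom_algebraMap_of_finite, hmem,
    maximalIdeal_eq_map_of_isUnit (π : P →+* B) hπ 𝔪 h𝔪 hunit, hcong,
    residue_algebraMap_surjective hcong, fun _ => finite_residueField hcong⟩

/-- **All the generic facts on the Hecke algebra `B = 𝕋_Q` in one statement.**  `π : P → B` a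
surjective `𝒪`-algebra map (`P` a polynomial ring), `𝔪 ⊂ P` proper with residue ring a quotient of
`𝒪`, every `s ∉ 𝔪` acting surjectively on the nonzero finite `𝒪`-module `M`, `B` acting faithfully
on `M`. -/
theorem heckeLocal_package [Nontrivial M] [Module.Finite 𝒪 M] [FaithfulSMul B M]
    (π : P →ₐ[𝒪] B) (hπ : Function.Surjective π) (𝔪 : Ideal P) (h𝔪 : 𝔪 ≠ ⊤)
    (hsurj : ∀ s : P, s ∉ 𝔪 → Function.Surjective fun m : M => π s • m)
    (hres : ∀ s : P, ∃ a : 𝒪, s - algebraMap 𝒪 P a ∈ 𝔪) :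
    ∃ _ : IsLocalRing B, Module.Finite 𝒪 B ∧ IsNoetherianRing B ∧
      IsAdicComplete (maximalIdeal B) B ∧ IsLocalHom (algebraMap 𝒪 B) ∧
      (∀ s : P, π s ∈ maximalIdeal B ↔ s ∈ 𝔪) ∧ maximalIdeal B = 𝔪.map (π : P →+* B) ∧
      (∀ b : B, ∃ a : 𝒪, b - algebraMap 𝒪 B a ∈ maximalIdeal B) ∧
      Function.Surjective ((residue B).comp (algebraMap 𝒪 B)) ∧
      (Finite (ResidueField 𝒪) → Finite (ResidueField B)) := by
  haveI : Nontrivial B := nontrivial_of_faithful (M := M)
  haveI hfin : Module.Finite 𝒪 B := finite_of_faithful (M := M)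
  obtain ⟨h1, h2, h3, h4, h5, h6, h7, h8, h9⟩ := localAlgebra_package π hπ 𝔪 h𝔪
    (fun s hs => isUnit_of_surjective_smul (𝒪 := 𝒪) (M := M) (π s) (hsurj s hs)) hres
  exact ⟨h1, hfin, h2, h3, h4, h5, h6, h7, h8, h9⟩

end Package

end Fermat.Agent.S43lib.Loc.HeckeLocal
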