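/-
S43lib / Loc / HeckeAlg (helper1, brick HECKE-ALG (A1)+(A2) for helper7's hub `Mod4/HeckeObj`).

The ring-theoretic form of the output of B1: an *abstract Hecke datum* `H : AbsHecke 𝒪 G J`
(a module `H.Mod` over `𝒪[X_J]` with a commuting action of a finite commutative group `G`, a point
`H.ev : 𝒪[X_J] → k` whose complement acts bijectively on `H.Mod`), and for `J' ⊆ J` the Hecke algebra

  `H.hecke J'` = the image in `End_𝒪 H.Mod` of the polynomial ring `𝒪[X_j (j ∈ J'), [g] (g ∈ G)]`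

(realised as the quotient of that polynomial ring by the kernel of the action, so that it is a
commutative ring without any subalgebra coercion).

(A1) definitions and API: `tX`, `tG`, `tX_smul`, `tG_smul`, `hecke_ext`, `adjoin_tX_tG`, `heckeMk`.
(A2) for `H.Good p` over a complete noetherian local `𝒪`: `H.hecke J'` is a local ring, finite over
`𝒪`, noetherian, complete, `𝒪 → H.hecke J'` is local, the residue field is a quotient of `𝒪`,
`tX_sub_mem`, `tG_sub_one_mem`, and freeness over a PID.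
-/
import Mathlib
import Fermat.Agent.S43lib.Loc.HeckeLocal

set_option autoImplicit false
set_option linter.style.haveILetI false
set_option linter.unusedSectionVars false

noncomputable section

namespace Fermat.Agent.S43lib.Loc

open IsLocalRing MvPolynomial HeckeLocal

/-- An abstract Hecke datum (the output of B1 in ring-theoretic form). -/
structure AbsHecke (𝒪 : Type) [CommRing 𝒪] [IsLocalRing 𝒪] (G : Type) [CommGroup G] (J : Type) :
    Type 1 where
  /-- the Hecke module -/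
  Mod : Type
  [instAddCommGroup : AddCommGroup Mod]
  [instModule𝒪 : Module 𝒪 Mod]
  [instModuleP : Module (MvPolynomial J 𝒪) Mod]
  [instIsScalarTower : IsScalarTower 𝒪 (MvPolynomial J 𝒪) Mod]
  /-- the action of the diamond group -/
  act : G →* (Mod →ₗ[MvPolynomial J 𝒪] Mod)
  /-- the point -/
  ev : MvPolynomial J 𝒪 →+* ResidueField 𝒪
  ev_C : ∀ a, ev (C a) = residue 𝒪 a
  bij : ∀ s, ev s ≠ 0 → Function.Bijective (fun x : Mod => s • x)

attribute [instance] AbsHecke.instAddCommGroup AbsHecke.instModule𝒪 AbsHecke.instModuleP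
  AbsHecke.instIsScalarTower

namespace AbsHecke

variable {𝒪 : Type} [CommRing 𝒪] [IsLocalRing 𝒪] {G : Type} [CommGroup G] {J : Type}

/-- The standing hypotheses for locality. -/
structure Good (H : AbsHecke 𝒪 G J) (p : ℕ) : Prop where
  hp : p.Prime
  hp𝒪 : (p : 𝒪) ∈ maximalIdeal 𝒪
  hG : IsPGroup p G
  fin : Module.Finite 𝒪 H.Mod
  nontriv : Nontrivial H.Mod

variable (H : AbsHecke 𝒪 G J)

/-! ### The big commutative ring `𝒪[X_J][G]` acting on `H.Mod` -/

/-- `𝒪[X_J][G]` -/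
abbrev Big (𝒪 G J : Type) [CommRing 𝒪] [CommGroup G] : Type := MonoidAlgebra (MvPolynomial J 𝒪) G

/-- the action of `𝒪[X_J][G]` by `𝒪[X_J]`-linear endomorphisms -/
def bigEndP : Big 𝒪 G J →ₐ[MvPolynomial J 𝒪] Module.End (MvPolynomial J 𝒪) H.Mod :=
  MonoidAlgebra.lift (MvPolynomial J 𝒪) (Module.End (MvPolynomial J 𝒪) H.Mod) G H.act

/-- restriction of scalars `End_{𝒪[X_J]} → End_𝒪` as an `𝒪`-algebra map -/
def endRestrict : Module.End (MvPolynomial J 𝒪) H.Mod →ₐ[𝒪] Module.End 𝒪 H.Mod where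
  toFun f := f.restrictScalars 𝒪
  map_one' := rfl
  map_mul' _ _ := rfl
  map_zero' := rfl
  map_add' _ _ := rfl
  commutes' a := by
    ext m
    show (algebraMap 𝒪 (Module.End (MvPolynomial J 𝒪) H.Mod) a) m =
      (algebraMap 𝒪 (Module.End 𝒪 H.Mod) a) m
    rw [Module.algebraMap_end_apply, Module.algebraMap_end_apply]

/-- the action of `𝒪[X_J][G]` by `𝒪`-linear endomorphisms -/
def bigEnd : Big 𝒪 G J →ₐ[𝒪] Module.End 𝒪 H.Mod :=
  H.endRestrict.comp (H.bigEndP.restrictScalars 𝒪)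

theorem bigEnd_of (g : G) (m : H.Mod) :
    H.bigEnd (MonoidAlgebra.of (MvPolynomial J 𝒪) G g) m = H.act g m := by
  show (H.bigEndP (MonoidAlgebra.of (MvPolynomial J 𝒪) G g)) m = _
  rw [bigEndP, MonoidAlgebra.lift_of]

theorem bigEnd_algebraMap (s : MvPolynomial J 𝒪) (m : H.Mod) :
    H.bigEnd (algebraMap (MvPolynomial J 𝒪) (Big 𝒪 G J) s) m = s • m := by
  show (H.bigEndP (algebraMap (MvPolynomial J 𝒪) (Big 𝒪 G J) s)) m = _
  rw [AlgHom.commutes, Module.algebraMap_end_apply]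

/-! ### The symbol ring `𝒪[X_j (j ∈ J'), [g] (g ∈ G)]` -/

variable (J' : Set J)

/-- the polynomial ring on the symbols `X_j` (`j ∈ J'`) and `[g]` (`g ∈ G`) -/
abbrev Sym (𝒪 G : Type) {J : Type} [CommRing 𝒪] (J' : Set J) : Type :=
  MvPolynomial (↥J' ⊕ G) 𝒪

/-- the images of the symbols in `𝒪[X_J][G]` -/
def symGen : ↥J' ⊕ G → Big 𝒪 G J :=
  Sum.elim (fun j => algebraMap (MvPolynomial J 𝒪) (Big 𝒪 G J) (X (j : J)))
    (fun g => MonoidAlgebra.of (MvPolynomial J 𝒪) G g)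

/-- `𝒪[X_{J'}, [G]] → 𝒪[X_J][G]` -/
def symToBig : Sym 𝒪 G J' →ₐ[𝒪] Big 𝒪 G J := MvPolynomial.aeval (symGen (𝒪 := 𝒪) (G := G) J')

/-- the action of the symbol ring on `H.Mod` -/
def symEnd : Sym 𝒪 G J' →ₐ[𝒪] Module.End 𝒪 H.Mod := H.bigEnd.comp (symToBig J')

theorem symEnd_X_inl (j : ↥J') (m : H.Mod) :
    H.symEnd J' (X (Sum.inl j)) m = (X (j : J) : MvPolynomial J 𝒪) • m := by
  show H.bigEnd (symToBig J' (X (Sum.inl j))) m = _
  rw [symToBig, aeval_X, symGen, Sum.elim_inl, bigEnd_algebraMap]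

theorem symEnd_X_inr (g : G) (m : H.Mod) :
    H.symEnd J' (X (Sum.inr g)) m = H.act g m := by
  show H.bigEnd (symToBig J' (X (Sum.inr g))) m = _
  rw [symToBig, aeval_X, symGen, Sum.elim_inr, bigEnd_of]

/-! ### The Hecke algebra -/

/-- **The Hecke algebra** generated by the `X_j`, `j ∈ J'`, and the diamond operators. -/
def hecke : Type := Sym 𝒪 G J' ⧸ RingHom.ker (H.symEnd J')

instance instCommRingHecke : CommRing (H.hecke J') :=
  inferInstanceAs (CommRing (Sym 𝒪 G J' ⧸ RingHom.ker (H.symEnd J')))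

instance instAlgebraHecke : Algebra 𝒪 (H.hecke J') :=
  inferInstanceAs (Algebra 𝒪 (Sym 𝒪 G J' ⧸ RingHom.ker (H.symEnd J')))

/-- the quotient map from the symbol ring -/
def heckeMk : Sym 𝒪 G J' →ₐ[𝒪] H.hecke J' :=
  Ideal.Quotient.mkₐ 𝒪 (RingHom.ker (H.symEnd J'))

theorem heckeMk_surjective : Function.Surjective (H.heckeMk J') :=
  Ideal.Quotient.mkₐ_surjective 𝒪 _

/-- the (injective) action map -/
def heckeEnd : H.hecke J' →ₐ[𝒪] Module.End 𝒪 H.Mod := Ideal.kerLiftAlg (H.symEnd J')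

theorem heckeEnd_mk (s : Sym 𝒪 G J') : H.heckeEnd J' (H.heckeMk J' s) = H.symEnd J' s :=
  Ideal.kerLiftAlg_mk (H.symEnd J') s

theorem heckeEnd_injective : Function.Injective (H.heckeEnd J') :=
  Ideal.kerLiftAlg_injective (H.symEnd J')

instance instModuleHecke : Module (H.hecke J') H.Mod :=
  Module.compHom H.Mod (H.heckeEnd J' : H.hecke J' →+* Module.End 𝒪 H.Mod)

theorem hecke_smul_def (t : H.hecke J') (m : H.Mod) : t • m = H.heckeEnd J' t m := rfl

theorem heckeMk_smul (s : Sym 𝒪 G J') (m : H.Mod) : H.heckeMk J' s • m = H.symEnd J' s m := by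
  rw [hecke_smul_def, heckeEnd_mk]

instance instIsScalarTowerHecke : IsScalarTower 𝒪 (H.hecke J') H.Mod :=
  ⟨fun a t m => by rw [hecke_smul_def, hecke_smul_def, map_smul, LinearMap.smul_apply]⟩

/-- the Hecke algebra acts faithfully -/
theorem hecke_ext {t t' : H.hecke J'} (h : ∀ m : H.Mod, t • m = t' • m) : t = t' :=
  H.heckeEnd_injective J' (LinearMap.ext h)

instance instFaithfulSMulHecke : FaithfulSMul (H.hecke J') H.Mod := ⟨fun h => H.hecke_ext J' h⟩

/-- the Hecke operator `X_j`, `j ∈ J'` -/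
def tX (j : J) (hj : j ∈ J') : H.hecke J' := H.heckeMk J' (X (Sum.inl ⟨j, hj⟩))

theorem tX_smul (j : J) (hj : j ∈ J') (m : H.Mod) :
    H.tX J' j hj • m = (X j : MvPolynomial J 𝒪) • m := by
  rw [tX, heckeMk_smul, symEnd_X_inl]

/-- the diamond operators -/
def tG : G →* H.hecke J' where
  toFun g := H.heckeMk J' (X (Sum.inr g))
  map_one' := by
    apply H.hecke_ext J'
    intro m
    rw [heckeMk_smul, symEnd_X_inr, map_one, one_smul]
    rfl
  map_mul' g h := by
    apply H.hecke_ext J'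
    intro m
    rw [heckeMk_smul, symEnd_X_inr, map_mul, mul_smul, heckeMk_smul, heckeMk_smul, symEnd_X_inr,
      symEnd_X_inr]
    rfl

theorem tG_apply (g : G) : H.tG J' g = H.heckeMk J' (X (Sum.inr g)) := rfl

theorem tG_smul (g : G) (m : H.Mod) : H.tG J' g • m = H.act g m := by
  rw [tG_apply, heckeMk_smul, symEnd_X_inr]

theorem heckeMk_X_inl (j : ↥J') : H.heckeMk J' (X (Sum.inl j)) = H.tX J' j.1 j.2 := rfl

theorem heckeMk_X_inr (g : G) : H.heckeMk J' (X (Sum.inr g)) = H.tG J' g := rfl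

/-- the Hecke algebra is generated by the `tX` and the `tG` -/
theorem adjoin_tX_tG :
    Algebra.adjoin 𝒪 ({t | ∃ (j : J) (hj : j ∈ J'), t = H.tX J' j hj} ∪ Set.range (H.tG J')) = ⊤ := by
  have h1 : (⊤ : Subalgebra 𝒪 (H.hecke J')) = (H.heckeMk J').range :=
    ((AlgHom.range_eq_top _).mpr (H.heckeMk_surjective J')).symm
  rw [h1, ← Algebra.map_top, ← MvPolynomial.adjoin_range_X, AlgHom.map_adjoin]
  congr 1
  ext t
  constructor
  · rintro (⟨j, hj, rfl⟩ | ⟨g, rfl⟩)
    · exact ⟨X (Sum.inl ⟨j, hj⟩), ⟨_, rfl⟩, rfl⟩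
    · exact ⟨X (Sum.inr g), ⟨_, rfl⟩, rfl⟩
  · rintro ⟨_, ⟨i, rfl⟩, rfl⟩
    rcases i with j | g
    · exact Or.inl ⟨j.1, j.2, rfl⟩
    · exact Or.inr ⟨g, rfl⟩

/-! ### The point of the symbol ring -/

/-- the point of the symbol ring: `X_j ↦ ev X_j`, `[g] ↦ 1` -/
def evSym : Sym 𝒪 G J' →+* ResidueField 𝒪 :=
  MvPolynomial.eval₂Hom (residue 𝒪) (Sum.elim (fun j : ↥J' => H.ev (X (j : J))) (fun _ => 1))

theorem evSym_C (a : 𝒪) : H.evSym J' (C a) = residue 𝒪 a := by
  rw [evSym, coe_eval₂Hom, eval₂_C]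

theorem evSym_X_inl (j : ↥J') : H.evSym J' (X (Sum.inl j)) = H.ev (X (j : J)) := by
  rw [evSym, coe_eval₂Hom, eval₂_X, Sum.elim_inl]

theorem evSym_X_inr (g : G) : H.evSym J' (X (Sum.inr g)) = 1 := by
  rw [evSym, coe_eval₂Hom, eval₂_X, Sum.elim_inr]

/-- the maximal ideal of the symbol ring -/
def mSym : Ideal (Sym 𝒪 G J') := RingHom.ker (H.evSym J')

theorem mem_mSym (s : Sym 𝒪 G J') : s ∈ H.mSym J' ↔ H.evSym J' s = 0 := RingHom.mem_ker

theorem mSym_ne_top : H.mSym J' ≠ ⊤ := RingHom.ker_ne_top _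

theorem exists_sub_algebraMap_mem_mSym (s : Sym 𝒪 G J') :
    ∃ a : 𝒪, s - algebraMap 𝒪 (Sym 𝒪 G J') a ∈ H.mSym J' := by
  obtain ⟨a, ha⟩ := residue_surjective (H.evSym J' s)
  refine ⟨a, ?_⟩
  rw [mem_mSym, map_sub, MvPolynomial.algebraMap_eq, evSym_C, ha, sub_self]

/-- forget the diamond symbols: `[g] ↦ 1` -/
def symRetr : Sym 𝒪 G J' →ₐ[𝒪] MvPolynomial (↥J') 𝒪 :=
  MvPolynomial.aeval (Sum.elim X (fun _ => 1))

/-- the inclusion of `𝒪[X_{J'}]` -/
def symIncl : MvPolynomial (↥J') 𝒪 →ₐ[𝒪] Sym 𝒪 G J' := MvPolynomial.rename Sum.inl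

theorem evSym_incl_retr (s : Sym 𝒪 G J') :
    H.evSym J' (symIncl (G := G) J' (symRetr J' s)) = H.evSym J' s := by
  have h : (H.evSym J').comp
      (((symIncl (G := G) J').comp (symRetr J') : Sym 𝒪 G J' →ₐ[𝒪] Sym 𝒪 G J') :
        Sym 𝒪 G J' →+* Sym 𝒪 G J') = H.evSym J' := by
    apply MvPolynomial.ringHom_ext
    · intro a
      simp only [RingHom.comp_apply, RingHom.coe_coe, AlgHom.comp_apply]
      rw [symRetr, ← MvPolynomial.algebraMap_eq, AlgHom.commutes, symIncl, AlgHom.commutes]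
    · intro i
      simp only [RingHom.comp_apply, RingHom.coe_coe, AlgHom.comp_apply]
      rcases i with j | g
      · rw [symRetr, aeval_X, Sum.elim_inl, symIncl, rename_X]
      · rw [symRetr, aeval_X, Sum.elim_inr, map_one, map_one, evSym_X_inr]
  exact congrArg (fun f : Sym 𝒪 G J' →+* ResidueField 𝒪 => f s) h

theorem ev_rename (t : MvPolynomial (↥J') 𝒪) :
    H.ev (MvPolynomial.rename (Subtype.val : ↥J' → J) t) = H.evSym J' (symIncl (G := G) J' t) := by
  have h : H.ev.comp ((MvPolynomial.rename (Subtype.val : ↥J' → J) :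
      MvPolynomial (↥J') 𝒪 →ₐ[𝒪] MvPolynomial J 𝒪) : MvPolynomial (↥J') 𝒪 →+* MvPolynomial J 𝒪) =
      (H.evSym J').comp ((symIncl (G := G) J' : MvPolynomial (↥J') 𝒪 →ₐ[𝒪] Sym 𝒪 G J') :
        MvPolynomial (↥J') 𝒪 →+* Sym 𝒪 G J') := by
    apply MvPolynomial.ringHom_ext
    · intro a
      simp only [RingHom.comp_apply, RingHom.coe_coe]
      rw [symIncl, rename_C, rename_C, H.ev_C, evSym_C]
    · intro j
      simp only [RingHom.comp_apply, RingHom.coe_coe]
      rw [symIncl, rename_X, rename_X, evSym_X_inl]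
  exact congrArg (fun f : MvPolynomial (↥J') 𝒪 →+* ResidueField 𝒪 => f t) h

theorem symEnd_incl (t : MvPolynomial (↥J') 𝒪) (m : H.Mod) :
    H.symEnd J' (symIncl (G := G) J' t) m =
      MvPolynomial.rename (Subtype.val : ↥J' → J) t • m := by
  have h : (H.symEnd J').comp (symIncl (G := G) J') =
      (Algebra.lsmul 𝒪 𝒪 H.Mod : MvPolynomial J 𝒪 →ₐ[𝒪] Module.End 𝒪 H.Mod).comp
        (MvPolynomial.rename (Subtype.val : ↥J' → J)) := by
    apply MvPolynomial.algHom_ext
    intro j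
    apply LinearMap.ext
    intro m
    rw [AlgHom.comp_apply, AlgHom.comp_apply, symIncl, rename_X, rename_X, symEnd_X_inl]
    rfl
  exact congrArg (fun f : MvPolynomial (↥J') 𝒪 →ₐ[𝒪] Module.End 𝒪 H.Mod => f t m) h

/-! ### Locality -/

section Local

variable [IsNoetherianRing 𝒪] {p : ℕ} (hH : H.Good p)

include hH

theorem finite_hecke : Module.Finite 𝒪 (H.hecke J') := by
  haveI := hH.fin
  exact finite_of_faithful (M := H.Mod)

theorem nontrivial_hecke : Nontrivial (H.hecke J') := by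
  haveI := hH.nontriv
  exact nontrivial_of_faithful (M := H.Mod)

theorem natCast_mem_jacobson : ((p : ℕ) : H.hecke J') ∈ Ideal.jacobson (⊥ : Ideal (H.hecke J')) := by
  haveI := H.finite_hecke J' hH
  have h := algebraMap_mem_jacobson_bot (B := H.hecke J') hH.hp𝒪
  rwa [map_natCast] at h

theorem tG_sub_one_mem_jacobson (g : G) :
    H.tG J' g - 1 ∈ Ideal.jacobson (⊥ : Ideal (H.hecke J')) := by
  obtain ⟨n, hn⟩ := hH.hG g
  refine sub_one_mem_jacobson_bot_of_pow hH.hp (H.natCast_mem_jacobson J' hH) (n := n) ?_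
  rw [← map_pow, hn, map_one]

theorem heckeMk_sub_incl_retr_mem_jacobson (s : Sym 𝒪 G J') :
    H.heckeMk J' s - H.heckeMk J' (symIncl (G := G) J' (symRetr J' s)) ∈
      Ideal.jacobson (⊥ : Ideal (H.hecke J')) := by
  set Jac := Ideal.jacobson (⊥ : Ideal (H.hecke J')) with hJac
  let f₁ : Sym 𝒪 G J' →ₐ[𝒪] (H.hecke J' ⧸ Jac) := (Ideal.Quotient.mkₐ 𝒪 Jac).comp (H.heckeMk J')
  let f₂ : Sym 𝒪 G J' →ₐ[𝒪] (H.hecke J' ⧸ Jac) :=
    f₁.comp ((symIncl (G := G) J').comp (symRetr J'))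
  have h : f₁ = f₂ := by
    apply MvPolynomial.algHom_ext
    intro i
    rcases i with j | g
    · show f₁ (X (Sum.inl j)) = f₁ (symIncl (G := G) J' (symRetr J' (X (Sum.inl j))))
      rw [symRetr, aeval_X, Sum.elim_inl, symIncl, rename_X]
    · show f₁ (X (Sum.inr g)) = f₁ (symIncl (G := G) J' (symRetr J' (X (Sum.inr g))))
      rw [symRetr, aeval_X, Sum.elim_inr, map_one, map_one]
      show Ideal.Quotient.mk Jac (H.heckeMk J' (X (Sum.inr g))) = 1
      rw [← map_one (Ideal.Quotient.mk Jac), Ideal.Quotient.eq, heckeMk_X_inr]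
      exact H.tG_sub_one_mem_jacobson J' hH g
  have h2 := congrArg (fun f : Sym 𝒪 G J' →ₐ[𝒪] (H.hecke J' ⧸ Jac) => f s) h
  exact Ideal.Quotient.eq.mp h2

/-- every symbol polynomial outside `mSym` becomes a unit of the Hecke algebra -/
theorem isUnit_heckeMk {s : Sym 𝒪 G J'} (hs : s ∉ H.mSym J') : IsUnit (H.heckeMk J' s) := by
  haveI := hH.fin
  have h1 : H.ev (MvPolynomial.rename (Subtype.val : ↥J' → J) (symRetr J' s)) ≠ 0 := by
    rw [ev_rename, evSym_incl_retr]
    exact fun h0 => hs ((H.mem_mSym J' s).mpr h0)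
  have h2 : IsUnit (H.heckeMk J' (symIncl (G := G) J' (symRetr J' s))) := by
    apply isUnit_of_surjective_smul (𝒪 := 𝒪) (M := H.Mod)
    have h3 := (H.bij _ h1).2
    convert h3 using 2 with m
    rw [heckeMk_smul, symEnd_incl]
  exact isUnit_of_sub_mem_jacobson_bot h2 (H.heckeMk_sub_incl_retr_mem_jacobson J' hH s)

/-- **The Hecke algebra is local.** -/
theorem isLocalRing_hecke : IsLocalRing (H.hecke J') := by
  haveI := H.nontrivial_hecke J' hH
  exact isLocalRing_of_isUnit_map (H.heckeMk J' : Sym 𝒪 G J' →+* H.hecke J')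
    (H.heckeMk_surjective J') (H.mSym J') (H.mSym_ne_top J') fun s hs => H.isUnit_heckeMk J' hH hs

theorem isNoetherianRing_hecke : IsNoetherianRing (H.hecke J') := by
  haveI := H.finite_hecke J' hH
  exact isNoetherianRing_of_finite (𝒪 := 𝒪)

theorem isLocalHom_algebraMap_hecke [IsLocalRing (H.hecke J')] :
    IsLocalHom (algebraMap 𝒪 (H.hecke J')) := by
  haveI := H.finite_hecke J' hH
  exact isLocalHom_algebraMap_of_finite

theorem isAdicComplete_hecke [IsAdicComplete (maximalIdeal 𝒪) 𝒪] [IsLocalRing (H.hecke J')] :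
    IsAdicComplete (maximalIdeal (H.hecke J')) (H.hecke J') := by
  haveI := H.finite_hecke J' hH
  exact isAdicComplete_of_finite (𝒪 := 𝒪)

theorem heckeMk_mem_maximalIdeal_iff [IsLocalRing (H.hecke J')] (s : Sym 𝒪 G J') :
    H.heckeMk J' s ∈ maximalIdeal (H.hecke J') ↔ H.evSym J' s = 0 := by
  haveI := H.nontrivial_hecke J' hH
  rw [← mem_mSym]
  exact map_mem_maximalIdeal_iff_of_isUnit (H.heckeMk J' : Sym 𝒪 G J' →+* H.hecke J')
    (H.heckeMk_surjective J') (H.mSym J') (H.mSym_ne_top J')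
    (fun s hs => H.isUnit_heckeMk J' hH hs) s

theorem tX_sub_mem [IsLocalRing (H.hecke J')] {j : J} (hj : j ∈ J') {a : 𝒪}
    (ha : residue 𝒪 a = H.ev (X j)) :
    H.tX J' j hj - algebraMap 𝒪 (H.hecke J') a ∈ maximalIdeal (H.hecke J') := by
  have h1 : H.tX J' j hj - algebraMap 𝒪 (H.hecke J') a =
      H.heckeMk J' (X (Sum.inl ⟨j, hj⟩) - algebraMap 𝒪 (Sym 𝒪 G J') a) := by
    rw [map_sub, AlgHom.commutes]; rfl
  rw [h1, H.heckeMk_mem_maximalIdeal_iff J' hH, map_sub, evSym_X_inl, MvPolynomial.algebraMap_eq,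
    evSym_C, ha, sub_self]

theorem tG_sub_one_mem [IsLocalRing (H.hecke J')] (g : G) :
    H.tG J' g - 1 ∈ maximalIdeal (H.hecke J') := by
  have h1 : H.tG J' g - 1 = H.heckeMk J' (X (Sum.inr g) - 1) := by
    rw [map_sub, map_one]; rfl
  rw [h1, H.heckeMk_mem_maximalIdeal_iff J' hH, map_sub, evSym_X_inr, map_one, sub_self]

theorem exists_sub_algebraMap_mem_maximalIdeal [IsLocalRing (H.hecke J')] (t : H.hecke J') :
    ∃ a : 𝒪, t - algebraMap 𝒪 (H.hecke J') a ∈ maximalIdeal (H.hecke J') := by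
  obtain ⟨s, rfl⟩ := H.heckeMk_surjective J' t
  obtain ⟨a, ha⟩ := H.exists_sub_algebraMap_mem_mSym J' s
  refine ⟨a, ?_⟩
  have h1 : H.heckeMk J' s - algebraMap 𝒪 (H.hecke J') a =
      H.heckeMk J' (s - algebraMap 𝒪 (Sym 𝒪 G J') a) := by
    rw [map_sub, AlgHom.commutes]
  rw [h1, H.heckeMk_mem_maximalIdeal_iff J' hH, ← mem_mSym]
  exact ha

theorem residue_algebraMap_surjective_hecke [IsLocalRing (H.hecke J')] :
    Function.Surjective ((residue (H.hecke J')).comp (algebraMap 𝒪 (H.hecke J'))) :=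
  residue_algebraMap_surjective (H.exists_sub_algebraMap_mem_maximalIdeal J' hH)

theorem finite_residueField_hecke [Finite (ResidueField 𝒪)] [IsLocalRing (H.hecke J')] :
    Finite (ResidueField (H.hecke J')) :=
  finite_residueField (H.exists_sub_algebraMap_mem_maximalIdeal J' hH)

/-- Over a PID, the Hecke algebra of a free Hecke module is free. -/
theorem free_hecke [IsDomain 𝒪] [IsPrincipalIdealRing 𝒪] [Module.Free 𝒪 H.Mod] :
    Module.Free 𝒪 (H.hecke J') := by
  haveI := hH.fin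
  haveI := H.finite_hecke J' hH
  haveI : Module.IsTorsionFree 𝒪 (H.hecke J') :=
    Function.Injective.moduleIsTorsionFree (H.heckeEnd J' : H.hecke J' →ₗ[𝒪] Module.End 𝒪 H.Mod)
      (H.heckeEnd_injective J') (fun _ _ => map_smul _ _ _)
  exact Module.free_of_finite_type_torsion_free'

end Local

end AbsHecke

end Fermat.Agent.S43lib.Loc
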