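/-
S43lib / Loc / GroupRing (helper1).

The group ring `Λ = 𝒪[G]` of a finite commutative `p`-group over a (complete Noetherian) local ring
`𝒪` of residue characteristic `p`:

* `isLocalRing_monoidAlgebra` : `Λ` is local (its maximal ideal is the kernel of `Λ → 𝒪 → k`);
* `isLocalHom_algebraMap_monoidAlgebra`, `isNoetherianRing_monoidAlgebra`,
  `isAdicComplete_monoidAlgebra`, `finite_residueField_monoidAlgebra`;
* `charAug ψ : Λ →ₐ[𝒪] 𝒪` for a character `ψ : G →* 𝒪ˣ`, and `ker_charAug_sup_eq`: two characters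
  congruent modulo `ϖ` have augmentation kernels which agree modulo `ϖ`.
-/
import Mathlib
import Fermat.Prelude.Thm_IsLocalRing_isAdicComplete_of_module_finite

set_option autoImplicit false
set_option linter.style.haveILetI false
set_option linter.unusedSectionVars false

namespace Fermat.Agent.S43lib.Loc

open IsLocalRing

section Aug

variable {𝒪 : Type*} [CommRing 𝒪] {G : Type*} [CommGroup G]

/-- The augmentation attached to a character. -/
noncomputable def charAug (ψ : G →* 𝒪ˣ) : MonoidAlgebra 𝒪 G →ₐ[𝒪] 𝒪 :=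
  MonoidAlgebra.lift 𝒪 𝒪 G ((Units.coeHom 𝒪).comp ψ)

theorem charAug_of (ψ : G →* 𝒪ˣ) (g : G) :
    charAug ψ (MonoidAlgebra.of 𝒪 G g) = (ψ g : 𝒪) := by
  rw [charAug, MonoidAlgebra.lift_of]
  rfl

theorem charAug_surjective (ψ : G →* 𝒪ˣ) : Function.Surjective (charAug (𝒪 := 𝒪) ψ) := fun a =>
  ⟨algebraMap 𝒪 _ a, by rw [AlgHom.commutes]; rfl⟩

/-- `x − ε_ψ(x)` lies in every ideal containing all `g − ψ(g)`. -/
theorem sub_algebraMap_charAug_mem (ψ : G →* 𝒪ˣ) (J : Ideal (MonoidAlgebra 𝒪 G))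
    (hJ : ∀ g, MonoidAlgebra.of 𝒪 G g - algebraMap 𝒪 (MonoidAlgebra 𝒪 G) (ψ g : 𝒪) ∈ J)
    (x : MonoidAlgebra 𝒪 G) :
    x - algebraMap 𝒪 (MonoidAlgebra 𝒪 G) (charAug ψ x) ∈ J := by
  induction x using MonoidAlgebra.induction_on with
  | of g =>
    rw [charAug_of]
    exact hJ g
  | add x y hx hy =>
    have : x + y - algebraMap 𝒪 (MonoidAlgebra 𝒪 G) (charAug ψ (x + y)) =
        (x - algebraMap 𝒪 (MonoidAlgebra 𝒪 G) (charAug ψ x)) +
          (y - algebraMap 𝒪 (MonoidAlgebra 𝒪 G) (charAug ψ y)) := by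
      rw [map_add, map_add]
      ring
    rw [this]
    exact Ideal.add_mem _ hx hy
  | smul r x hx =>
    have : r • x - algebraMap 𝒪 (MonoidAlgebra 𝒪 G) (charAug ψ (r • x)) =
        algebraMap 𝒪 (MonoidAlgebra 𝒪 G) r *
          (x - algebraMap 𝒪 (MonoidAlgebra 𝒪 G) (charAug ψ x)) := by
      rw [map_smul, smul_eq_mul, map_mul, Algebra.smul_def]
      ring
    rw [this]
    exact Ideal.mul_mem_left _ _ hx

/-- Two characters congruent modulo `ϖ` have congruent augmentations. -/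
theorem charAug_sub_charAug_mem (ψA ψB : G →* 𝒪ˣ) (ϖ : 𝒪)
    (hψ : ∀ g, (ψA g : 𝒪) - (ψB g : 𝒪) ∈ Ideal.span {ϖ}) (x : MonoidAlgebra 𝒪 G) :
    charAug ψA x - charAug ψB x ∈ Ideal.span {ϖ} := by
  induction x using MonoidAlgebra.induction_on with
  | of g =>
    rw [charAug_of, charAug_of]
    exact hψ g
  | add x y hx hy =>
    have : charAug ψA (x + y) - charAug ψB (x + y) =
        (charAug ψA x - charAug ψB x) + (charAug ψA y - charAug ψB y) := by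
      rw [map_add, map_add]
      ring
    rw [this]
    exact Ideal.add_mem _ hx hy
  | smul r x hx =>
    have : charAug ψA (r • x) - charAug ψB (r • x) = r * (charAug ψA x - charAug ψB x) := by
      rw [map_smul, map_smul, smul_eq_mul, smul_eq_mul]
      ring
    rw [this]
    exact Ideal.mul_mem_left _ _ hx

/-- The kernels of two congruent augmentations agree modulo `ϖ`. -/
theorem ker_charAug_sup_le (ψA ψB : G →* 𝒪ˣ) (ϖ : 𝒪)
    (hψ : ∀ g, (ψA g : 𝒪) - (ψB g : 𝒪) ∈ Ideal.span {ϖ}) :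
    RingHom.ker (charAug ψA : MonoidAlgebra 𝒪 G →+* 𝒪) ⊔
        Ideal.span {algebraMap 𝒪 (MonoidAlgebra 𝒪 G) ϖ} ≤
      RingHom.ker (charAug ψB : MonoidAlgebra 𝒪 G →+* 𝒪) ⊔
        Ideal.span {algebraMap 𝒪 (MonoidAlgebra 𝒪 G) ϖ} := by
  rw [sup_le_iff]
  refine ⟨fun x hx => ?_, le_sup_right⟩
  have hx0 : charAug ψA x = 0 := hx
  have e : x = (x - algebraMap 𝒪 (MonoidAlgebra 𝒪 G) (charAug ψB x)) +
      algebraMap 𝒪 (MonoidAlgebra 𝒪 G) (charAug ψB x) := by ring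
  rw [e]
  refine Submodule.add_mem_sup ?_ ?_
  · show (charAug ψB : MonoidAlgebra 𝒪 G →+* 𝒪) _ = 0
    show charAug ψB (x - algebraMap 𝒪 (MonoidAlgebra 𝒪 G) (charAug ψB x)) = 0
    rw [map_sub, AlgHom.commutes]
    exact sub_self _
  · have h1 := charAug_sub_charAug_mem ψA ψB ϖ hψ x
    rw [hx0, zero_sub, neg_mem_iff] at h1
    obtain ⟨c, hc⟩ := Ideal.mem_span_singleton'.mp h1
    rw [← hc, map_mul]
    exact Ideal.mul_mem_left _ _ (Ideal.mem_span_singleton_self _)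

theorem ker_charAug_sup_eq (ψA ψB : G →* 𝒪ˣ) (ϖ : 𝒪)
    (hψ : ∀ g, (ψA g : 𝒪) - (ψB g : 𝒪) ∈ Ideal.span {ϖ}) :
    RingHom.ker (charAug ψA : MonoidAlgebra 𝒪 G →+* 𝒪) ⊔
        Ideal.span {algebraMap 𝒪 (MonoidAlgebra 𝒪 G) ϖ} =
      RingHom.ker (charAug ψB : MonoidAlgebra 𝒪 G →+* 𝒪) ⊔
        Ideal.span {algebraMap 𝒪 (MonoidAlgebra 𝒪 G) ϖ} := by
  refine le_antisymm (ker_charAug_sup_le ψA ψB ϖ hψ) (ker_charAug_sup_le ψB ψA ϖ fun g => ?_)
  have := hψ g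
  rw [← neg_mem_iff, neg_sub] at this
  exact this

end Aug

section Local

variable {𝒪 : Type*} [CommRing 𝒪] [IsLocalRing 𝒪] {G : Type*} [CommGroup G] [Finite G]

/-- The kernel of `Λ → 𝒪 → k`. -/
noncomputable def augResidue : MonoidAlgebra 𝒪 G →+* ResidueField 𝒪 :=
  (residue 𝒪).comp (charAug (1 : G →* 𝒪ˣ) : MonoidAlgebra 𝒪 G →+* 𝒪)

theorem augResidue_surjective : Function.Surjective (augResidue (𝒪 := 𝒪) (G := G)) :=
  (residue_surjective).comp (charAug_surjective 1)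

theorem isMaximal_ker_augResidue :
    (RingHom.ker (augResidue (𝒪 := 𝒪) (G := G))).IsMaximal :=
  RingHom.ker_isMaximal_of_surjective _ augResidue_surjective

/-- Every maximal ideal of `𝒪[G]` is the kernel of `Λ → k`. -/
theorem eq_ker_augResidue_of_isMaximal (p : ℕ) [hp : Fact p.Prime]
    (hp𝒪 : (p : 𝒪) ∈ maximalIdeal 𝒪) (hG : IsPGroup p G)
    (𝔫 : Ideal (MonoidAlgebra 𝒪 G)) (h𝔫 : 𝔫.IsMaximal) :
    𝔫 = RingHom.ker (augResidue (𝒪 := 𝒪) (G := G)) := by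
  haveI := h𝔫
  -- `𝔫` lies over the maximal ideal of `𝒪`
  have hcomap : 𝔫.comap (algebraMap 𝒪 (MonoidAlgebra 𝒪 G)) = maximalIdeal 𝒪 :=
    eq_maximalIdeal (Ideal.isMaximal_comap_of_isIntegral_of_isMaximal 𝔫)
  have hm : ∀ a ∈ maximalIdeal 𝒪, algebraMap 𝒪 (MonoidAlgebra 𝒪 G) a ∈ 𝔫 := by
    intro a ha
    rw [← hcomap] at ha
    exact ha
  -- the residue field of `𝔫` has characteristic `p`
  letI : Field (MonoidAlgebra 𝒪 G ⧸ 𝔫) := Ideal.Quotient.field 𝔫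
  have hp0 : ((p : ℕ) : MonoidAlgebra 𝒪 G ⧸ 𝔫) = 0 := by
    have h1 : ((p : ℕ) : MonoidAlgebra 𝒪 G) ∈ 𝔫 := by
      have := hm _ hp𝒪
      rwa [map_natCast] at this
    rw [← map_natCast (Ideal.Quotient.mk 𝔫)]
    exact Ideal.Quotient.eq_zero_iff_mem.mpr h1
  haveI : CharP (MonoidAlgebra 𝒪 G ⧸ 𝔫) p := (CharP.charP_iff_prime_eq_zero hp.out).mpr hp0
  -- `g − 1 ∈ 𝔫`
  have hg : ∀ g : G, MonoidAlgebra.of 𝒪 G g -
      algebraMap 𝒪 (MonoidAlgebra 𝒪 G) (((1 : G →* 𝒪ˣ) g : 𝒪ˣ) : 𝒪) ∈ 𝔫 := by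
    intro g
    obtain ⟨k, hk⟩ := (IsPGroup.iff_orderOf.mp hG) g
    have h1 : g ^ p ^ k = 1 := by rw [← hk]; exact pow_orderOf_eq_one g
    have h2 : (Ideal.Quotient.mk 𝔫 (MonoidAlgebra.of 𝒪 G g)) ^ p ^ k = 1 := by
      rw [← map_pow, ← map_pow, h1, map_one, map_one]
    have h3 : (Ideal.Quotient.mk 𝔫 (MonoidAlgebra.of 𝒪 G g) - 1) ^ p ^ k = 0 := by
      rw [sub_pow_char_pow, h2, one_pow, sub_self]
    have h4 := pow_eq_zero_iff (pow_ne_zero k hp.out.ne_zero) |>.mp h3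
    rw [MonoidHom.one_apply, Units.val_one, map_one]
    rw [← map_one (Ideal.Quotient.mk 𝔫), ← map_sub, Ideal.Quotient.eq_zero_iff_mem] at h4
    exact h4
  -- conclusion
  refine (isMaximal_ker_augResidue.eq_of_le h𝔫.ne_top ?_).symm
  intro x hx
  have hx' : charAug (1 : G →* 𝒪ˣ) x ∈ maximalIdeal 𝒪 := by
    rw [← residue_eq_zero_iff]
    exact hx
  have h1 := sub_algebraMap_charAug_mem (1 : G →* 𝒪ˣ) 𝔫 hg x
  have h2 := hm _ hx'
  have := Ideal.add_mem _ h1 h2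
  rwa [sub_add_cancel] at this

/-- **`𝒪[G]` is local** for a finite commutative `p`-group `G` and `𝒪` local of residue
characteristic `p`. -/
theorem isLocalRing_monoidAlgebra (p : ℕ) [Fact p.Prime] (hp𝒪 : (p : 𝒪) ∈ maximalIdeal 𝒪)
    (hG : IsPGroup p G) : IsLocalRing (MonoidAlgebra 𝒪 G) :=
  IsLocalRing.of_unique_max_ideal ⟨_, isMaximal_ker_augResidue, fun 𝔫 h𝔫 =>
    eq_ker_augResidue_of_isMaximal p hp𝒪 hG 𝔫 h𝔫⟩

end Local

section Complete

variable {𝒪 : Type*} [CommRing 𝒪] [IsLocalRing 𝒪] {G : Type*} [CommGroup G] [Finite G]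

instance isLocalHom_algebraMap_monoidAlgebra :
    IsLocalHom (algebraMap 𝒪 (MonoidAlgebra 𝒪 G)) := by
  refine ⟨fun a ha => ?_⟩
  have := ha.map (charAug (1 : G →* 𝒪ˣ))
  rwa [AlgHom.commutes] at this

theorem isNoetherianRing_monoidAlgebra [IsNoetherianRing 𝒪] :
    IsNoetherianRing (MonoidAlgebra 𝒪 G) :=
  IsNoetherianRing.of_finite 𝒪 _

variable [IsLocalRing (MonoidAlgebra 𝒪 G)]

theorem maximalIdeal_monoidAlgebra :
    maximalIdeal (MonoidAlgebra 𝒪 G) = RingHom.ker (augResidue (𝒪 := 𝒪) (G := G)) :=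
  (eq_maximalIdeal isMaximal_ker_augResidue).symm

theorem of_sub_one_mem_maximalIdeal (g : G) :
    MonoidAlgebra.of 𝒪 G g - 1 ∈ maximalIdeal (MonoidAlgebra 𝒪 G) := by
  rw [maximalIdeal_monoidAlgebra]
  show augResidue _ = 0
  rw [augResidue, RingHom.comp_apply]
  show residue 𝒪 (charAug 1 (MonoidAlgebra.of 𝒪 G g - 1)) = 0
  rw [map_sub, charAug_of, map_one, MonoidHom.one_apply, Units.val_one, sub_self, map_zero]

theorem residue_algebraMap_surjective_monoidAlgebra :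
    Function.Surjective
      (residue (MonoidAlgebra 𝒪 G) ∘ algebraMap 𝒪 (MonoidAlgebra 𝒪 G)) := by
  intro y
  obtain ⟨x, rfl⟩ := residue_surjective y
  refine ⟨charAug (1 : G →* 𝒪ˣ) x, ?_⟩
  rw [Function.comp_apply, eq_comm, ← sub_eq_zero, ← map_sub, residue_eq_zero_iff,
    maximalIdeal_monoidAlgebra]
  show augResidue _ = 0
  rw [augResidue, RingHom.comp_apply, map_sub]
  show residue 𝒪 (charAug 1 x - charAug 1 (algebraMap 𝒪 _ (charAug 1 x))) = 0
  rw [AlgHom.commutes]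
  show residue 𝒪 (charAug 1 x - charAug 1 x) = 0
  rw [sub_self, map_zero]

theorem finite_residueField_monoidAlgebra [Finite (ResidueField 𝒪)] :
    Finite (ResidueField (MonoidAlgebra 𝒪 G)) := by
  have h := residue_algebraMap_surjective_monoidAlgebra (𝒪 := 𝒪) (G := G)
  have h2 : Function.Surjective
      (IsLocalRing.ResidueField.map (algebraMap 𝒪 (MonoidAlgebra 𝒪 G))) := by
    intro y
    obtain ⟨a, rfl⟩ := h y
    exact ⟨residue 𝒪 a, by simp [IsLocalRing.ResidueField.map_residue]⟩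
  exact Finite.of_surjective _ h2

theorem isAdicComplete_monoidAlgebra [IsNoetherianRing 𝒪]
    [IsAdicComplete (maximalIdeal 𝒪) 𝒪] :
    IsAdicComplete (maximalIdeal (MonoidAlgebra 𝒪 G)) (MonoidAlgebra 𝒪 G) :=
  IsLocalRing.isAdicComplete_of_module_finite (𝒪 := 𝒪) (T := MonoidAlgebra 𝒪 G)

end Complete

section Package

variable {𝒪 : Type*} [CommRing 𝒪] [IsLocalRing 𝒪] [IsNoetherianRing 𝒪]
  [IsAdicComplete (maximalIdeal 𝒪) 𝒪] [Finite (ResidueField 𝒪)] {G : Type*} [CommGroup G]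
  [Finite G]

/-- All the instances on `Λ = 𝒪[G]` required by the patching interface, in one statement. -/
theorem monoidAlgebra_package (p : ℕ) [Fact p.Prime] (hp𝒪 : (p : 𝒪) ∈ maximalIdeal 𝒪)
    (hG : IsPGroup p G) :
    ∃ _ : IsLocalRing (MonoidAlgebra 𝒪 G), IsNoetherianRing (MonoidAlgebra 𝒪 G) ∧
      IsAdicComplete (maximalIdeal (MonoidAlgebra 𝒪 G)) (MonoidAlgebra 𝒪 G) ∧
      Finite (ResidueField (MonoidAlgebra 𝒪 G)) ∧
      IsLocalHom (algebraMap 𝒪 (MonoidAlgebra 𝒪 G)) := by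
  haveI := isLocalRing_monoidAlgebra (𝒪 := 𝒪) (G := G) p hp𝒪 hG
  exact ⟨inferInstance, isNoetherianRing_monoidAlgebra, isAdicComplete_monoidAlgebra,
    finite_residueField_monoidAlgebra, inferInstance⟩

end Package

end Fermat.Agent.S43lib.Loc
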