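/-
S43lib / Loc / GroupRingDelta (helper1).

The diamond group `Δ = ∏_{i < m} ℤ/p^{a_i}` (written multiplicatively) and its group ring
`RΔ = Λ[Δ]` over an arbitrary commutative ring `Λ`, in the shape of the `ModLevel` fields of
`PatchIfaceMod.lean`:

* `deltaUnit p a Λ i : RΔˣ` (the image of the standard generator of the `i`-th factor),
* `deltaUnit_pow`   : `δ_i ^ p ^ a_i = 1`,
* `adjoin_deltaUnit`: the `δ_i` generate `RΔ` as a `Λ`-algebra,
* `exists_lift_deltaUnit` : the universal property,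
* `isPGroup_deltaGrp`, and (for `Λ` complete Noetherian local with finite residue field,
  `p ∈ 𝔪_Λ`) `deltaRing_package`: `RΔ` is local, Noetherian, complete, with finite residue field, and
  `Λ → RΔ` is local.
-/
import Mathlib
import Fermat.Agent.S43lib.Loc.GroupRing

set_option autoImplicit false
set_option linter.style.haveILetI false
set_option linter.unusedSectionVars false

namespace Fermat.Agent.S43lib.Loc

open IsLocalRing

section Group

variable (p : ℕ) [hp : Fact p.Prime] {m : ℕ} (a : Fin m → ℕ)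

/-- The diamond group `Δ = ∏ ℤ/p^{a_i}`, multiplicatively. -/
abbrev DeltaGrp : Type := ∀ i : Fin m, Multiplicative (ZMod (p ^ a i))

/-- The standard generator of the `i`-th factor. -/
def deltaGen (i : Fin m) : DeltaGrp p a := Pi.mulSingle i (Multiplicative.ofAdd 1)

theorem deltaGen_pow (i : Fin m) : deltaGen p a i ^ p ^ a i = 1 := by
  rw [deltaGen, ← Pi.mulSingle_pow, ← ofAdd_nsmul, nsmul_one, ZMod.natCast_self, ofAdd_zero,
    Pi.mulSingle_one]

theorem isPGroup_deltaGrp : IsPGroup p (DeltaGrp p a) := by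
  refine IsPGroup.of_card (n := ∑ i, a i) ?_
  rw [Nat.card_pi, ← Finset.prod_pow_eq_pow_sum]
  refine Finset.prod_congr rfl fun i _ => ?_
  rw [Nat.card_congr (Multiplicative.toAdd (α := ZMod (p ^ a i))), Nat.card_zmod]

/-- Every element of `Δ` is a product of powers of the generators. -/
theorem eq_prod_deltaGen_pow (g : DeltaGrp p a) :
    g = ∏ i, deltaGen p a i ^ (Multiplicative.toAdd (g i)).val := by
  conv_lhs => rw [← Finset.univ_prod_mulSingle g]
  refine Finset.prod_congr rfl fun i _ => ?_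
  rw [deltaGen, ← Pi.mulSingle_pow, ← ofAdd_nsmul, nsmul_one, ZMod.natCast_zmod_val, ofAdd_toAdd]

end Group

section Ring

variable (p : ℕ) [hp : Fact p.Prime] {m : ℕ} (a : Fin m → ℕ) (Λ : Type*) [CommRing Λ]

/-- The unit `δ_i` of `Λ[Δ]`. -/
noncomputable def deltaUnit (i : Fin m) : (MonoidAlgebra Λ (DeltaGrp p a))ˣ :=
  Units.map (MonoidAlgebra.of Λ (DeltaGrp p a)) (toUnits (deltaGen p a i))

theorem coe_deltaUnit (i : Fin m) :
    ((deltaUnit p a Λ i : (MonoidAlgebra Λ (DeltaGrp p a))ˣ) : MonoidAlgebra Λ (DeltaGrp p a)) =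
      MonoidAlgebra.of Λ (DeltaGrp p a) (deltaGen p a i) := rfl

theorem deltaUnit_pow (i : Fin m) :
    ((deltaUnit p a Λ i : (MonoidAlgebra Λ (DeltaGrp p a))ˣ) : MonoidAlgebra Λ (DeltaGrp p a)) ^
      p ^ a i = 1 := by
  rw [coe_deltaUnit, ← map_pow, deltaGen_pow, map_one]

theorem adjoin_deltaUnit :
    Algebra.adjoin Λ (Set.range fun i =>
      ((deltaUnit p a Λ i : (MonoidAlgebra Λ (DeltaGrp p a))ˣ) :
        MonoidAlgebra Λ (DeltaGrp p a))) = ⊤ := by
  rw [eq_top_iff]
  rintro x -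
  induction x using MonoidAlgebra.induction_on with
  | of g =>
    rw [eq_prod_deltaGen_pow p a g, map_prod]
    refine Subalgebra.prod_mem _ fun i _ => ?_
    rw [map_pow]
    exact Subalgebra.pow_mem _ (Algebra.subset_adjoin (Set.mem_range_self i)) _
  | add x y hx hy => exact Subalgebra.add_mem _ hx hy
  | smul r x hx => exact Subalgebra.smul_mem _ hx r

/-- The universal property of `Λ[Δ]`. -/
theorem exists_lift_deltaUnit (C : Type*) [CommRing C] [Algebra Λ C] (u : Fin m → C)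
    (hu : ∀ i, u i ^ p ^ a i = 1) :
    ∃ ψ : MonoidAlgebra Λ (DeltaGrp p a) →ₐ[Λ] C, ∀ i,
      ψ ((deltaUnit p a Λ i : (MonoidAlgebra Λ (DeltaGrp p a))ˣ) :
        MonoidAlgebra Λ (DeltaGrp p a)) = u i := by
  classical
  -- the units
  let U : Fin m → Cˣ := fun i =>
    Units.ofPowEqOne (u i) (p ^ a i) (hu i) (pow_ne_zero _ hp.out.ne_zero)
  have hU : ∀ i, ((U i : Cˣ) : C) = u i := fun i => rfl
  have hUpow : ∀ i, U i ^ p ^ a i = 1 := fun i => by
    ext
    rw [Units.val_pow_eq_pow_val, hU, hu, Units.val_one]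
  -- the factor homomorphisms
  let f : ∀ i, ZMod (p ^ a i) →+ Additive Cˣ := fun i =>
    ZMod.lift (p ^ a i) ⟨zmultiplesHom (Additive Cˣ) (Additive.ofMul (U i)), by
      rw [zmultiplesHom_apply, natCast_zsmul, ← ofMul_pow, hUpow, ofMul_one]⟩
  have hf1 : ∀ i, f i 1 = Additive.ofMul (U i) := by
    intro i
    have := ZMod.lift_coe (p ^ a i) ⟨zmultiplesHom (Additive Cˣ) (Additive.ofMul (U i)), by
      rw [zmultiplesHom_apply, natCast_zsmul, ← ofMul_pow, hUpow, ofMul_one]⟩ 1
    rw [Int.cast_one] at this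
    rw [this]
    show zmultiplesHom (Additive Cˣ) (Additive.ofMul (U i)) 1 = _
    rw [zmultiplesHom_apply, one_smul]
  let F : DeltaGrp p a →* Cˣ :=
    ∏ i, (AddMonoidHom.toMultiplicativeLeft (f i)).comp (Pi.evalMonoidHom _ i)
  have hF : ∀ j, F (deltaGen p a j) = U j := by
    intro j
    show (∏ i, (AddMonoidHom.toMultiplicativeLeft (f i)).comp (Pi.evalMonoidHom _ i))
      (deltaGen p a j) = U j
    rw [MonoidHom.finsetProd_apply, Finset.prod_eq_single j]
    · show (f j (Multiplicative.toAdd (deltaGen p a j j))).toMul = U j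
      rw [deltaGen, Pi.mulSingle_eq_same, toAdd_ofAdd, hf1, toMul_ofMul]
    · intro i _ hij
      show (f i (Multiplicative.toAdd (deltaGen p a j i))).toMul = 1
      rw [deltaGen, Pi.mulSingle_eq_of_ne hij, toAdd_one, map_zero, toMul_zero]
    · intro h
      exact absurd (Finset.mem_univ j) h
  refine ⟨MonoidAlgebra.lift Λ C (DeltaGrp p a) ((Units.coeHom C).comp F), fun i => ?_⟩
  rw [coe_deltaUnit, MonoidAlgebra.lift_of, MonoidHom.comp_apply, hF]
  rfl

end Ring

section Package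

variable (p : ℕ) [hp : Fact p.Prime] {m : ℕ} (a : Fin m → ℕ) (Λ : Type*) [CommRing Λ]
  [IsLocalRing Λ] [IsNoetherianRing Λ] [IsAdicComplete (maximalIdeal Λ) Λ]
  [Finite (ResidueField Λ)]

/-- The ring-theoretic properties of `RΔ = Λ[Δ]` required by `ModLevel`. -/
theorem deltaRing_package (hpΛ : (p : Λ) ∈ maximalIdeal Λ) :
    ∃ _ : IsLocalRing (MonoidAlgebra Λ (DeltaGrp p a)),
      IsNoetherianRing (MonoidAlgebra Λ (DeltaGrp p a)) ∧
      IsAdicComplete (maximalIdeal (MonoidAlgebra Λ (DeltaGrp p a)))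
        (MonoidAlgebra Λ (DeltaGrp p a)) ∧
      Finite (ResidueField (MonoidAlgebra Λ (DeltaGrp p a))) ∧
      IsLocalHom (algebraMap Λ (MonoidAlgebra Λ (DeltaGrp p a))) ∧
      ∀ x ∈ maximalIdeal Λ, algebraMap Λ (MonoidAlgebra Λ (DeltaGrp p a)) x ∈
        maximalIdeal (MonoidAlgebra Λ (DeltaGrp p a)) := by
  obtain ⟨h1, h2, h3, h4, h5⟩ := monoidAlgebra_package (𝒪 := Λ) (G := DeltaGrp p a) p hpΛ
    (isPGroup_deltaGrp p a)
  refine ⟨h1, h2, h3, h4, h5, fun x hx => ?_⟩
  rw [mem_maximalIdeal, mem_nonunits_iff] at hx ⊢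
  exact fun hu => hx (h5.map_nonunit x hu)

end Package

end Fermat.Agent.S43lib.Loc
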