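/-
S43lib / Loc / Coeff (helper1).

**The coefficient ring.**  For every odd prime `p` there is a complete discrete valuation ring `𝒪` of
characteristic `0` with finite residue field `k` of characteristic `p` such that `𝒪` contains a
primitive `p`-th root of unity and every element of `𝔽_p` is a square in `k`.

Construction: `𝒪` = the integral closure of `ℤ_p` in `ℚ_p(ξ)`, `ξ` a primitive `p(p² − 1)`-th root of
unity (`S29lib.Dvr.exists_dvr_structure`).  The reduction of `ξ^p` has exact order `p² − 1`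
(geometric-sum argument), which forces `(p² − 1) ∣ |k| − 1` and hence the squares (Euler's criterion).
-/
import Mathlib
import Fermat.Agent.S29lib.Dvr.IntegralClosure

set_option autoImplicit false
set_option linter.style.haveILetI false
set_option linter.unusedSectionVars false

namespace Fermat.Agent.S43lib.Loc

open IsLocalRing

section Squares

variable {𝒪 : Type*} [CommRing 𝒪] [IsDomain 𝒪] [IsLocalRing 𝒪] [Finite (ResidueField 𝒪)]

/-- The reduction of a primitive `N`-th root of unity, `p ∤ N`, has exact order `N`. -/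
theorem orderOf_residue_of_isPrimitiveRoot (p : ℕ) [hp : Fact p.Prime]
    (hp𝒪 : (p : 𝒪) ∈ maximalIdeal 𝒪) {N : ℕ} (hN : 0 < N) (hpN : ¬ p ∣ N) {η : 𝒪}
    (hη : IsPrimitiveRoot η N) : orderOf (residue 𝒪 η) = N := by
  have hp0 : ((p : ℕ) : ResidueField 𝒪) = 0 := by
    rw [← map_natCast (residue 𝒪)]
    exact (residue_eq_zero_iff _).mpr hp𝒪
  haveI : CharP (ResidueField 𝒪) p := (CharP.charP_iff_prime_eq_zero hp.out).mpr hp0
  have h1 : (residue 𝒪 η) ^ N = 1 := by rw [← map_pow, hη.pow_eq_one, map_one]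
  obtain ⟨c, hc⟩ := orderOf_dvd_of_pow_eq_one h1
  set e := orderOf (residue 𝒪 η) with he
  have he0 : 0 < e := Nat.pos_of_ne_zero fun h0 => by rw [h0, zero_mul] at hc; omega
  have hc0 : 0 < c := Nat.pos_of_ne_zero fun h0 => by rw [h0, mul_zero] at hc; omega
  by_contra hne
  -- `ω = η^e ≠ 1`, `ω^c = 1`, `ω ≡ 1`
  have hω1 : η ^ e ≠ 1 := by
    intro h
    have := Nat.le_of_dvd he0 (hη.dvd_of_pow_eq_one e h)
    have : e ≤ N := by rw [hc]; exact Nat.le_mul_of_pos_right e hc0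
    omega
  have hωc : (η ^ e) ^ c = 1 := by rw [← pow_mul, ← hc, hη.pow_eq_one]
  have hsum : ∑ i ∈ Finset.range c, (η ^ e) ^ i = 0 := by
    have := mul_geom_sum (η ^ e) c
    rw [hωc, sub_self] at this
    exact (mul_eq_zero.mp this).resolve_left (sub_ne_zero.mpr hω1)
  have hres : residue 𝒪 (η ^ e) = 1 := by rw [map_pow, he, pow_orderOf_eq_one]
  have := congrArg (residue 𝒪) hsum
  rw [map_sum, map_zero] at this
  simp only [map_pow, hres, one_pow, Finset.sum_const, Finset.card_range, nsmul_eq_mul,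
    mul_one] at this
  have hpc : p ∣ c := (CharP.cast_eq_zero_iff (ResidueField 𝒪) p c).mp this
  exact hpN (hc ▸ Dvd.dvd.mul_left hpc e)

/-- Every integer is a square in the residue field, as soon as `𝒪` contains a primitive
`(p² − 1)`-th root of unity. -/
theorem exists_sq_eq_intCast_residueField (p : ℕ) [hp : Fact p.Prime] (hp2 : p ≠ 2)
    (hp𝒪 : (p : 𝒪) ∈ maximalIdeal 𝒪) {η : 𝒪} (hη : IsPrimitiveRoot η (p ^ 2 - 1)) (a : ℤ) :
    ∃ x : ResidueField 𝒪, x ^ 2 = (a : ResidueField 𝒪) := by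
  classical
  letI : Fintype (ResidueField 𝒪) := Fintype.ofFinite _
  have hp0 : ((p : ℕ) : ResidueField 𝒪) = 0 := by
    rw [← map_natCast (residue 𝒪)]
    exact (residue_eq_zero_iff _).mpr hp𝒪
  haveI : CharP (ResidueField 𝒪) p := (CharP.charP_iff_prime_eq_zero hp.out).mpr hp0
  have hp1 : 1 < p := hp.out.one_lt
  have hN : 0 < p ^ 2 - 1 := by
    have : 1 < p ^ 2 := Nat.one_lt_pow (by norm_num) hp1
    omega
  have hpN : ¬ p ∣ p ^ 2 - 1 := by
    intro h
    have h2 : p ∣ p ^ 2 := dvd_pow_self p (by norm_num)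
    have h3 : p ∣ p ^ 2 - (p ^ 2 - 1) := Nat.dvd_sub h2 h
    have h4 : p ^ 2 - (p ^ 2 - 1) = 1 := by omega
    rw [h4] at h3
    exact hp.out.one_lt.ne' (Nat.dvd_one.mp h3)
  have hord := orderOf_residue_of_isPrimitiveRoot p hp𝒪 hN hpN hη
  -- `(p² − 1) ∣ |k| − 1`
  have hη0 : residue 𝒪 η ≠ 0 := by
    intro h0
    have h1 : (residue 𝒪 η) ^ (p ^ 2 - 1) = 1 := by rw [← map_pow, hη.pow_eq_one, map_one]
    rw [h0, zero_pow hN.ne'] at h1
    exact zero_ne_one h1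
  have hdvd : p ^ 2 - 1 ∣ Fintype.card (ResidueField 𝒪) - 1 := by
    rw [← hord]
    exact orderOf_dvd_of_pow_eq_one (FiniteField.pow_card_sub_one_eq_one _ hη0)
  obtain ⟨c, hc⟩ := hdvd
  have hchar : ringChar (ResidueField 𝒪) ≠ 2 := by rwa [ringChar.eq (ResidueField 𝒪) p]
  have hodd := FiniteField.odd_card_of_char_ne_two hchar
  -- the case `a = 0`
  by_cases ha : (a : ResidueField 𝒪) = 0
  · exact ⟨0, by rw [ha]; ring⟩
  -- Fermat
  have hfer : (a : ResidueField 𝒪) ^ (p - 1) = 1 := by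
    have h1 : (a : ResidueField 𝒪) ^ p = a := by
      rw [← frobenius_def, map_intCast]
    have h2 : (a : ResidueField 𝒪) * (a : ResidueField 𝒪) ^ (p - 1) = (a : ResidueField 𝒪) * 1 := by
      rw [← pow_succ', mul_one, Nat.sub_add_cancel hp.out.one_le, h1]
    exact mul_left_cancel₀ ha h2
  -- `|k| / 2 = (p − 1) · ((p + 1)/2) · c`
  obtain ⟨t, ht⟩ : ∃ t, p + 1 = 2 * t := by
    rcases hp.out.eq_two_or_odd with h | h
    · exact absurd h hp2
    · exact ⟨(p + 1) / 2, by omega⟩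
  have hfac : p ^ 2 - 1 = (p - 1) * (p + 1) := by
    have : p ^ 2 = (p - 1) * (p + 1) + 1 := by
      obtain ⟨k, rfl⟩ : ∃ k, p = k + 1 := ⟨p - 1, by omega⟩
      simp only [Nat.add_sub_cancel]
      ring
    omega
  have hhalf : Fintype.card (ResidueField 𝒪) / 2 = (p - 1) * (t * c) := by
    have h1 : Fintype.card (ResidueField 𝒪) - 1 = 2 * ((p - 1) * (t * c)) := by
      rw [hc, hfac, ht]
      ring
    omega
  have hsq : IsSquare (a : ResidueField 𝒪) := by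
    rw [FiniteField.isSquare_iff hchar ha, hhalf, pow_mul, hfer, one_pow]
  obtain ⟨x, hx⟩ := hsq
  exact ⟨x, by rw [hx, sq]⟩

end Squares

section Construction

open Fermat.Agent.S29lib.Dvr

/-- **The coefficient ring** (square roots stated for integers). -/
theorem exists_coeff_ring (p : ℕ) [hp : Fact p.Prime] (hp2 : p ≠ 2) :
    ∃ (𝒪 : Type) (_ : CommRing 𝒪) (_ : IsDomain 𝒪) (_ : IsDiscreteValuationRing 𝒪)
      (_ : IsAdicComplete (maximalIdeal 𝒪) 𝒪) (_ : Finite (ResidueField 𝒪)) (_ : CharZero 𝒪),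
      (p : 𝒪) ∈ maximalIdeal 𝒪 ∧ (∃ ζ : 𝒪ˣ, ζ ^ p = 1 ∧ ζ ≠ 1) ∧
      ∀ a : ℤ, ∃ x : ResidueField 𝒪, x ^ 2 = (a : ResidueField 𝒪) := by
  classical
  have hp1 : 1 < p := hp.out.one_lt
  have hN : 0 < p ^ 2 - 1 := by
    have : 1 < p ^ 2 := Nat.one_lt_pow (by norm_num) hp1
    omega
  have hn : 0 < (p ^ 2 - 1) * p := Nat.mul_pos hN hp.out.pos
  let Ω := AlgebraicClosure ℚ_[p]
  haveI : NeZero ((((p ^ 2 - 1) * p : ℕ)) : ℚ_[p]) := ⟨by exact_mod_cast hn.ne'⟩
  obtain ⟨ξ, hξ⟩ := HasEnoughRootsOfUnity.exists_primitiveRoot Ω ((p ^ 2 - 1) * p)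
  have hξint : IsIntegral ℚ_[p] ξ := (hξ.isIntegral hn).tower_top
  let K₁ : IntermediateField ℚ_[p] Ω := IntermediateField.adjoin ℚ_[p] {ξ}
  haveI : FiniteDimensional ℚ_[p] K₁ := IntermediateField.adjoin.finiteDimensional hξint
  haveI : Finite (ResidueField ℤ_[p]) :=
    Finite.of_equiv _ (PadicInt.residueField (p := p)).symm.toEquiv
  obtain ⟨hdom, hdvr, hcompl, hfin, hchar, hmf, hloc, hinj⟩ :=
    exists_dvr_structure ℤ_[p] ℚ_[p] K₁
  -- `p` is in the maximal ideal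
  have hpO : (p : OL ℤ_[p] K₁) ∈ maximalIdeal (OL ℤ_[p] K₁) := by
    rw [mem_maximalIdeal, mem_nonunits_iff]
    intro hu
    have h1 : (p : OL ℤ_[p] K₁) = algebraMap ℤ_[p] (OL ℤ_[p] K₁) (p : ℤ_[p]) := by
      rw [map_natCast]
    rw [h1] at hu
    exact PadicInt.p_nonunit (isUnit_of_map_unit _ _ hu)
  -- the root of unity in `O₁`
  let ξ₁ : K₁ := ⟨ξ, IntermediateField.mem_adjoin_simple_self ℚ_[p] ξ⟩
  let j : OL ℤ_[p] K₁ →+* Ω := (K₁.val : K₁ →+* Ω).comp (OL ℤ_[p] K₁).val.toRingHom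
  have hj : Function.Injective j := fun x y h => Subtype.ext (Subtype.ext h)
  have hξ₁pow : ξ₁ ^ ((p ^ 2 - 1) * p) = 1 := by
    apply Subtype.ext
    show ξ ^ ((p ^ 2 - 1) * p) = 1
    exact hξ.pow_eq_one
  have hξ₁int : IsIntegral ℤ_[p] ξ₁ := by
    refine ⟨Polynomial.X ^ ((p ^ 2 - 1) * p) - Polynomial.C 1,
      Polynomial.monic_X_pow_sub_C 1 hn.ne', ?_⟩
    rw [Polynomial.eval₂_sub, Polynomial.eval₂_X_pow, Polynomial.eval₂_C, hξ₁pow, map_one,
      sub_self]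
  let ξ₂ : OL ℤ_[p] K₁ := ⟨ξ₁, hξ₁int⟩
  have hξ₂ : IsPrimitiveRoot ξ₂ ((p ^ 2 - 1) * p) :=
    IsPrimitiveRoot.of_map_of_injective (f := j) hξ hj
  haveI := hdom
  haveI := hdvr
  haveI := hfin
  refine ⟨OL ℤ_[p] K₁, inferInstance, hdom, hdvr, hcompl, hfin, hchar, hpO, ?_, ?_⟩
  · -- the primitive `p`-th root of unity
    have hζ : IsPrimitiveRoot (ξ₂ ^ (p ^ 2 - 1)) p := hξ₂.pow hn rfl
    refine ⟨Units.ofPowEqOne _ p hζ.pow_eq_one hp.out.ne_zero, ?_, ?_⟩
    · apply Units.ext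
      rw [Units.val_pow_eq_pow_val, Units.val_one]
      exact hζ.pow_eq_one
    · intro h1
      have := congrArg Units.val h1
      exact hζ.ne_one hp1 this
  · -- square roots
    have hη : IsPrimitiveRoot (ξ₂ ^ p) (p ^ 2 - 1) := hξ₂.pow hn (mul_comm _ _)
    exact fun a => exists_sq_eq_intCast_residueField p hp2 hpO hη a

/-- **The coefficient ring**, square roots stated through the `ZMod p`-algebra structure of the
residue field. -/
theorem exists_coeff_ring_zmod (p : ℕ) [hp : Fact p.Prime] (hp2 : p ≠ 2) :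
    ∃ (𝒪 : Type) (_ : CommRing 𝒪) (_ : IsDomain 𝒪) (_ : IsDiscreteValuationRing 𝒪)
      (_ : IsAdicComplete (maximalIdeal 𝒪) 𝒪) (_ : Finite (ResidueField 𝒪)) (_ : CharZero 𝒪)
      (_ : CharP (ResidueField 𝒪) p),
      (p : 𝒪) ∈ maximalIdeal 𝒪 ∧ (∃ ζ : 𝒪ˣ, ζ ^ p = 1 ∧ ζ ≠ 1) ∧
      ∀ a : ZMod p, ∃ x : ResidueField 𝒪,
        x ^ 2 = @algebraMap (ZMod p) (ResidueField 𝒪) _ _ (ZMod.algebra _ p) a := by
  obtain ⟨𝒪, i1, i2, i3, i4, i5, i6, hpO, hζ, hsq⟩ := exists_coeff_ring p hp2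
  have hp0 : ((p : ℕ) : ResidueField 𝒪) = 0 := by
    rw [← map_natCast (residue 𝒪)]
    exact (residue_eq_zero_iff _).mpr hpO
  have hchar : CharP (ResidueField 𝒪) p := (CharP.charP_iff_prime_eq_zero hp.out).mpr hp0
  refine ⟨𝒪, i1, i2, i3, i4, i5, i6, hchar, hpO, hζ, fun a => ?_⟩
  obtain ⟨x, hx⟩ := hsq (a.val : ℤ)
  refine ⟨x, ?_⟩
  rw [hx, Int.cast_natCast]
  letI := ZMod.algebra (ResidueField 𝒪) p
  conv_rhs => rw [← ZMod.natCast_zmod_val a]
  rw [map_natCast]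

end Construction

end Fermat.Agent.S43lib.Loc
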