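/-
S43lib / Loc / EvalExt (helper1).

* `algHom_ext_of_isHausdorff`: an algebra map out of a power series ring into a Hausdorff local ring
  sending the variables into the maximal ideal is determined by the images of the variables;
* `injective_lift_of_retract`: the retract criterion for injectivity of `P ⧸ I → W`.
-/
import Mathlib
import Fermat.Agent.TeamA.MvPS
import Fermat.Agent.S56lib.Dict.PowerSeriesSurj

set_option autoImplicit false
set_option linter.style.haveILetI false

namespace Fermat.Agent.S43lib.Loc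

open MvPowerSeries IsLocalRing

section Ext

variable {σ : Type*} [Finite σ] {𝒪 : Type*} [CommRing 𝒪]
variable {R : Type*} [CommRing R] [IsLocalRing R] [Algebra 𝒪 R]
  [IsHausdorff (maximalIdeal R) R]

/-- Uniqueness of evaluation maps into Hausdorff local rings. -/
theorem algHom_ext_of_isHausdorff (f g : MvPowerSeries σ 𝒪 →ₐ[𝒪] R)
    (hf : ∀ s, f (X s) ∈ maximalIdeal R) (h : ∀ s, f (X s) = g (X s)) : f = g := by
  ext p : 1
  rw [← sub_eq_zero]
  apply IsHausdorff.haus (inferInstance : IsHausdorff (maximalIdeal R) R)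
  intro c
  rw [SModEq.zero, smul_eq_mul, Ideal.mul_top, ← Ideal.Quotient.eq_zero_iff_mem, map_sub,
    sub_eq_zero]
  have key : (Ideal.Quotient.mkₐ 𝒪 (maximalIdeal R ^ c)).comp f =
      (Ideal.Quotient.mkₐ 𝒪 (maximalIdeal R ^ c)).comp g := by
    refine Fermat.Agent.TeamA.algHom_ext_of_nilpotent
      ((maximalIdeal R).map (Ideal.Quotient.mk (maximalIdeal R ^ c))) c
      (Fermat.Agent.S56lib.Dict.map_mk_maximalIdeal_pow_eq_bot c) _ _ ?_ ?_
    · intro s
      exact Ideal.mem_map_of_mem _ (hf s)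
    · intro s
      show Ideal.Quotient.mk _ (f (X s)) = Ideal.Quotient.mk _ (g (X s))
      rw [h s]
  exact congrArg (fun φ => φ p) key

end Ext

section Retract

variable {P W : Type*} [CommRing P] [CommRing W]

/-- Retract criterion: if `φ : P → W` kills `I` and `ψ : W → P ⧸ I` satisfies `ψ ∘ φ = mk`, then the
induced map `P ⧸ I → W` is injective. -/
theorem injective_lift_of_retract (I : Ideal P) (φ : P →+* W) (hφ : ∀ a ∈ I, φ a = 0)
    (ψ : W →+* P ⧸ I) (hψ : ∀ p, ψ (φ p) = Ideal.Quotient.mk I p) :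
    Function.Injective (Ideal.Quotient.lift I φ hφ) := by
  intro a b hab
  obtain ⟨a, rfl⟩ := Ideal.Quotient.mk_surjective a
  obtain ⟨b, rfl⟩ := Ideal.Quotient.mk_surjective b
  rw [Ideal.Quotient.lift_mk, Ideal.Quotient.lift_mk] at hab
  rw [← hψ a, ← hψ b, hab]

theorem isDomain_of_retract [IsDomain W] (I : Ideal P) (φ : P →+* W) (hφ : ∀ a ∈ I, φ a = 0)
    (ψ : W →+* P ⧸ I) (hψ : ∀ p, ψ (φ p) = Ideal.Quotient.mk I p) : IsDomain (P ⧸ I) :=
  (injective_lift_of_retract I φ hφ ψ hψ).isDomain _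

end Retract

section RingHomForm

variable {σ : Type*} [Finite σ] {𝒪 : Type*} [CommRing 𝒪]
variable {R : Type*} [CommRing R] [IsLocalRing R]

/-- Evaluation of power series, ring homomorphism form: extend `γ : 𝒪 → R` by `X s ↦ x s`. -/
theorem exists_evalRingHom [IsAdicComplete (maximalIdeal R) R] (γ : 𝒪 →+* R) (x : σ → R)
    (hx : ∀ s, x s ∈ maximalIdeal R) :
    ∃ F : MvPowerSeries σ 𝒪 →+* R, (∀ a, F (C a) = γ a) ∧ ∀ s, F (X s) = x s := by
  letI : Algebra 𝒪 R := γ.toAlgebra
  obtain ⟨F, hF⟩ := Fermat.Agent.S56lib.Dict.exists_eval (𝒪 := 𝒪) x hx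
  refine ⟨F.toRingHom, fun a => ?_, hF⟩
  show F (C a) = γ a
  rw [c_eq_algebraMap, F.commutes]
  rfl

/-- Uniqueness of evaluation, ring homomorphism form. -/
theorem ringHom_ext_of_isHausdorff [IsHausdorff (maximalIdeal R) R]
    (F G : MvPowerSeries σ 𝒪 →+* R) (hC : ∀ a, F (C a) = G (C a))
    (hm : ∀ s, F (X s) ∈ maximalIdeal R) (hX : ∀ s, F (X s) = G (X s)) : F = G := by
  letI : Algebra 𝒪 R := (F.comp C).toAlgebra
  have hF : ∀ a : 𝒪, F (algebraMap 𝒪 (MvPowerSeries σ 𝒪) a) = algebraMap 𝒪 R a := fun a => by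
    rw [← c_eq_algebraMap]
    rfl
  have hG : ∀ a : 𝒪, G (algebraMap 𝒪 (MvPowerSeries σ 𝒪) a) = algebraMap 𝒪 R a := fun a => by
    rw [← c_eq_algebraMap, ← hC]
    rfl
  let F' : MvPowerSeries σ 𝒪 →ₐ[𝒪] R := { F with commutes' := hF }
  let G' : MvPowerSeries σ 𝒪 →ₐ[𝒪] R := { G with commutes' := hG }
  have := algHom_ext_of_isHausdorff F' G' hm hX
  ext p : 1
  exact congrArg (fun φ : MvPowerSeries σ 𝒪 →ₐ[𝒪] R => φ p) this

end RingHomForm

section QuadLift

variable {A K : Type*} [CommRing A] [CommRing K] {a : A}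

/-- Ring homomorphisms out of `A[x]/(x² − a)`. -/
def quadLift (γ : A →+* K) (u : K) (hu : u * u = γ a) : QuadraticAlgebra A a 0 →+* K where
  toFun h := γ h.re + γ h.im * u
  map_one' := by
    show γ (1 : QuadraticAlgebra A a 0).re + γ (1 : QuadraticAlgebra A a 0).im * u = 1
    rw [QuadraticAlgebra.re_one, QuadraticAlgebra.im_one, map_one, map_zero, zero_mul, add_zero]
  map_mul' p q := by
    simp only [QuadraticAlgebra.re_mul, QuadraticAlgebra.im_mul, map_add, map_mul, zero_mul,
      add_zero]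
    linear_combination (γ p.im * γ q.im) * hu.symm
  map_zero' := by
    show γ (0 : QuadraticAlgebra A a 0).re + γ (0 : QuadraticAlgebra A a 0).im * u = 0
    rw [QuadraticAlgebra.re_zero, QuadraticAlgebra.im_zero, map_zero, zero_mul, add_zero]
  map_add' p q := by
    simp only [QuadraticAlgebra.re_add, QuadraticAlgebra.im_add, map_add]
    ring

theorem quadLift_apply (γ : A →+* K) (u : K) (hu : u * u = γ a) (h : QuadraticAlgebra A a 0) :
    quadLift γ u hu h = γ h.re + γ h.im * u := rfl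

theorem quadLift_algebraMap (γ : A →+* K) (u : K) (hu : u * u = γ a) (r : A) :
    quadLift γ u hu (algebraMap A (QuadraticAlgebra A a 0) r) = γ r := by
  rw [quadLift_apply, QuadraticAlgebra.algebraMap_re, QuadraticAlgebra.algebraMap_im, map_zero,
    zero_mul, add_zero]

theorem quadLift_omega (γ : A →+* K) (u : K) (hu : u * u = γ a) :
    quadLift γ u hu (QuadraticAlgebra.omega) = u := by
  rw [quadLift_apply, QuadraticAlgebra.omega_re, QuadraticAlgebra.omega_im, map_zero, map_one,
    one_mul, zero_add]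

end QuadLift

end Fermat.Agent.S43lib.Loc
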