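/-
S43lib / Loc / Good (helper1).

"Good bases": domains `G` with an element `ϖ` generating a prime ideal and `ϖ`-adically separated.
Stability under power series; criteria for quadratic extensions to be domains:

* `QuadraticAlgebra A a 0` is a domain as soon as `A` is a domain and `a` is not a square in
  `Frac A` (`NonSquare a`: `u² = v² a → v = 0`);
* a power series of odd order over a domain is a non-square;
* non-squares lift along `A → Ā` (kernel `(ϖ)`, `A` separated, `Ā` a domain).
-/
import Mathlib

set_option autoImplicit false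

namespace Fermat.Agent.S43lib.Loc

/-- A good base: a domain with an element generating a prime ideal, adically separated. -/
structure GoodBase (G : Type*) [CommRing G] (ϖ : G) : Prop where
  isDomain : IsDomain G
  prime : ∀ a b : G, ϖ ∣ a * b → ϖ ∣ a ∨ ϖ ∣ b
  not_unit : ¬ IsUnit ϖ
  sep : ∀ g : G, (∀ n : ℕ, ϖ ^ n ∣ g) → g = 0

/-- `a` is not a square in the fraction ring. -/
def NonSquare {A : Type*} [CommRing A] (a : A) : Prop :=
  ∀ u v : A, u ^ 2 = v ^ 2 * a → v = 0

section Quadratic

variable {A : Type*} [CommRing A] [IsDomain A] {a : A}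

open nonZeroDivisors in
/-- A quadratic algebra `A[x]/(x² − a)` over a domain is a domain when `a` is a non-square. -/
theorem isDomain_quadraticAlgebra (ha : NonSquare a) : IsDomain (QuadraticAlgebra A a 0) := by
  have : NoZeroDivisors (QuadraticAlgebra A a 0) := by
    refine ⟨fun {z w} hzw => ?_⟩
    by_cases hz : z = 0
    · exact Or.inl hz
    · right
      have hn : QuadraticAlgebra.norm z ≠ 0 := by
        intro h0
        rw [QuadraticAlgebra.norm_def] at h0
        have h1 : z.re ^ 2 = z.im ^ 2 * a := by
          have : z.re * z.re + 0 * z.re * z.im - a * z.im * z.im = 0 := h0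
          linear_combination this
        have him : z.im = 0 := ha _ _ h1
        rw [him] at h1
        have hre : z.re = 0 := by
          have : z.re ^ 2 = 0 := by rw [h1]; ring
          exact pow_eq_zero_iff (two_ne_zero) |>.mp this
        exact hz (QuadraticAlgebra.ext hre him)
      have hmem : z ∈ (QuadraticAlgebra A a 0)⁰ :=
        QuadraticAlgebra.norm_mem_nonZeroDivisors_iff.mp (mem_nonZeroDivisors_of_ne_zero hn)
      exact (mem_nonZeroDivisors_iff_right.mp hmem) w (by rw [mul_comm]; exact hzw)
  exact NoZeroDivisors.to_isDomain _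

end Quadratic

section Parity

variable {B : Type*} [CommRing B] [IsDomain B]

/-- A power series of odd order over a domain is a non-square. -/
theorem nonSquare_of_odd_order {a : PowerSeries B} {k : ℕ} (ha : a.order = (2 * k + 1 : ℕ)) :
    NonSquare a := by
  intro u v h
  by_contra hv
  have ha0 : a ≠ 0 := by
    intro h0
    rw [h0, PowerSeries.order_zero] at ha
    exact absurd ha (ENat.top_ne_natCast _)
  have hu : u ≠ 0 := by
    intro hu0
    rw [hu0] at h
    have : v ^ 2 * a = 0 := by rw [← h]; ring
    rcases mul_eq_zero.mp this with h1 | h1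
    · exact hv (pow_eq_zero_iff two_ne_zero |>.mp h1)
    · exact ha0 h1
  have ho := congrArg PowerSeries.order h
  rw [pow_two, pow_two, PowerSeries.order_mul, PowerSeries.order_mul, PowerSeries.order_mul, ha] at ho
  obtain ⟨m, hm⟩ : ∃ m : ℕ, u.order = m := by
    have := PowerSeries.order_eq_top.not.mpr hu
    exact ⟨u.order.toNat, (ENat.natCast_toNat this).symm⟩
  obtain ⟨l, hl⟩ : ∃ l : ℕ, v.order = l := by
    have := PowerSeries.order_eq_top.not.mpr hv
    exact ⟨v.order.toNat, (ENat.natCast_toNat this).symm⟩
  rw [hm, hl] at ho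
  have : m + m = l + l + (2 * k + 1) := by exact_mod_cast ho
  omega

end Parity

section Lift

variable {A Ā : Type*} [CommRing A] [IsDomain A] [CommRing Ā] [IsDomain Ā]

/-- Non-squares lift along a surjection with principal kernel `(ϖ)` when `A` is `ϖ`-adically
separated. -/
theorem nonSquare_of_map (f : A →+* Ā) (ϖ : A) (hker : ∀ x : A, f x = 0 ↔ ϖ ∣ x)
    (hsep : ∀ g : A, (∀ n : ℕ, ϖ ^ n ∣ g) → g = 0) {w : A} (hw : NonSquare (f w)) :
    NonSquare w := by
  by_cases hϖ : ϖ = 0
  · -- `f` is injective
    intro u v h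
    have h' : f u ^ 2 = f v ^ 2 * f w := by rw [← map_pow, ← map_pow, ← map_mul, h]
    have := hw _ _ h'
    rw [hker, hϖ, zero_dvd_iff] at this
    exact this
  · have key : ∀ n : ℕ, ∀ u v : A, u ^ 2 = v ^ 2 * w → ϖ ^ n ∣ v := by
      intro n
      induction n with
      | zero => intro u v _; simp
      | succ n ih =>
        intro u v h
        have h' : f u ^ 2 = f v ^ 2 * f w := by rw [← map_pow, ← map_pow, ← map_mul, h]
        have hv0 : f v = 0 := hw _ _ h'
        have hu0 : f u = 0 := by
          rw [hv0] at h'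
          have : f u ^ 2 = 0 := by rw [h']; ring
          exact pow_eq_zero_iff two_ne_zero |>.mp this
        obtain ⟨v₁, rfl⟩ := (hker v).mp hv0
        obtain ⟨u₁, rfl⟩ := (hker u).mp hu0
        have h1 : u₁ ^ 2 = v₁ ^ 2 * w := by
          have : ϖ ^ 2 * u₁ ^ 2 = ϖ ^ 2 * (v₁ ^ 2 * w) := by linear_combination h
          exact mul_left_cancel₀ (pow_ne_zero 2 hϖ) this
        obtain ⟨c, hc⟩ := ih u₁ v₁ h1
        exact ⟨c, by rw [hc]; ring⟩
    intro u v h
    exact hsep v fun n => key n u v h

end Lift

section PowerSeries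

variable {G : Type*} [CommRing G] {ϖ : G}

theorem C_dvd_iff_forall_coeff (f : PowerSeries G) :
    PowerSeries.C ϖ ∣ f ↔ ∀ n, ϖ ∣ PowerSeries.coeff n f := by
  constructor
  · rintro ⟨g, rfl⟩ n
    exact ⟨PowerSeries.coeff n g, by rw [PowerSeries.coeff_C_mul]⟩
  · intro h
    choose c hc using h
    refine ⟨PowerSeries.mk c, ?_⟩
    ext n
    rw [PowerSeries.coeff_C_mul, PowerSeries.coeff_mk, hc n]

theorem C_dvd_iff_map_eq_zero (f : PowerSeries G) :
    PowerSeries.C ϖ ∣ f ↔ PowerSeries.map (Ideal.Quotient.mk (Ideal.span {ϖ})) f = 0 := by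
  rw [C_dvd_iff_forall_coeff]
  constructor
  · intro h
    ext n
    rw [PowerSeries.coeff_map, map_zero, Ideal.Quotient.eq_zero_iff_mem,
      Ideal.mem_span_singleton]
    exact h n
  · intro h n
    have := congrArg (PowerSeries.coeff n) h
    rw [PowerSeries.coeff_map, map_zero, Ideal.Quotient.eq_zero_iff_mem,
      Ideal.mem_span_singleton] at this
    exact this

theorem GoodBase.isPrime_span (hG : GoodBase G ϖ) : (Ideal.span {ϖ}).IsPrime := by
  rw [Ideal.isPrime_iff]
  refine ⟨?_, fun {x y} hxy => ?_⟩
  · rw [ne_eq, Ideal.span_singleton_eq_top]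
    exact hG.not_unit
  · rw [Ideal.mem_span_singleton] at hxy ⊢
    rw [Ideal.mem_span_singleton]
    exact hG.prime x y hxy

/-- Power series over a good base form a good base. -/
theorem GoodBase.powerSeries (hG : GoodBase G ϖ) : GoodBase (PowerSeries G) (PowerSeries.C ϖ) := by
  have := hG.isDomain
  have hprime : (Ideal.span {ϖ}).IsPrime := hG.isPrime_span
  refine ⟨inferInstance, ?_, ?_, ?_⟩
  · intro f g hfg
    rw [C_dvd_iff_map_eq_zero] at hfg ⊢
    rw [C_dvd_iff_map_eq_zero]
    rw [map_mul] at hfg
    exact mul_eq_zero.mp hfg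
  · intro hu
    apply hG.not_unit
    have := hu.map (PowerSeries.constantCoeff (R := G))
    rwa [PowerSeries.constantCoeff_C] at this
  · intro f hf
    ext k
    rw [map_zero]
    apply hG.sep
    intro n
    have := hf n
    rw [← map_pow, C_dvd_iff_forall_coeff] at this
    exact this k

end PowerSeries

end Fermat.Agent.S43lib.Loc
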