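/-
S43lib / Loc / GroupRingProd (helper1).

The group ring of a product: `𝒪[G × Δ] ≃ₐ[𝒪] (𝒪[G])[Δ]`, with `of (g, δ) ↦ of δ * algebraMap (of g)`.
(For `Λ = 𝒪[G_T]`, `RΔ = Λ[Δ_Q]` and helper3's coefficient ring `𝒪[G_T × Δ_Q]`.)
-/
import Mathlib

set_option autoImplicit false
set_option linter.unusedSectionVars false

namespace Fermat.Agent.S43lib.Loc

open MonoidAlgebra

variable (𝒪 : Type*) [CommRing 𝒪] (G Δ : Type*) [CommMonoid G] [CommMonoid Δ]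

/-- `𝒪[G × Δ] ≃ (𝒪[G])[Δ]`. -/
noncomputable def prodAlgEquiv :
    MonoidAlgebra 𝒪 (G × Δ) ≃ₐ[𝒪] MonoidAlgebra (MonoidAlgebra 𝒪 G) Δ :=
  (MonoidAlgebra.domCongr 𝒪 𝒪 (MulEquiv.prodComm : G × Δ ≃* Δ × G)).trans
    (MonoidAlgebra.curryAlgEquiv 𝒪)

theorem prodAlgEquiv_single (g : G) (δ : Δ) (a : 𝒪) :
    prodAlgEquiv 𝒪 G Δ (single (g, δ) a) = single δ (single g a) := by
  unfold prodAlgEquiv
  rw [AlgEquiv.trans_apply, MonoidAlgebra.domCongr_single]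
  exact MonoidAlgebra.curryAlgEquiv_single (R := 𝒪) δ g a

theorem prodAlgEquiv_symm_single (g : G) (δ : Δ) (a : 𝒪) :
    (prodAlgEquiv 𝒪 G Δ).symm (single δ (single g a)) = single (g, δ) a := by
  rw [AlgEquiv.symm_apply_eq, prodAlgEquiv_single]

theorem prodAlgEquiv_of (g : G) (δ : Δ) :
    prodAlgEquiv 𝒪 G Δ (MonoidAlgebra.of 𝒪 (G × Δ) (g, δ)) =
      MonoidAlgebra.of (MonoidAlgebra 𝒪 G) Δ δ *
        algebraMap (MonoidAlgebra 𝒪 G) (MonoidAlgebra (MonoidAlgebra 𝒪 G) Δ)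
          (MonoidAlgebra.of 𝒪 G g) := by
  rw [MonoidAlgebra.of_apply, prodAlgEquiv_single, MonoidAlgebra.of_apply,
    MonoidAlgebra.of_apply, MonoidAlgebra.coe_algebraMap, Function.comp_apply,
    Algebra.algebraMap_self, RingHom.id_apply, MonoidAlgebra.single_mul_single, mul_one, one_mul]

theorem prodAlgEquiv_of_fst (g : G) :
    prodAlgEquiv 𝒪 G Δ (MonoidAlgebra.of 𝒪 (G × Δ) (g, 1)) =
      algebraMap (MonoidAlgebra 𝒪 G) (MonoidAlgebra (MonoidAlgebra 𝒪 G) Δ)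
        (MonoidAlgebra.of 𝒪 G g) := by
  rw [prodAlgEquiv_of, map_one, one_mul]

theorem prodAlgEquiv_of_snd (δ : Δ) :
    prodAlgEquiv 𝒪 G Δ (MonoidAlgebra.of 𝒪 (G × Δ) (1, δ)) =
      MonoidAlgebra.of (MonoidAlgebra 𝒪 G) Δ δ := by
  rw [prodAlgEquiv_of, map_one, map_one, mul_one]

theorem prodAlgEquiv_symm_of (δ : Δ) :
    (prodAlgEquiv 𝒪 G Δ).symm (MonoidAlgebra.of (MonoidAlgebra 𝒪 G) Δ δ) =
      MonoidAlgebra.of 𝒪 (G × Δ) (1, δ) := by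
  rw [AlgEquiv.symm_apply_eq, prodAlgEquiv_of_snd]

theorem prodAlgEquiv_symm_algebraMap_of (g : G) :
    (prodAlgEquiv 𝒪 G Δ).symm
      (algebraMap (MonoidAlgebra 𝒪 G) (MonoidAlgebra (MonoidAlgebra 𝒪 G) Δ)
        (MonoidAlgebra.of 𝒪 G g)) = MonoidAlgebra.of 𝒪 (G × Δ) (g, 1) := by
  rw [AlgEquiv.symm_apply_eq, prodAlgEquiv_of_fst]

/-- The composite `𝒪[G] → 𝒪[G × Δ] ≃ (𝒪[G])[Δ]` is the structure map. -/
theorem prodAlgEquiv_mapDomain_inl (x : MonoidAlgebra 𝒪 G) :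
    prodAlgEquiv 𝒪 G Δ
        (MonoidAlgebra.mapDomainAlgHom 𝒪 𝒪 (MonoidHom.inl G Δ) x) =
      algebraMap (MonoidAlgebra 𝒪 G) (MonoidAlgebra (MonoidAlgebra 𝒪 G) Δ) x := by
  induction x using MonoidAlgebra.induction_on with
  | of g =>
    rw [MonoidAlgebra.mapDomainAlgHom_apply, MonoidAlgebra.of_apply,
      MonoidAlgebra.mapDomain_single, MonoidHom.inl_apply, ← MonoidAlgebra.of_apply,
      prodAlgEquiv_of_fst, MonoidAlgebra.of_apply]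
  | add x y hx hy => rw [map_add, map_add, map_add, hx, hy]
  | smul a x hx => rw [map_smul, map_smul, hx, Algebra.smul_def, Algebra.smul_def, map_mul,
      ← IsScalarTower.algebraMap_apply]

/-- `prodAlgEquiv` as a `𝒪[G]`-algebra isomorphism, `𝒪[G × Δ]` being a `𝒪[G]`-algebra through
`g ↦ (g, 1)`. -/
theorem prodAlgEquiv_smul (x : MonoidAlgebra 𝒪 G) (y : MonoidAlgebra 𝒪 (G × Δ)) :
    prodAlgEquiv 𝒪 G Δ (MonoidAlgebra.mapDomainAlgHom 𝒪 𝒪 (MonoidHom.inl G Δ) x * y) =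
      x • prodAlgEquiv 𝒪 G Δ y := by
  rw [map_mul, prodAlgEquiv_mapDomain_inl, Algebra.smul_def]

end Fermat.Agent.S43lib.Loc
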