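/-
S43lib / Loc / LinType (helper1).

**Ideals generated by regular sequences are of linear type, power series form.**

Let `H` be a Noetherian ring and `x₀, …, x_{n-1}` a (weakly) regular sequence in `H`.  The kernel of
the `H`-algebra map `H⟦X₀,…,X_{n-1}⟧ → H⟦s⟧`, `X_i ↦ x_i s`, is generated by the `2 × 2` minors
`X_i x_k − X_k x_i`.
-/
import Mathlib
import Fermat.Agent.TeamA.MvPS

set_option autoImplicit false

namespace Fermat.Agent.S43lib.Loc

open MvPowerSeries

section Defs

variable {H : Type*} [CommRing H]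

/-- A weakly regular sequence (non-recursive form): `x_i` is a nonzerodivisor modulo
`(x_j : j < i)`. -/
def IsRegSeq {n : ℕ} (x : Fin n → H) : Prop :=
  ∀ i : Fin n, ∀ h : H, x i * h ∈ Ideal.span (x '' {j | j < i}) → h ∈ Ideal.span (x '' {j | j < i})

theorem hasSubst_smul_X {n : ℕ} (x : Fin n → H) :
    HasSubst (fun i : Fin n => (x i • (PowerSeries.X : PowerSeries H) : MvPowerSeries Unit H)) :=
  hasSubst_of_constantCoeff_zero fun i => by
    show PowerSeries.constantCoeff (x i • (PowerSeries.X : PowerSeries H)) = 0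
    simp

/-- The Rees map `X_i ↦ x_i s`. -/
noncomputable def reesHom {n : ℕ} (x : Fin n → H) : MvPowerSeries (Fin n) H →ₐ[H] PowerSeries H :=
  substAlgHom (hasSubst_smul_X x)

/-- The ideal of `2 × 2` minors. -/
noncomputable def minorIdeal {n : ℕ} (x : Fin n → H) : Ideal (MvPowerSeries (Fin n) H) :=
  Ideal.span (Set.range fun p : Fin n × Fin n => X p.1 * C (x p.2) - X p.2 * C (x p.1))

theorem reesHom_X {n : ℕ} (x : Fin n → H) (i : Fin n) :
    reesHom x (X i) = x i • (PowerSeries.X : PowerSeries H) :=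
  substAlgHom_X _ i

theorem reesHom_C {n : ℕ} (x : Fin n → H) (h : H) :
    reesHom x (C h) = PowerSeries.C h := by
  rw [c_eq_algebraMap, AlgHom.commutes]
  rfl

theorem minorIdeal_le_ker {n : ℕ} (x : Fin n → H) :
    minorIdeal x ≤ RingHom.ker (reesHom x) := by
  rw [minorIdeal, Ideal.span_le]
  rintro _ ⟨p, rfl⟩
  rw [SetLike.mem_coe, RingHom.mem_ker, map_sub, map_mul, map_mul, reesHom_X, reesHom_X,
    reesHom_C, reesHom_C]
  ext k
  simp only [map_sub, PowerSeries.coeff_mul_C, PowerSeries.coeff_smul, smul_eq_mul, map_zero]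
  ring

end Defs

section Lemmas

variable {H : Type*} [CommRing H]

theorem reesHom_apply {n : ℕ} (x : Fin n → H) (F : MvPowerSeries (Fin n) H) :
    reesHom x F = subst (fun i : Fin n => (x i • (PowerSeries.X : PowerSeries H) :
      MvPowerSeries Unit H)) F :=
  substAlgHom_apply _ F

/-- The constant coefficient of `reesHom x F` is that of `F`. -/
theorem constantCoeff_reesHom {n : ℕ} (x : Fin n → H) (F : MvPowerSeries (Fin n) H) :
    PowerSeries.constantCoeff (reesHom x F) = constantCoeff F := by
  have e : F = (F - C (constantCoeff F)) + C (constantCoeff F) := by ring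
  have h0 : constantCoeff (F - C (constantCoeff F)) = 0 := by simp
  have h1 : PowerSeries.constantCoeff (reesHom x (F - C (constantCoeff F))) = 0 := by
    rw [reesHom_apply]
    exact constantCoeff_subst_eq_zero (hasSubst_smul_X x) (fun i => by
      show PowerSeries.constantCoeff (x i • (PowerSeries.X : PowerSeries H)) = 0
      simp) h0
  conv_lhs => rw [e, map_add, map_add, h1, reesHom_C]
  simp

/-- Compatibility of the Rees map with change of coefficients. -/
theorem map_reesHom {H' : Type*} [CommRing H'] (π : H →+* H') {n : ℕ} (x : Fin n → H)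
    (F : MvPowerSeries (Fin n) H) :
    PowerSeries.map π (reesHom x F) = reesHom (fun i => π (x i)) (MvPowerSeries.map π F) := by
  rw [reesHom_apply, reesHom_apply]
  have := map_subst (hasSubst_smul_X x) (h := π) F
  rw [show PowerSeries.map π = MvPowerSeries.map (σ := Unit) π from rfl, this]
  congr 1
  funext i
  ext k
  rw [show MvPowerSeries.map (σ := Unit) π = PowerSeries.map π from rfl, PowerSeries.coeff_map,
    PowerSeries.coeff_smul, PowerSeries.coeff_smul, PowerSeries.coeff_X, PowerSeries.coeff_X]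
  split_ifs <;> simp

/-- The Rees map on series not involving `X₀`. -/
theorem reesHom_rename_succ {n : ℕ} (x : Fin (n + 1) → H) (F : MvPowerSeries (Fin n) H) :
    reesHom x (rename Fin.succ F) = reesHom (fun i => x i.succ) F := by
  rw [reesHom_apply, reesHom_apply, rename_eq_subst,
    subst_comp_subst_apply (HasSubst.X_comp _) (hasSubst_smul_X x)]
  congr 1
  funext i
  rw [Function.comp_apply, subst_X (hasSubst_smul_X x)]

/-- Splitting off the terms divisible by `X₀`. -/
theorem exists_eq_X_zero_mul_add_rename {n : ℕ} (F : MvPowerSeries (Fin (n + 1)) H) :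
    ∃ F' : MvPowerSeries (Fin (n + 1)) H,
      F = X 0 * F' + rename Fin.succ (killCompl (Fin.succEmb n) F) := by
  classical
  have hdvd : (X 0 : MvPowerSeries (Fin (n + 1)) H) ∣
      F - rename Fin.succ (killCompl (Fin.succEmb n) F) := by
    rw [X_dvd_iff]
    intro m hm
    -- `m = embDomain succ m'`
    have hm' : m = Finsupp.embDomain (Fin.succEmb n) (m.comapDomain Fin.succ
        (Fin.succ_injective n).injOn) := by
      ext i
      refine Fin.cases ?_ (fun j => ?_) i
      · rw [hm]
        symm
        apply Finsupp.embDomain_of_notMem_range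
        rintro ⟨j, hj⟩
        exact Fin.succ_ne_zero j hj
      · have : (Fin.succEmb n) j = j.succ := rfl
        rw [← this, Finsupp.embDomain_apply_self, Finsupp.comapDomain_apply]
        rfl
    rw [map_sub, sub_eq_zero]
    conv_rhs => rw [hm']
    have hre : rename Fin.succ (killCompl (Fin.succEmb n) F) =
        rename (Fin.succEmb n) (killCompl (Fin.succEmb n) F) := rfl
    rw [hre, coeff_embDomain_rename, coeff_killCompl, ← hm']
  obtain ⟨F', hF'⟩ := hdvd
  exact ⟨F', by rw [← hF']; ring⟩

/-- `x s` is a nonzerodivisor of `H⟦s⟧` if `x` is a nonzerodivisor of `H`. -/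
theorem smul_X_mul_eq_zero {x : H} (hx : ∀ h : H, x * h = 0 → h = 0) {g : PowerSeries H}
    (hg : (x • (PowerSeries.X : PowerSeries H)) * g = 0) : g = 0 := by
  ext k
  have := congrArg (PowerSeries.coeff (k + 1)) hg
  rw [smul_mul_assoc, PowerSeries.coeff_smul, PowerSeries.coeff_succ_X_mul, map_zero,
    smul_eq_mul] at this
  rw [map_zero]
  exact hx _ this

/-- A series whose coefficients all lie in `(x)` is a multiple of `C x`. -/
theorem exists_eq_C_mul_of_coeff_mem {σ : Type*} {x : H} {G : MvPowerSeries σ H}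
    (hG : ∀ d, coeff d G ∈ Ideal.span {x}) : ∃ R : MvPowerSeries σ H, G = C x * R := by
  choose r hr using fun d => Ideal.mem_span_singleton'.mp (hG d)
  refine ⟨fun d => r d, ?_⟩
  ext d
  rw [coeff_C_mul, ← hr d, mul_comm]
  rfl

/-- A series with zero constant coefficient is a combination of the variables. -/
theorem exists_eq_sum_X_mul {σ : Type*} [Fintype σ] {R : MvPowerSeries σ H}
    (hR : constantCoeff R = 0) : ∃ c : σ → MvPowerSeries σ H, R = ∑ i, X i * c i := by
  have h := Fermat.Agent.TeamA.sub_C_constantCoeff_mem_varIdeal σ H R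
  rw [hR, map_zero, sub_zero, Fermat.Agent.TeamA.varIdeal,
    Ideal.mem_span_range_iff_exists_fun] at h
  obtain ⟨c, hc⟩ := h
  exact ⟨c, by rw [← hc]; exact Finset.sum_congr rfl fun i _ => mul_comm _ _⟩

end Lemmas

section Main

universe u

theorem minorIdeal_le_ker_constantCoeff {H : Type*} [CommRing H] {n : ℕ} (x : Fin n → H) :
    minorIdeal x ≤ RingHom.ker (constantCoeff (σ := Fin n) (R := H)) := by
  rw [minorIdeal, Ideal.span_le]
  rintro _ ⟨p, rfl⟩
  rw [SetLike.mem_coe, RingHom.mem_ker]
  simp

theorem rename_succ_mem_minorIdeal {H : Type*} [CommRing H] {n : ℕ} (x : Fin (n + 1) → H)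
    {Q : MvPowerSeries (Fin n) H} (hQ : Q ∈ minorIdeal (fun i => x i.succ)) :
    rename Fin.succ Q ∈ minorIdeal x := by
  have hle : Ideal.map (rename (R := H) Fin.succ) (minorIdeal (fun i => x i.succ)) ≤
      minorIdeal x := by
    rw [minorIdeal, Ideal.map_span, Ideal.span_le]
    rintro _ ⟨_, ⟨p, rfl⟩, rfl⟩
    rw [map_sub, map_mul, map_mul, rename_X, rename_X, rename_C, rename_C]
    exact Ideal.subset_span ⟨(p.1.succ, p.2.succ), rfl⟩
  exact hle (Ideal.mem_map_of_mem _ hQ)

theorem map_surjective_of_surjective {H H' : Type*} [CommRing H] [CommRing H'] (π : H →+* H')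
    (hπ : Function.Surjective π) (σ : Type*) :
    Function.Surjective (MvPowerSeries.map (σ := σ) π) := by
  intro G
  choose g hg using fun d => hπ (coeff d G)
  refine ⟨fun d => g d, ?_⟩
  ext d
  rw [coeff_map]
  exact hg d

theorem minorIdeal_map {H H' : Type*} [CommRing H] [CommRing H'] (π : H →+* H') {n : ℕ}
    (x : Fin n → H) :
    Ideal.map (MvPowerSeries.map (σ := Fin n) π) (minorIdeal x) = minorIdeal (fun i => π (x i)) := by
  rw [minorIdeal, Ideal.map_span, minorIdeal]
  congr 1
  ext G
  constructor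
  · rintro ⟨_, ⟨p, rfl⟩, rfl⟩
    exact ⟨p, by simp⟩
  · rintro ⟨p, rfl⟩
    exact ⟨_, ⟨p, rfl⟩, by simp⟩

theorem X_zero_mem_jacobson {H : Type*} [CommRing H] {n : ℕ} :
    Ideal.span {(X 0 : MvPowerSeries (Fin (n + 1)) H)} ≤ Ideal.jacobson ⊥ := by
  rw [Ideal.span_le, Set.singleton_subset_iff, SetLike.mem_coe, Ideal.mem_jacobson_bot]
  intro y
  rw [MvPowerSeries.isUnit_iff_constantCoeff]
  simp

/-- The regular sequence `x₁, …` modulo `x₀`. -/
theorem isRegSeq_quotient {H : Type*} [CommRing H] {n : ℕ} (x : Fin (n + 1) → H) (hx : IsRegSeq x) :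
    IsRegSeq (fun i : Fin n => Ideal.Quotient.mk (Ideal.span {x 0}) (x i.succ)) := by
  intro i hbar hmem
  obtain ⟨h, rfl⟩ := Ideal.Quotient.mk_surjective hbar
  set π := Ideal.Quotient.mk (Ideal.span {x 0}) with hπ
  -- the ideal downstairs is the image of the ideal upstairs
  have hset : (x '' {j : Fin (n + 1) | j < i.succ}) =
      insert (x 0) ((fun k : Fin n => x k.succ) '' {j : Fin n | j < i}) := by
    ext t
    constructor
    · rintro ⟨j, hj, rfl⟩
      refine Fin.cases ?_ (fun k hk => ?_) j hj
      · intro _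
        exact Set.mem_insert _ _
      · exact Set.mem_insert_of_mem _ ⟨k, Fin.succ_lt_succ_iff.mp hk, rfl⟩
    · rintro (rfl | ⟨k, hk, rfl⟩)
      · exact ⟨0, Fin.succ_pos i, rfl⟩
      · exact ⟨k.succ, Fin.succ_lt_succ_iff.mpr hk, rfl⟩
  have hI : Ideal.span ((fun k : Fin n => π (x k.succ)) '' {j : Fin n | j < i}) =
      Ideal.map π (Ideal.span (x '' {j : Fin (n + 1) | j < i.succ})) := by
    rw [hset, Ideal.map_span, Set.image_insert_eq, Ideal.span_insert]
    have : π (x 0) = 0 := Ideal.Quotient.eq_zero_iff_mem.mpr (Ideal.mem_span_singleton_self _)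
    rw [this, Ideal.span_singleton_eq_bot.mpr rfl, bot_sup_eq, Set.image_image]
  have hcomap : ∀ t : H, π t ∈ Ideal.map π (Ideal.span (x '' {j : Fin (n + 1) | j < i.succ})) ↔
      t ∈ Ideal.span (x '' {j : Fin (n + 1) | j < i.succ}) := by
    intro t
    rw [← Ideal.mem_comap, Ideal.comap_map_of_surjective π Ideal.Quotient.mk_surjective,
      ← RingHom.ker_eq_comap_bot, Ideal.mk_ker]
    constructor
    · intro ht
      have hle : Ideal.span (x '' {j : Fin (n + 1) | j < i.succ}) ⊔ Ideal.span {x 0} ≤
          Ideal.span (x '' {j : Fin (n + 1) | j < i.succ}) := by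
        refine sup_le le_rfl ?_
        rw [Ideal.span_le, Set.singleton_subset_iff]
        exact Ideal.subset_span ⟨0, Fin.succ_pos i, rfl⟩
      exact hle ht
    · intro ht
      exact Ideal.mem_sup_left ht
  rw [hI] at hmem ⊢
  rw [← map_mul, hcomap] at hmem
  rw [hcomap]
  exact hx i.succ h hmem

/-- The inductive step: modulo the minors, a series in the kernel is divisible by `X₀`, with
quotient again in the kernel. -/
theorem exists_sub_X_zero_mul_mem {H : Type u} [CommRing H] {n : ℕ} (x : Fin (n + 1) → H)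
    (hx : IsRegSeq x)
    (ih : ∀ G : MvPowerSeries (Fin n) (H ⧸ Ideal.span {x 0}),
      reesHom (fun i : Fin n => Ideal.Quotient.mk (Ideal.span {x 0}) (x i.succ)) G = 0 →
      G ∈ minorIdeal (fun i : Fin n => Ideal.Quotient.mk (Ideal.span {x 0}) (x i.succ)))
    (F : MvPowerSeries (Fin (n + 1)) H) (hF : reesHom x F = 0) :
    ∃ F'' : MvPowerSeries (Fin (n + 1)) H, F - X 0 * F'' ∈ minorIdeal x ∧ reesHom x F'' = 0 := by
  classical
  set π := Ideal.Quotient.mk (Ideal.span {x 0}) with hπ
  have hπ0 : π (x 0) = 0 := Ideal.Quotient.eq_zero_iff_mem.mpr (Ideal.mem_span_singleton_self _)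
  -- `x 0` is a nonzerodivisor
  have hx0 : ∀ h : H, x 0 * h = 0 → h = 0 := by
    intro h hh
    have := hx 0 h
    have hemp : (x '' {j : Fin (n + 1) | j < 0}) = ∅ := by
      rw [Set.image_eq_empty]
      ext j
      simp
    rw [hemp, Ideal.span_empty, Ideal.mem_bot, Ideal.mem_bot] at this
    exact this hh
  obtain ⟨F', hF'⟩ := exists_eq_X_zero_mul_add_rename F
  set F₀ := killCompl (Fin.succEmb n) F with hF₀
  have h1 : reesHom (fun i : Fin n => x i.succ) F₀ =
      - ((x 0 • (PowerSeries.X : PowerSeries H)) * reesHom x F') := by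
    have h := hF
    rw [hF', map_add, map_mul, reesHom_X, reesHom_rename_succ] at h
    rw [eq_neg_iff_add_eq_zero, add_comm]
    exact h
  have h2 : reesHom (fun i : Fin n => π (x i.succ)) (MvPowerSeries.map π F₀) = 0 := by
    rw [← map_reesHom, h1, map_neg, map_mul]
    have : PowerSeries.map π (x 0 • (PowerSeries.X : PowerSeries H)) = 0 := by
      ext k
      rw [PowerSeries.coeff_map, PowerSeries.coeff_smul, smul_eq_mul, map_mul, hπ0, zero_mul,
        map_zero]
    rw [this, zero_mul, neg_zero]
  have h3 := ih _ h2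
  rw [← minorIdeal_map π (fun i : Fin n => x i.succ),
    Ideal.mem_map_iff_of_surjective _
      (map_surjective_of_surjective π Ideal.Quotient.mk_surjective (Fin n))] at h3
  obtain ⟨Q, hQ, hQmap⟩ := h3
  -- `F₀ - Q` has coefficients in `(x 0)`
  have hcoeff : ∀ d, coeff d (F₀ - Q) ∈ Ideal.span {x 0} := by
    intro d
    rw [← Ideal.Quotient.eq_zero_iff_mem, ← coeff_map, map_sub, hQmap, sub_self, map_zero]
  obtain ⟨R, hR⟩ := exists_eq_C_mul_of_coeff_mem hcoeff
  -- constant coefficients
  have hcF : constantCoeff F = 0 := by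
    rw [← constantCoeff_reesHom x F, hF, map_zero]
  have hcF₀ : constantCoeff F₀ = 0 := by
    rw [← coeff_zero_eq_constantCoeff_apply, hF₀, coeff_killCompl, Finsupp.embDomain_zero,
      coeff_zero_eq_constantCoeff_apply, hcF]
  have hcQ : constantCoeff Q = 0 := minorIdeal_le_ker_constantCoeff _ hQ
  have hcR : constantCoeff R = 0 := by
    apply hx0
    have := congrArg constantCoeff hR
    rw [map_sub, hcF₀, hcQ, sub_zero, map_mul, constantCoeff_C] at this
    exact this.symm
  obtain ⟨c, hc⟩ := exists_eq_sum_X_mul hcR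
  have hmem : F - X 0 * (F' + ∑ i, C (x i.succ) * rename Fin.succ (c i)) ∈ minorIdeal x := by
    have e : F - X 0 * (F' + ∑ i, C (x i.succ) * rename Fin.succ (c i)) =
        rename Fin.succ Q + ∑ i : Fin n, (-(X 0 * C (x i.succ) - X i.succ * C (x 0))) *
          rename Fin.succ (c i) := by
      have hF₀Q : F₀ = Q + C (x 0) * ∑ i, X i * c i := by
        rw [← hc, ← hR]
        ring
      rw [hF', hF₀Q, map_add, map_mul, map_sum, rename_C]
      simp only [map_mul, rename_X, Finset.mul_sum]
      rw [mul_add, Finset.mul_sum]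
      have : ∀ i : Fin n, (-(X 0 * C (x i.succ) - X i.succ * C (x 0))) * rename Fin.succ (c i) =
          C (x 0) * (X i.succ * rename Fin.succ (c i)) -
            X 0 * (C (x i.succ) * rename Fin.succ (c i)) := fun i => by ring
      simp only [this, Finset.sum_sub_distrib]
      ring
    rw [e]
    refine Ideal.add_mem _ (rename_succ_mem_minorIdeal x hQ) (Ideal.sum_mem _ fun i _ => ?_)
    refine Ideal.mul_mem_right _ _ (neg_mem ?_)
    exact Ideal.subset_span ⟨(0, i.succ), rfl⟩
  refine ⟨F' + ∑ i, C (x i.succ) * rename Fin.succ (c i), hmem, ?_⟩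
  have h4 := minorIdeal_le_ker x hmem
  rw [RingHom.mem_ker, map_sub, hF, zero_sub, neg_eq_zero, map_mul, reesHom_X] at h4
  exact smul_X_mul_eq_zero hx0 h4

/-- **Linear type, power series form.** -/
theorem mem_minorIdeal_of_reesHom_eq_zero (n : ℕ) :
    ∀ {H : Type u} [CommRing H] [IsNoetherianRing H] (x : Fin n → H), IsRegSeq x →
      ∀ F : MvPowerSeries (Fin n) H, reesHom x F = 0 → F ∈ minorIdeal x := by
  induction n with
  | zero =>
    intro H _ _ x _ F hF
    have hc : constantCoeff F = 0 := by rw [← constantCoeff_reesHom x F, hF, map_zero]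
    have : F = 0 := by
      ext d
      have hd : d = 0 := Subsingleton.elim _ _
      rw [hd, coeff_zero_eq_constantCoeff_apply, hc, map_zero]
    rw [this]
    exact Ideal.zero_mem _
  | succ n ih =>
    intro H _ _ x hx F hF
    have step := exists_sub_X_zero_mul_mem x hx
      (fun G hG => ih (H := H ⧸ Ideal.span {x 0}) _ (isRegSeq_quotient x hx) G hG)
    -- `F ∈ J + (X₀)^k` for all `k`
    have hk : ∀ k : ℕ, ∀ F : MvPowerSeries (Fin (n + 1)) H, reesHom x F = 0 →
        F ∈ minorIdeal x ⊔ Ideal.span {(X 0 : MvPowerSeries (Fin (n + 1)) H)} ^ k := by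
      intro k
      induction k with
      | zero =>
        intro F _
        rw [pow_zero, Ideal.one_eq_top, sup_top_eq]
        exact Submodule.mem_top
      | succ k ihk =>
        intro F hF
        obtain ⟨F'', hmem, hF''⟩ := step F hF
        have h1 := ihk F'' hF''
        have e : F = (F - X 0 * F'') + X 0 * F'' := by ring
        rw [e]
        refine Ideal.add_mem _ (Ideal.mem_sup_left hmem) ?_
        obtain ⟨j, hj, i, hi, hji⟩ := Submodule.mem_sup.mp h1
        rw [← hji, mul_add]
        refine Ideal.add_mem _ (Ideal.mem_sup_left (Ideal.mul_mem_left _ _ hj))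
          (Ideal.mem_sup_right ?_)
        rw [pow_succ']
        exact Ideal.mul_mem_mul (Ideal.mem_span_singleton_self _) hi
    -- Krull's intersection theorem
    have hH : IsHausdorff (Ideal.span {(X 0 : MvPowerSeries (Fin (n + 1)) H)})
        (MvPowerSeries (Fin (n + 1)) H ⧸ minorIdeal x) :=
      IsHausdorff.of_le_jacobson _ _ X_zero_mem_jacobson
    rw [← Ideal.Quotient.eq_zero_iff_mem]
    apply hH.haus
    intro k
    rw [SModEq.zero]
    obtain ⟨j, hj, i, hi, hji⟩ := Submodule.mem_sup.mp (hk k F hF)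
    rw [← hji, map_add, Ideal.Quotient.eq_zero_iff_mem.mpr hj, zero_add]
    have : Ideal.Quotient.mk (minorIdeal x) i = i • (1 : MvPowerSeries (Fin (n + 1)) H ⧸ minorIdeal x) := by
      show _ = Ideal.Quotient.mk (minorIdeal x) (i * 1)
      rw [mul_one]
    rw [this]
    exact Submodule.smul_mem_smul hi Submodule.mem_top

theorem ker_reesHom {H : Type u} [CommRing H] [IsNoetherianRing H] {n : ℕ} (x : Fin n → H)
    (hx : IsRegSeq x) : RingHom.ker (reesHom x) = minorIdeal x :=
  le_antisymm (fun F hF => mem_minorIdeal_of_reesHom_eq_zero n x hx F hF) (minorIdeal_le_ker x)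

end Main

end Fermat.Agent.S43lib.Loc
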