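/-
S43lib / Loc / Quad (helper1).

The quadratic extension `H = D[x]/(x² − w)`, `D = Λ⟦z⟧⟦y⟧`, `w = δ − y z`
(the ring of functions on the formal quadric `x² + y z = δ` over `Λ`).

* `(x, y, z)` is a regular sequence on `H` as soon as `δ` is a nonzerodivisor of `Λ`;
* functoriality in `Λ`;
* over a good base `(G, ϖ)` with `ϖ ∣ δ`, `H` is a domain and `(H, ϖ)` is again a good base.
-/
import Mathlib
import Fermat.Agent.S43lib.Loc.Good
import Fermat.Agent.S43lib.Loc.LinType

set_option autoImplicit false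

namespace Fermat.Agent.S43lib.Loc

open PowerSeries

section Defs

variable (Λ : Type*) [CommRing Λ] (δ : Λ)

/-- `D = Λ⟦z⟧⟦y⟧` (outer variable `y`, inner variable `z`). -/
abbrev DRing : Type _ := PowerSeries (PowerSeries Λ)

/-- `w = δ − y z`. -/
noncomputable def wElt : DRing Λ := C (C δ) - X * C X

/-- `H = D[x]/(x² − w)`. -/
abbrev HRing : Type _ := QuadraticAlgebra (DRing Λ) (wElt Λ δ) 0

/-- The element `x` of `H`. -/
noncomputable def xH : HRing Λ δ := QuadraticAlgebra.omega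

/-- The element `y` of `H`. -/
noncomputable def yH : HRing Λ δ := algebraMap (DRing Λ) (HRing Λ δ) X

/-- The element `z` of `H`. -/
noncomputable def zH : HRing Λ δ := algebraMap (DRing Λ) (HRing Λ δ) (C X)

variable {Λ δ}

theorem xH_mul (h : HRing Λ δ) : xH Λ δ * h = ⟨wElt Λ δ * h.im, h.re⟩ := by
  apply QuadraticAlgebra.ext <;> simp [xH]

theorem yH_mul (h : HRing Λ δ) : yH Λ δ * h = ⟨X * h.re, X * h.im⟩ := by
  apply QuadraticAlgebra.ext <;> simp [yH]

theorem zH_mul (h : HRing Λ δ) : zH Λ δ * h = ⟨C X * h.re, C X * h.im⟩ := by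
  apply QuadraticAlgebra.ext <;> simp [zH]

@[simp] theorem xH_re : (xH Λ δ).re = 0 := rfl
@[simp] theorem xH_im : (xH Λ δ).im = 1 := rfl
@[simp] theorem yH_re : (yH Λ δ).re = X := rfl
@[simp] theorem yH_im : (yH Λ δ).im = 0 := rfl
@[simp] theorem zH_re : (zH Λ δ).re = C X := rfl
@[simp] theorem zH_im : (zH Λ δ).im = 0 := rfl

/-- `x² + y z = δ` in `H`. -/
theorem xH_sq_add : xH Λ δ * xH Λ δ + yH Λ δ * zH Λ δ =
    algebraMap (DRing Λ) (HRing Λ δ) (C (C δ)) := by
  rw [xH_mul, yH_mul]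
  apply QuadraticAlgebra.ext
  · rw [QuadraticAlgebra.re_add, QuadraticAlgebra.algebraMap_re, xH_im, zH_re, mul_one]
    show (C (C δ) - X * C X) + X * C X = C (C δ)
    ring
  · rw [QuadraticAlgebra.im_add, QuadraticAlgebra.algebraMap_im, xH_re, zH_im, mul_zero, add_zero]

theorem constantCoeff_wElt : constantCoeff (wElt Λ δ) = C δ := by
  simp [wElt]

end Defs

section Regular

variable {Λ : Type*} [CommRing Λ] {δ : Λ}

theorem mem_span_xH_iff (h : HRing Λ δ) : h ∈ Ideal.span {xH Λ δ} ↔ wElt Λ δ ∣ h.re := by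
  rw [Ideal.mem_span_singleton]
  constructor
  · rintro ⟨g, rfl⟩
    rw [xH_mul]
    exact ⟨g.im, rfl⟩
  · rintro ⟨q, hq⟩
    refine ⟨⟨h.im, q⟩, ?_⟩
    rw [xH_mul]
    exact QuadraticAlgebra.ext hq rfl

theorem mem_span_xH_yH_iff (h : HRing Λ δ) :
    h ∈ Ideal.span {xH Λ δ, yH Λ δ} ↔ C δ ∣ constantCoeff h.re := by
  rw [Ideal.mem_span_pair]
  constructor
  · rintro ⟨g, g', rfl⟩
    rw [mul_comm g, mul_comm g', xH_mul, yH_mul, QuadraticAlgebra.re_add]
    show C δ ∣ constantCoeff (wElt Λ δ * g.im + X * g'.re)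
    rw [map_add, map_mul, map_mul, constantCoeff_X, zero_mul, add_zero, constantCoeff_wElt]
    exact Dvd.intro _ rfl
  · rintro ⟨t, ht⟩
    -- `h.re = w * C t + X * (shift + C X * C t)`
    obtain ⟨u, hu⟩ : ∃ u : DRing Λ, h.re = X * u + C (constantCoeff h.re) :=
      ⟨_, eq_X_mul_shift_add_const h.re⟩
    refine ⟨⟨h.im, C t⟩, ⟨u + C X * C t, 0⟩, ?_⟩
    rw [mul_comm _ (xH Λ δ), mul_comm _ (yH Λ δ), xH_mul, yH_mul]
    apply QuadraticAlgebra.ext
    · rw [QuadraticAlgebra.re_add]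
      show wElt Λ δ * C t + X * (u + C X * C t) = h.re
      rw [hu, ht, wElt, map_mul]
      ring
    · rw [QuadraticAlgebra.im_add]
      show h.im + X * 0 = h.im
      rw [mul_zero, add_zero]

theorem C_mul_eq_zero_of_regular (hδ : ∀ a : Λ, δ * a = 0 → a = 0) {g : PowerSeries Λ}
    (hg : C δ * g = 0) : g = 0 := by
  ext n
  have := congrArg (coeff n) hg
  rw [coeff_C_mul, map_zero] at this
  rw [map_zero]
  exact hδ _ this

theorem wElt_dvd_of_dvd_X_mul (hδ : ∀ a : Λ, δ * a = 0 → a = 0) {u : DRing Λ}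
    (h : wElt Λ δ ∣ X * u) : wElt Λ δ ∣ u := by
  obtain ⟨g, hg⟩ := h
  have h0 : constantCoeff g = 0 := by
    have := congrArg constantCoeff hg
    rw [map_mul, map_mul, constantCoeff_X, zero_mul, constantCoeff_wElt] at this
    exact C_mul_eq_zero_of_regular hδ this.symm
  obtain ⟨g', rfl⟩ := X_dvd_iff.mpr h0
  refine ⟨g', X_mul_cancel ?_⟩
  rw [hg]
  ring

theorem wElt_mul_eq_zero (hδ : ∀ a : Λ, δ * a = 0 → a = 0) {u : DRing Λ}
    (h : wElt Λ δ * u = 0) : u = 0 := by
  by_contra hu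
  -- look at the lowest coefficient
  have hord : u.order ≠ ⊤ := order_eq_top.not.mpr hu
  set n := u.order.toNat with hn
  have hcoeff : coeff n u ≠ 0 := coeff_order hu
  have := congrArg (coeff n) h
  rw [map_zero, coeff_mul] at this
  rw [Finset.sum_eq_single (0, n)] at this
  · rw [coeff_zero_eq_constantCoeff_apply, constantCoeff_wElt] at this
    exact hcoeff (C_mul_eq_zero_of_regular hδ this)
  · rintro ⟨i, j⟩ hij hne
    have hij' : i + j = n := Finset.HasAntidiagonal.mem_antidiagonal.mp hij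
    have hj : j < n := by
      rcases Nat.eq_zero_or_pos i with h0 | h0
      · exfalso
        apply hne
        subst h0
        simp at hij'
        rw [hij']
      · omega
    have : coeff j u = 0 := by
      apply coeff_of_lt_order
      rw [← ENat.natCast_toNat hord]
      exact_mod_cast hj
    rw [this, mul_zero]
  · intro hnot
    exact absurd (Finset.HasAntidiagonal.mem_antidiagonal.mpr (zero_add n)) hnot

/-- `(x, y, z)` is a regular sequence on `H` when `δ` is a nonzerodivisor. -/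
theorem isRegSeq_xyz (hδ : ∀ a : Λ, δ * a = 0 → a = 0) :
    IsRegSeq ![xH Λ δ, yH Λ δ, zH Λ δ] := by
  have hset0 : (![xH Λ δ, yH Λ δ, zH Λ δ] '' {j : Fin 3 | j < 0}) = ∅ := by
    rw [Set.image_eq_empty]
    ext j
    simp
  have hset1 : (![xH Λ δ, yH Λ δ, zH Λ δ] '' {j : Fin 3 | j < 1}) = {xH Λ δ} := by
    ext t
    constructor
    · rintro ⟨j, hj, rfl⟩
      fin_cases j
      · rfl
      · exact absurd hj (by decide)
      · exact absurd hj (by decide)
    · rintro rfl
      exact ⟨0, by decide, rfl⟩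
  have hset2 : (![xH Λ δ, yH Λ δ, zH Λ δ] '' {j : Fin 3 | j < 2}) = {xH Λ δ, yH Λ δ} := by
    ext t
    constructor
    · rintro ⟨j, hj, rfl⟩
      fin_cases j
      · exact Or.inl rfl
      · exact Or.inr rfl
      · exact absurd hj (by decide)
    · rintro (rfl | rfl)
      · exact ⟨0, by decide, rfl⟩
      · exact ⟨1, by decide, rfl⟩
  intro i h
  fin_cases i
  · -- `x` is a nonzerodivisor
    show xH Λ δ * h ∈ Ideal.span (![xH Λ δ, yH Λ δ, zH Λ δ] '' {j : Fin 3 | j < 0}) →
      h ∈ Ideal.span (![xH Λ δ, yH Λ δ, zH Λ δ] '' {j : Fin 3 | j < 0})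
    rw [hset0, Ideal.span_empty, Ideal.mem_bot, Ideal.mem_bot, xH_mul]
    intro h0
    have hre : wElt Λ δ * h.im = 0 := congrArg QuadraticAlgebra.re h0
    have him : h.re = 0 := congrArg QuadraticAlgebra.im h0
    exact QuadraticAlgebra.ext him (wElt_mul_eq_zero hδ hre)
  · show yH Λ δ * h ∈ Ideal.span (![xH Λ δ, yH Λ δ, zH Λ δ] '' {j : Fin 3 | j < 1}) →
      h ∈ Ideal.span (![xH Λ δ, yH Λ δ, zH Λ δ] '' {j : Fin 3 | j < 1})
    rw [hset1, mem_span_xH_iff, mem_span_xH_iff, yH_mul]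
    exact wElt_dvd_of_dvd_X_mul hδ
  · show zH Λ δ * h ∈ Ideal.span (![xH Λ δ, yH Λ δ, zH Λ δ] '' {j : Fin 3 | j < 2}) →
      h ∈ Ideal.span (![xH Λ δ, yH Λ δ, zH Λ δ] '' {j : Fin 3 | j < 2})
    rw [hset2, mem_span_xH_yH_iff, mem_span_xH_yH_iff, zH_mul]
    show C δ ∣ constantCoeff (C X * h.re) → C δ ∣ constantCoeff h.re
    rw [map_mul, constantCoeff_C, C_dvd_iff_forall_coeff, C_dvd_iff_forall_coeff]
    intro hd n
    have := hd (n + 1)
    rwa [coeff_succ_X_mul] at this

end Regular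

section Functorial

variable {Λ G : Type*} [CommRing Λ] [CommRing G]

/-- `D` is functorial in `Λ`. -/
noncomputable def DRing.map (f : Λ →+* G) : DRing Λ →+* DRing G :=
  PowerSeries.map (PowerSeries.map f)

theorem DRing.map_wElt (f : Λ →+* G) (δ : Λ) : DRing.map f (wElt Λ δ) = wElt G (f δ) := by
  simp [DRing.map, wElt]

theorem DRing.map_injective (f : Λ →+* G) (hf : Function.Injective f) :
    Function.Injective (DRing.map f) := by
  intro a b hab
  ext n m
  have := congrArg (fun t => coeff m (coeff n t)) hab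
  simp only [DRing.map, coeff_map] at this
  exact hf this

/-- `H` is functorial in `Λ`. -/
noncomputable def HRing.map (f : Λ →+* G) (δ : Λ) : HRing Λ δ →+* HRing G (f δ) where
  toFun h := ⟨DRing.map f h.re, DRing.map f h.im⟩
  map_one' := by
    apply QuadraticAlgebra.ext
    · show DRing.map f 1 = 1
      exact map_one _
    · show DRing.map f 0 = 0
      exact map_zero _
  map_mul' a b := by
    apply QuadraticAlgebra.ext
    · simp only [QuadraticAlgebra.re_mul, map_add, map_mul, DRing.map_wElt]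
    · simp only [QuadraticAlgebra.im_mul, map_add, map_mul, map_zero]
  map_zero' := by
    apply QuadraticAlgebra.ext
    · exact map_zero _
    · exact map_zero _
  map_add' a b := by
    apply QuadraticAlgebra.ext
    · simp only [QuadraticAlgebra.re_add, map_add]
    · simp only [QuadraticAlgebra.im_add, map_add]

@[simp] theorem HRing.map_re (f : Λ →+* G) (δ : Λ) (h : HRing Λ δ) :
    (HRing.map f δ h).re = DRing.map f h.re := rfl

@[simp] theorem HRing.map_im (f : Λ →+* G) (δ : Λ) (h : HRing Λ δ) :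
    (HRing.map f δ h).im = DRing.map f h.im := rfl

theorem HRing.map_injective (f : Λ →+* G) (hf : Function.Injective f) (δ : Λ) :
    Function.Injective (HRing.map f δ) := by
  intro a b hab
  apply QuadraticAlgebra.ext
  · exact DRing.map_injective f hf (congrArg QuadraticAlgebra.re hab)
  · exact DRing.map_injective f hf (congrArg QuadraticAlgebra.im hab)

theorem HRing.map_xH (f : Λ →+* G) (δ : Λ) : HRing.map f δ (xH Λ δ) = xH G (f δ) := by
  apply QuadraticAlgebra.ext
  · exact map_zero _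
  · exact map_one _

theorem HRing.map_yH (f : Λ →+* G) (δ : Λ) : HRing.map f δ (yH Λ δ) = yH G (f δ) := by
  apply QuadraticAlgebra.ext
  · show DRing.map f X = X
    simp [DRing.map]
  · exact map_zero _

theorem HRing.map_zH (f : Λ →+* G) (δ : Λ) : HRing.map f δ (zH Λ δ) = zH G (f δ) := by
  apply QuadraticAlgebra.ext
  · show DRing.map f (C X) = C X
    simp [DRing.map]
  · exact map_zero _

theorem HRing.map_algebraMap (f : Λ →+* G) (δ : Λ) (a : Λ) :
    HRing.map f δ (algebraMap (DRing Λ) (HRing Λ δ) (C (C a))) =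
      algebraMap (DRing G) (HRing G (f δ)) (C (C (f a))) := by
  apply QuadraticAlgebra.ext
  · show DRing.map f (C (C a)) = C (C (f a))
    simp [DRing.map]
  · exact map_zero _

end Functorial

section GoodH

variable {G : Type*} [CommRing G] {ϖ : G}

/-- The uniformiser of `H`. -/
noncomputable def ϖH (δ ϖ : G) : HRing G δ := algebraMap (DRing G) (HRing G δ) (C (C ϖ))

theorem ϖH_mul (δ ϖ : G) (h : HRing G δ) : ϖH δ ϖ * h = ⟨C (C ϖ) * h.re, C (C ϖ) * h.im⟩ := by
  apply QuadraticAlgebra.ext <;> simp [ϖH]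

theorem ϖH_pow_mul (δ ϖ : G) (n : ℕ) (h : HRing G δ) :
    ϖH δ ϖ ^ n * h = ⟨C (C ϖ) ^ n * h.re, C (C ϖ) ^ n * h.im⟩ := by
  induction n with
  | zero => simp
  | succ n ih => rw [pow_succ', mul_assoc, ih, ϖH_mul, pow_succ', mul_assoc, mul_assoc]

theorem CC_dvd_iff_map_eq_zero (x : DRing G) :
    C (C ϖ) ∣ x ↔ DRing.map (Ideal.Quotient.mk (Ideal.span {ϖ})) x = 0 := by
  rw [C_dvd_iff_forall_coeff]
  constructor
  · intro h
    ext n : 1
    rw [DRing.map, coeff_map, map_zero]
    exact (C_dvd_iff_map_eq_zero _).mp (h n)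
  · intro h n
    have := congrArg (coeff n) h
    rw [DRing.map, coeff_map, map_zero] at this
    exact (C_dvd_iff_map_eq_zero _).mpr this

theorem nonSquare_wElt_of_eq_zero {B : Type*} [CommRing B] [IsDomain B] {δ : B} (hδ : δ = 0) :
    NonSquare (wElt B δ) := by
  apply nonSquare_of_odd_order (k := 0)
  have e : wElt B δ = -(X * C X) := by
    rw [wElt, hδ, map_zero, map_zero, zero_sub]
  rw [e, order_neg, order_mul, order_X]
  have h0 : (C (X : PowerSeries B) : DRing B).order = 0 := by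
    have h1 : (C (X : PowerSeries B) : DRing B).order ≤ ((0 : ℕ) : ℕ∞) :=
      order_le 0 (by
        rw [coeff_zero_eq_constantCoeff_apply, constantCoeff_C]
        exact X_ne_zero)
    rw [Nat.cast_zero] at h1
    exact nonpos_iff_eq_zero.mp h1
  rw [h0]
  norm_num

/-- Over a good base with `ϖ ∣ δ`, `w = δ − y z` is a non-square of `D`. -/
theorem nonSquare_wElt (hG : GoodBase G ϖ) {δ : G} (hδ : ϖ ∣ δ) : NonSquare (wElt G δ) := by
  have := hG.isDomain
  have hprime : (Ideal.span {ϖ}).IsPrime := hG.isPrime_span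
  have hD : GoodBase (DRing G) (C (C ϖ)) := hG.powerSeries.powerSeries
  have hπδ : Ideal.Quotient.mk (Ideal.span {ϖ}) δ = 0 :=
    Ideal.Quotient.eq_zero_iff_mem.mpr (Ideal.mem_span_singleton.mpr hδ)
  refine nonSquare_of_map (DRing.map (Ideal.Quotient.mk (Ideal.span {ϖ}))) (C (C ϖ))
    (fun x => (CC_dvd_iff_map_eq_zero x).symm) hD.sep ?_
  rw [DRing.map_wElt]
  exact nonSquare_wElt_of_eq_zero hπδ

/-- Over a good base with `ϖ ∣ δ`, `H` is a domain. -/
theorem isDomain_HRing (hG : GoodBase G ϖ) {δ : G} (hδ : ϖ ∣ δ) : IsDomain (HRing G δ) := by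
  have := hG.isDomain
  exact isDomain_quadraticAlgebra (nonSquare_wElt hG hδ)

/-- Over a good base with `ϖ ∣ δ`, `(H, ϖ)` is a good base. -/
theorem goodBase_HRing (hG : GoodBase G ϖ) {δ : G} (hδ : ϖ ∣ δ) :
    GoodBase (HRing G δ) (ϖH δ ϖ) := by
  have := hG.isDomain
  have hprime : (Ideal.span {ϖ}).IsPrime := hG.isPrime_span
  have hD : GoodBase (DRing G) (C (C ϖ)) := hG.powerSeries.powerSeries
  have hπδ : Ideal.Quotient.mk (Ideal.span {ϖ}) δ = 0 :=
    Ideal.Quotient.eq_zero_iff_mem.mpr (Ideal.mem_span_singleton.mpr hδ)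
  have hdvd : ∀ h : HRing G δ, ϖH δ ϖ ∣ h ↔
      HRing.map (Ideal.Quotient.mk (Ideal.span {ϖ})) δ h = 0 := by
    intro h
    constructor
    · rintro ⟨g, rfl⟩
      rw [ϖH_mul]
      apply QuadraticAlgebra.ext
      · exact (CC_dvd_iff_map_eq_zero _).mp (Dvd.intro _ rfl)
      · exact (CC_dvd_iff_map_eq_zero _).mp (Dvd.intro _ rfl)
    · intro h0
      obtain ⟨p, hp⟩ := (CC_dvd_iff_map_eq_zero _).mpr (congrArg QuadraticAlgebra.re h0)
      obtain ⟨q, hq⟩ := (CC_dvd_iff_map_eq_zero _).mpr (congrArg QuadraticAlgebra.im h0)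
      refine ⟨⟨p, q⟩, ?_⟩
      rw [ϖH_mul]
      exact QuadraticAlgebra.ext hp hq
  have hdomQ : IsDomain (HRing (G ⧸ Ideal.span {ϖ}) (Ideal.Quotient.mk (Ideal.span {ϖ}) δ)) :=
    isDomain_quadraticAlgebra (nonSquare_wElt_of_eq_zero hπδ)
  refine ⟨isDomain_HRing hG hδ, ?_, ?_, ?_⟩
  · intro a b hab
    rw [hdvd] at hab ⊢
    rw [hdvd]
    rw [map_mul] at hab
    exact mul_eq_zero.mp hab
  · intro hu
    have h1 := QuadraticAlgebra.isUnit_iff_norm_isUnit.mp hu
    rw [ϖH, QuadraticAlgebra.norm_algebraMap] at h1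
    have h2 : IsUnit (C (C ϖ) : DRing G) := isUnit_of_mul_isUnit_left (by rwa [pow_two] at h1)
    exact hD.not_unit h2
  · intro h hh
    apply QuadraticAlgebra.ext
    · apply hD.sep
      intro n
      obtain ⟨g, hg⟩ := hh n
      rw [ϖH_pow_mul] at hg
      exact ⟨g.re, congrArg QuadraticAlgebra.re hg⟩
    · apply hD.sep
      intro n
      obtain ⟨g, hg⟩ := hh n
      rw [ϖH_pow_mul] at hg
      exact ⟨g.im, congrArg QuadraticAlgebra.im hg⟩

end GoodH

end Fermat.Agent.S43lib.Loc
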