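/-
S43lib / Loc / QuadLocal (helper1).

`H = Λ⟦z⟧⟦y⟧[x]/(x² + y z − δ)` is a complete Noetherian local ring when `Λ` is and `δ ∈ 𝔪_Λ`.
-/
import Mathlib
import Fermat.Agent.S43lib.Loc.Quad
import Fermat.Agent.TeamA.MvPS
import Fermat.Agent.TeamA.QuotInst

set_option autoImplicit false
set_option linter.style.haveILetI false

namespace Fermat.Agent.S43lib.Loc

open PowerSeries IsLocalRing

section Local

variable {Λ : Type*} [CommRing Λ] [IsLocalRing Λ] {δ : Λ}

theorem wElt_mem_maximalIdeal (hδ : δ ∈ maximalIdeal Λ) : wElt Λ δ ∈ maximalIdeal (DRing Λ) := by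
  rw [mem_maximalIdeal, mem_nonunits_iff, PowerSeries.isUnit_iff_constantCoeff, constantCoeff_wElt,
    PowerSeries.isUnit_iff_constantCoeff, constantCoeff_C]
  exact hδ

theorem isUnit_HRing_iff (hδ : δ ∈ maximalIdeal Λ) (h : HRing Λ δ) : IsUnit h ↔ IsUnit h.re := by
  rw [QuadraticAlgebra.isUnit_iff_norm_isUnit, QuadraticAlgebra.norm_def]
  have hw := wElt_mem_maximalIdeal hδ
  have e : h.re * h.re + 0 * h.re * h.im - wElt Λ δ * h.im * h.im =
      h.re * h.re - wElt Λ δ * (h.im * h.im) := by ring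
  rw [e]
  have hmem : wElt Λ δ * (h.im * h.im) ∈ maximalIdeal (DRing Λ) := Ideal.mul_mem_right _ _ hw
  constructor
  · intro hu
    by_contra hre
    have hre' : h.re ∈ maximalIdeal (DRing Λ) := hre
    have : h.re * h.re - wElt Λ δ * (h.im * h.im) ∈ maximalIdeal (DRing Λ) :=
      Ideal.sub_mem _ (Ideal.mul_mem_right _ _ hre') hmem
    exact this hu
  · intro hu
    by_contra hn
    have hn' : h.re * h.re - wElt Λ δ * (h.im * h.im) ∈ maximalIdeal (DRing Λ) := hn
    have : h.re * h.re ∈ maximalIdeal (DRing Λ) := by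
      have := Ideal.add_mem _ hn' hmem
      simpa using this
    exact this (hu.mul hu)

theorem isLocalRing_HRing (hδ : δ ∈ maximalIdeal Λ) : IsLocalRing (HRing Λ δ) := by
  refine IsLocalRing.of_nonunits_add ?_
  intro a b ha hb
  rw [mem_nonunits_iff, isUnit_HRing_iff hδ] at ha hb ⊢
  have ha' : a.re ∈ maximalIdeal (DRing Λ) := ha
  have hb' : b.re ∈ maximalIdeal (DRing Λ) := hb
  rw [QuadraticAlgebra.re_add]
  exact Ideal.add_mem _ ha' hb'

theorem isLocalHom_algebraMap_HRing (hδ : δ ∈ maximalIdeal Λ) :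
    IsLocalHom (algebraMap (DRing Λ) (HRing Λ δ)) := by
  constructor
  intro a ha
  rw [isUnit_HRing_iff hδ] at ha
  exact ha

end Local

section Complete

variable {Λ : Type*} [CommRing Λ] [IsLocalRing Λ] [IsNoetherianRing Λ]
  [IsAdicComplete (maximalIdeal Λ) Λ] {δ : Λ}

instance isNoetherianRing_HRing : IsNoetherianRing (HRing Λ δ) :=
  IsNoetherianRing.of_finite (DRing Λ) (HRing Λ δ)

theorem isAdicComplete_HRing (hδ : δ ∈ maximalIdeal Λ) :
    haveI := isLocalRing_HRing hδ
    IsAdicComplete (maximalIdeal (HRing Λ δ)) (HRing Λ δ) := by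
  haveI := isLocalRing_HRing hδ
  haveI := isLocalHom_algebraMap_HRing hδ
  exact IsLocalRing.isAdicComplete_of_module_finite (𝒪 := DRing Λ) (T := HRing Λ δ)

end Complete

end Fermat.Agent.S43lib.Loc
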