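/-
S43lib / Loc / Stage (helper1).

The staged ring `W = H⟦a,b,c⟧ ⧸ (2 × 2 minors of (a b c; x y z))`, `H = Λ⟦z⟧⟦y⟧[x]/(x² + yz − δ)`:
* it is a complete Noetherian local ring;
* it embeds into `H⟦s⟧` by `a ↦ x s, b ↦ y s, c ↦ z s` when `δ` is a nonzerodivisor (`LinType`).
-/
import Mathlib
import Fermat.Agent.S43lib.Loc.QuadLocal
import Fermat.Agent.S43lib.Loc.LinType
import Fermat.Agent.S43lib.Loc.EvalExt

set_option autoImplicit false
set_option linter.style.haveILetI false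

namespace Fermat.Agent.S43lib.Loc

open MvPowerSeries IsLocalRing

section Defs

variable (Λ : Type*) [CommRing Λ] (δ : Λ)

/-- The vector `(x, y, z)` of `H`. -/
noncomputable def xyzH : Fin 3 → HRing Λ δ := ![xH Λ δ, yH Λ δ, zH Λ δ]

/-- The staged ring. -/
abbrev WRing : Type _ := MvPowerSeries (Fin 3) (HRing Λ δ) ⧸ minorIdeal (xyzH Λ δ)

/-- The quotient map onto the staged ring. -/
noncomputable abbrev WRing.mk : MvPowerSeries (Fin 3) (HRing Λ δ) →+* WRing Λ δ :=
  Ideal.Quotient.mk (minorIdeal (xyzH Λ δ))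

variable {Λ δ}

theorem minorIdeal_ne_top [Nontrivial Λ] : minorIdeal (xyzH Λ δ) ≠ ⊤ := by
  intro h
  have h1 : (1 : MvPowerSeries (Fin 3) (HRing Λ δ)) ∈ minorIdeal (xyzH Λ δ) := by
    rw [h]; exact Submodule.mem_top
  have h2 := minorIdeal_le_ker_constantCoeff (xyzH Λ δ) h1
  rw [RingHom.mem_ker, map_one] at h2
  exact one_ne_zero h2

/-- The embedding of the staged ring into `H⟦s⟧`. -/
noncomputable def WRing.toPowerSeries : WRing Λ δ →+* PowerSeries (HRing Λ δ) :=
  Ideal.Quotient.lift _ (reesHom (xyzH Λ δ)).toRingHom (fun _ hF => minorIdeal_le_ker _ hF)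

theorem WRing.toPowerSeries_mk (F : MvPowerSeries (Fin 3) (HRing Λ δ)) :
    WRing.toPowerSeries (WRing.mk Λ δ F) = reesHom (xyzH Λ δ) F := rfl

theorem WRing.toPowerSeries_injective [IsNoetherianRing Λ] (hδ : ∀ a : Λ, δ * a = 0 → a = 0) :
    Function.Injective (WRing.toPowerSeries (Λ := Λ) (δ := δ)) := by
  rw [injective_iff_map_eq_zero]
  intro w hw
  obtain ⟨F, rfl⟩ := Ideal.Quotient.mk_surjective w
  rw [Ideal.Quotient.eq_zero_iff_mem]
  exact mem_minorIdeal_of_reesHom_eq_zero 3 (xyzH Λ δ) (isRegSeq_xyz hδ) F hw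

end Defs

section Instances

variable {Λ : Type*} [CommRing Λ] [IsLocalRing Λ] {δ : Λ} [hδ : Fact (δ ∈ maximalIdeal Λ)]

instance instIsLocalRingHRing : IsLocalRing (HRing Λ δ) := isLocalRing_HRing hδ.out

instance instIsLocalHomHRing : IsLocalHom (algebraMap (DRing Λ) (HRing Λ δ)) :=
  isLocalHom_algebraMap_HRing hδ.out

instance instIsLocalRingWRing : IsLocalRing (WRing Λ δ) :=
  Fermat.Agent.TeamA.isLocalRing_quotient _ minorIdeal_ne_top

instance instIsLocalHomWRingMk : IsLocalHom (WRing.mk Λ δ) :=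
  Fermat.Agent.TeamA.isLocalHom_quotient_mk _ minorIdeal_ne_top

variable [IsNoetherianRing Λ] [IsAdicComplete (maximalIdeal Λ) Λ]

instance instIsAdicCompleteHRing : IsAdicComplete (maximalIdeal (HRing Λ δ)) (HRing Λ δ) :=
  isAdicComplete_HRing hδ.out

instance instIsAdicCompleteWRing : IsAdicComplete (maximalIdeal (WRing Λ δ)) (WRing Λ δ) :=
  Fermat.Agent.TeamA.isAdicComplete_quotient _ minorIdeal_ne_top

end Instances

section Membership

variable {Λ : Type*} [CommRing Λ] [IsLocalRing Λ] {δ : Λ} [hδ : Fact (δ ∈ maximalIdeal Λ)]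

theorem xH_mem_maximalIdeal : xH Λ δ ∈ maximalIdeal (HRing Λ δ) := by
  rw [mem_maximalIdeal, mem_nonunits_iff, isUnit_HRing_iff hδ.out, xH_re]
  exact not_isUnit_zero

theorem algebraMap_DRing_mem_maximalIdeal {d : DRing Λ} (hd : d ∈ maximalIdeal (DRing Λ)) :
    algebraMap (DRing Λ) (HRing Λ δ) d ∈ maximalIdeal (HRing Λ δ) := by
  rw [mem_maximalIdeal, mem_nonunits_iff, isUnit_HRing_iff hδ.out, QuadraticAlgebra.algebraMap_re]
  exact hd

theorem yH_mem_maximalIdeal : yH Λ δ ∈ maximalIdeal (HRing Λ δ) := by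
  apply algebraMap_DRing_mem_maximalIdeal
  rw [mem_maximalIdeal, mem_nonunits_iff, PowerSeries.isUnit_iff_constantCoeff,
    PowerSeries.constantCoeff_X]
  exact not_isUnit_zero

theorem zH_mem_maximalIdeal : zH Λ δ ∈ maximalIdeal (HRing Λ δ) := by
  apply algebraMap_DRing_mem_maximalIdeal
  rw [mem_maximalIdeal, mem_nonunits_iff, PowerSeries.isUnit_iff_constantCoeff,
    PowerSeries.constantCoeff_C, PowerSeries.isUnit_iff_constantCoeff, PowerSeries.constantCoeff_X]
  exact not_isUnit_zero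

theorem WRing.mk_X_mem (i : Fin 3) : WRing.mk Λ δ (X i) ∈ maximalIdeal (WRing Λ δ) := by
  rw [mem_maximalIdeal, mem_nonunits_iff]
  intro hu
  have := (isUnit_of_map_unit (WRing.mk Λ δ) _ hu)
  rw [MvPowerSeries.isUnit_iff_constantCoeff, constantCoeff_X] at this
  exact not_isUnit_zero this

theorem WRing.mk_C_mem {h : HRing Λ δ} (hh : h ∈ maximalIdeal (HRing Λ δ)) :
    WRing.mk Λ δ (C h) ∈ maximalIdeal (WRing Λ δ) := by
  rw [mem_maximalIdeal, mem_nonunits_iff]
  intro hu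
  have := (isUnit_of_map_unit (WRing.mk Λ δ) _ hu)
  rw [MvPowerSeries.isUnit_iff_constantCoeff, constantCoeff_C] at this
  exact hh this

end Membership

end Fermat.Agent.S43lib.Loc
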