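/-
S43lib / Loc / TameRel (helper1).

From the tame relation `Φ Σ = Σ ^ r Φ` (i.e. `Φ Σ Φ⁻¹ = Σ ^ r`) and the characteristic polynomial of
`Σ` to the relations `relsA` / `relsB` of `IA/BlockDefs`:

* unipotent type (`tr Σ = 2`, `det Σ = 1`): `(Σ − 1)² = 0`, `Σ ^ r = 1 + r (Σ − 1)`, hence
  `Φ (Σ − 1) = r • (Σ − 1) Φ`;
* type `(χ, χ⁻¹)` (`tr Σ = ζ + ζ⁻¹`, `det Σ = 1`, `ζ ^ p = 1`, `ζ² ≠ 1`, `r ≡ 1 mod p`):
  `Σ ^ p = 1`, `Σ ^ r = Σ`, hence `Φ Σ = Σ Φ`.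
-/
import Mathlib
import Fermat.Agent.S43lib.Loc.F3

set_option autoImplicit false

namespace Fermat.Agent.S43lib.Loc

open Matrix Polynomial

section Unipotent

variable {R : Type*} [CommRing R]

/-- `(Σ − 1)² = 0` when `tr Σ = 2` and `det Σ = 1`. -/
theorem sub_one_mul_sub_one_eq_zero (S : Matrix (Fin 2) (Fin 2) R) (htr : S.trace = 2)
    (hdet : S.det = 1) : (S - 1) * (S - 1) = 0 := by
  have h := sq_eq_trace_smul_sub_det (S - 1)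
  have h1 : (S - 1).trace = 0 := by
    rw [Matrix.trace_sub, htr, Matrix.trace_one, Fintype.card_fin]
    norm_num
  have h2 : (S - 1).det = 0 := by
    rw [Matrix.det_fin_two] at hdet ⊢
    rw [Matrix.trace_fin_two] at htr
    simp only [Matrix.sub_apply, Matrix.one_apply_eq, Matrix.one_apply_ne, ne_eq, Fin.isValue,
      zero_ne_one, one_ne_zero, not_false_eq_true, sub_zero]
    linear_combination hdet - htr
  rw [h, h1, h2, zero_smul, zero_smul, sub_zero]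

theorem one_add_pow_of_sq_zero (N : Matrix (Fin 2) (Fin 2) R) (hN : N * N = 0) (n : ℕ) :
    (1 + N) ^ n = 1 + (n : R) • N := by
  induction n with
  | zero => simp
  | succ n ih =>
    rw [pow_succ, ih, Matrix.add_mul, Matrix.mul_add, Matrix.mul_add, Matrix.smul_mul,
      Matrix.smul_mul, hN, smul_zero, add_zero, Matrix.one_mul, Matrix.mul_one, Matrix.one_mul]
    push_cast
    rw [add_smul, one_smul]
    abel

/-- `Σ ^ n = 1 + n (Σ − 1)` when `(Σ − 1)² = 0`. -/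
theorem pow_eq_one_add_smul (S : Matrix (Fin 2) (Fin 2) R) (hN : (S - 1) * (S - 1) = 0) (n : ℕ) :
    S ^ n = 1 + (n : R) • (S - 1) := by
  have := one_add_pow_of_sq_zero (S - 1) hN n
  rwa [add_sub_cancel] at this

/-- **Unipotent type.** From `Φ Σ = Σ ^ r Φ`, `tr Σ = 2`, `det Σ = 1` to
`Φ (Σ − 1) = r • (Σ − 1) Φ`. -/
theorem mul_sub_one_eq_of_tame (Φ S : Matrix (Fin 2) (Fin 2) R) (r : ℕ)
    (htame : Φ * S = S ^ r * Φ) (htr : S.trace = 2) (hdet : S.det = 1) :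
    Φ * (S - 1) = (r : R) • ((S - 1) * Φ) := by
  have hN := sub_one_mul_sub_one_eq_zero S htr hdet
  rw [pow_eq_one_add_smul S hN r, Matrix.add_mul, Matrix.one_mul, Matrix.smul_mul] at htame
  rw [Matrix.mul_sub, Matrix.mul_one, htame]
  abel

end Unipotent

section TypeChi

variable {𝒪 : Type*} [CommRing 𝒪] [IsDomain 𝒪]

/-- `(X − ζ)(X − ζ⁻¹) ∣ X ^ p − 1` when `ζ ^ p = 1` and `ζ² ≠ 1`. -/
theorem quad_dvd_X_pow_sub_one (ζ : 𝒪ˣ) (p : ℕ) (hζ : (ζ : 𝒪) ^ p = 1) (hζ2 : (ζ : 𝒪) ^ 2 ≠ 1) :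
    (X - C (ζ : 𝒪)) * (X - C ((ζ⁻¹ : 𝒪ˣ) : 𝒪)) ∣ (X ^ p - 1 : 𝒪[X]) := by
  have h1 : (X - C (ζ : 𝒪)) ∣ (X ^ p - 1 : 𝒪[X]) := by
    rw [dvd_iff_isRoot]
    simp [hζ]
  obtain ⟨g, hg⟩ := h1
  have hinv : ((ζ⁻¹ : 𝒪ˣ) : 𝒪) ^ p = 1 := by
    have hu : ζ ^ p = 1 := Units.ext (by rw [Units.val_pow_eq_pow_val, hζ, Units.val_one])
    rw [← Units.val_pow_eq_pow_val, inv_pow, hu, inv_one, Units.val_one]
  have h2 : (X - C ((ζ⁻¹ : 𝒪ˣ) : 𝒪)) ∣ g := by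
    rw [dvd_iff_isRoot, IsRoot]
    have := congrArg (eval ((ζ⁻¹ : 𝒪ˣ) : 𝒪)) hg
    simp only [eval_sub, eval_pow, eval_X, eval_one, eval_mul, eval_C, hinv, sub_self] at this
    rcases mul_eq_zero.mp this.symm with h | h
    · exfalso
      apply hζ2
      have h' : ((ζ⁻¹ : 𝒪ˣ) : 𝒪) = ζ := sub_eq_zero.mp h
      have : (ζ : 𝒪) * ((ζ⁻¹ : 𝒪ˣ) : 𝒪) = 1 := by
        rw [← Units.val_mul, mul_inv_cancel, Units.val_one]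
      rw [h'] at this
      rw [pow_two]
      exact this
    · exact h
  obtain ⟨g', rfl⟩ := h2
  exact ⟨g', by rw [hg]; ring⟩

variable {R : Type*} [CommRing R] [Algebra 𝒪 R]

/-- `Σ ^ p = 1` when the characteristic polynomial of `Σ` is `(X − ζ)(X − ζ⁻¹)`, `ζ ^ p = 1`,
`ζ² ≠ 1`. -/
theorem pow_eq_one_of_charpoly (ζ : 𝒪ˣ) (p : ℕ) (hζ : (ζ : 𝒪) ^ p = 1) (hζ2 : (ζ : 𝒪) ^ 2 ≠ 1)
    (S : Matrix (Fin 2) (Fin 2) R)
    (htr : S.trace = algebraMap 𝒪 R ((ζ : 𝒪) + ((ζ⁻¹ : 𝒪ˣ) : 𝒪))) (hdet : S.det = 1) :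
    S ^ p = 1 := by
  obtain ⟨q, hq⟩ := quad_dvd_X_pow_sub_one ζ p hζ hζ2
  have hCH := sq_eq_trace_smul_sub_det S
  have h0 : aeval S ((X - C (ζ : 𝒪)) * (X - C ((ζ⁻¹ : 𝒪ˣ) : 𝒪)) : 𝒪[X]) = 0 := by
    have e : ((X - C (ζ : 𝒪)) * (X - C ((ζ⁻¹ : 𝒪ˣ) : 𝒪)) : 𝒪[X]) =
        X ^ 2 - C ((ζ : 𝒪) + ((ζ⁻¹ : 𝒪ˣ) : 𝒪)) * X + 1 := by
      have : (ζ : 𝒪) * ((ζ⁻¹ : 𝒪ˣ) : 𝒪) = 1 := by
        rw [← Units.val_mul, mul_inv_cancel, Units.val_one]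
      rw [map_add]
      have hc : (C (ζ : 𝒪) * C ((ζ⁻¹ : 𝒪ˣ) : 𝒪) : 𝒪[X]) = 1 := by rw [← map_mul, this, map_one]
      linear_combination hc
    rw [e, map_add, map_sub, map_pow, map_mul, aeval_X, aeval_C, map_one, pow_two, hCH, hdet,
      one_smul, htr, Algebra.algebraMap_eq_smul_one, Algebra.algebraMap_eq_smul_one, smul_mul_assoc,
      Matrix.one_mul]
    rw [smul_assoc, one_smul]
    abel
  have h1 := congrArg (aeval S) hq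
  rw [map_mul, h0, zero_mul, map_sub, map_pow, aeval_X, map_one] at h1
  exact sub_eq_zero.mp h1

/-- **Type `(χ, χ⁻¹)`.** From `Φ Σ = Σ ^ r Φ`, `charpoly Σ = (X − ζ)(X − ζ⁻¹)`, `ζ ^ p = 1`,
`ζ² ≠ 1`, `r ≡ 1 mod p` to `Φ Σ = Σ Φ`. -/
theorem mul_comm_of_tame (ζ : 𝒪ˣ) (p : ℕ) (hζ : (ζ : 𝒪) ^ p = 1) (hζ2 : (ζ : 𝒪) ^ 2 ≠ 1)
    (Φ S : Matrix (Fin 2) (Fin 2) R) (r : ℕ) (hr1 : 1 ≤ r) (hr : r ≡ 1 [MOD p])
    (htame : Φ * S = S ^ r * Φ)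
    (htr : S.trace = algebraMap 𝒪 R ((ζ : 𝒪) + ((ζ⁻¹ : 𝒪ˣ) : 𝒪))) (hdet : S.det = 1) :
    Φ * S = S * Φ := by
  have hp := pow_eq_one_of_charpoly ζ p hζ hζ2 S htr hdet
  obtain ⟨k, hk⟩ := (Nat.modEq_iff_dvd' hr1).mp hr.symm
  have hrk : r = 1 + p * k := by omega
  rw [htame, hrk, pow_add, pow_one, pow_mul, hp, one_pow, Matrix.mul_one]

end TypeChi

end Fermat.Agent.S43lib.Loc
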