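/-
S43lib / Loc / Theta (helper1).

**RF3**: no power of `θ = ∏_r disc(Φ_r)` is divisible by `ϖ` in `P ⧸ I^A`.

Proof: the point `Φ_r ↦ φ₀ · [[1, X], [X, 1 + X²]]`, `Σ_r ↦ 1`, `z_i ↦ 0` of the special fibre, with
values in the domain `k⟦X⟧` (`k = 𝒪/ϖ`), kills `I^A` and `ϖ`, and sends `disc(Φ_r)` to
`φ̄₀² X² (4 + X²) ≠ 0`.
-/
import Mathlib
import Fermat.Agent.S43lib.Loc.Multi

set_option autoImplicit false
set_option linter.style.haveILetI false
set_option linter.unusedSectionVars false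

namespace Fermat.Agent.S43lib.Loc

open IsLocalRing Fermat.Agent.S43lib.IA

universe u

section Special

variable {A : Type*} [CommRing A]

/-- The special point satisfies the relations of type `(χ, χ⁻¹)` modulo `ϖ`. -/
theorem satA_special (φ x : A) :
    SatA φ (φ ^ 2) 2 (fun b i j => cond b 0 (φ * !![0, x; x, x ^ 2] i j)) := by
  have h1 : affMat (1 : A) (fun _ _ => (0 : A)) = 1 := by
    ext i j
    fin_cases i <;> fin_cases j <;> simp [affMat]
  refine ⟨?_, ?_, ?_, ?_⟩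
  · simp [affMat, Matrix.det_fin_two]
    ring
  · simp only [cond_true]
    rw [h1, Matrix.det_one]
  · simp only [cond_true]
    rw [h1, Matrix.trace_one]
    simp
  · simp only [cond_true]
    rw [h1, Matrix.mul_one, Matrix.one_mul]

theorem discOf_special (φ x : A) :
    discOf (affMat φ (fun i j => φ * !![0, x; x, x ^ 2] i j)) = φ ^ 2 * (4 * x ^ 2 + x ^ 4) := by
  simp [discOf, affMat, Matrix.det_fin_two, Matrix.trace_fin_two]
  ring

theorem discOf_map {B : Type*} [CommRing B] (g : A →+* B) (Φ : Matrix (Fin 2) (Fin 2) A) :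
    discOf (Φ.map g) = g (discOf Φ) := by
  have h4 : g 4 = 4 := by
    have : (4 : A) = ((4 : ℕ) : A) := by norm_num
    rw [this, map_natCast]
    norm_num
  simp [discOf, Matrix.det_fin_two, Matrix.trace_fin_two, h4]

end Special

section Main

variable {𝒪 : Type u} [CommRing 𝒪] [IsDomain 𝒪] [IsLocalRing 𝒪] [IsNoetherianRing 𝒪]
  [IsAdicComplete (maximalIdeal 𝒪) 𝒪] {ϖ : 𝒪} {T : Type} [Fintype T]

theorem powerSeries_X_mem_maximalIdeal :
    (PowerSeries.X : PowerSeries 𝒪) ∈ maximalIdeal (PowerSeries 𝒪) := by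
  rw [mem_maximalIdeal, mem_nonunits_iff, PowerSeries.isUnit_iff_constantCoeff,
    PowerSeries.constantCoeff_X]
  exact not_isUnit_zero

/-- **RF3.** -/
theorem theta_pow_notMem (hϖ : maximalIdeal 𝒪 = Ideal.span {ϖ}) (h : ℕ)
    (D : T → LocalDatum 𝒪 ϖ) (n : ℕ) :
    (Ideal.Quotient.mk (idealA D h) (thetaOf D h)) ^ n ∉
      Ideal.span {Ideal.Quotient.mk (idealA D h) (MvPowerSeries.C ϖ)} := by
  classical
  haveI : (Ideal.span {ϖ}).IsPrime := hϖ ▸ (maximalIdeal.isMaximal 𝒪).isPrime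
  let mkk : 𝒪 →+* 𝒪 ⧸ Ideal.span {ϖ} := Ideal.Quotient.mk _
  let red : PowerSeries 𝒪 →+* PowerSeries (𝒪 ⧸ Ideal.span {ϖ}) := PowerSeries.map mkk
  let M : Matrix (Fin 2) (Fin 2) (PowerSeries 𝒪) :=
    !![0, PowerSeries.X; PowerSeries.X, PowerSeries.X ^ 2]
  let x : Var T h → PowerSeries 𝒪 :=
    Sum.elim (fun p => cond p.2.1 0 (PowerSeries.C ((D p.1).φ₀ : 𝒪) * M p.2.2.1 p.2.2.2))
      (fun _ => 0)
  have hM : ∀ i j, M i j ∈ maximalIdeal (PowerSeries 𝒪) := by
    intro i j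
    fin_cases i <;> fin_cases j
    · exact zero_mem _
    · exact powerSeries_X_mem_maximalIdeal
    · exact powerSeries_X_mem_maximalIdeal
    · exact Ideal.pow_mem_of_mem _ powerSeries_X_mem_maximalIdeal 2 (by norm_num)
  have hx : ∀ s, x s ∈ maximalIdeal (PowerSeries 𝒪) := by
    rintro (⟨r, b, i, j⟩ | k)
    · show cond b 0 (PowerSeries.C ((D r).φ₀ : 𝒪) * M i j) ∈ _
      cases b
      · exact Ideal.mul_mem_left _ _ (hM i j)
      · exact zero_mem _
    · exact zero_mem _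
  obtain ⟨ev, hevC, hevX⟩ := exists_evalRingHom (PowerSeries.C : 𝒪 →+* PowerSeries 𝒪) x hx
  have hχC : ∀ a, red (ev (MvPowerSeries.C a)) = PowerSeries.C (mkk a) := by
    intro a
    rw [hevC]
    exact PowerSeries.map_C mkk a
  have hredM : ∀ i j, red (M i j) =
      (!![0, PowerSeries.X; PowerSeries.X, PowerSeries.X ^ 2] :
        Matrix (Fin 2) (Fin 2) (PowerSeries (𝒪 ⧸ Ideal.span {ϖ}))) i j := by
    intro i j
    fin_cases i <;> fin_cases j <;> simp [M, red, PowerSeries.map_X]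
  have hχX : ∀ r b i j, red (ev (MvPowerSeries.X (Sum.inl (r, b, i, j)))) =
      cond b 0 (PowerSeries.C (mkk ((D r).φ₀ : 𝒪)) *
        (!![0, PowerSeries.X; PowerSeries.X, PowerSeries.X ^ 2] :
          Matrix (Fin 2) (Fin 2) (PowerSeries (𝒪 ⧸ Ideal.span {ϖ}))) i j) := by
    intro r b i j
    rw [hevX]
    show red (cond b 0 (PowerSeries.C ((D r).φ₀ : 𝒪) * M i j)) = _
    cases b
    · simp only [cond_false]
      rw [map_mul, hredM]
      congr 1
      exact PowerSeries.map_C mkk _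
    · simp only [cond_true, map_zero]
  -- reductions of the datum
  have hζ1 : ∀ r, mkk ((D r).ζ : 𝒪) = 1 := by
    intro r
    rw [← map_one mkk]
    exact Ideal.Quotient.eq.mpr (D r).hζ
  have hζ2 : ∀ r, mkk (((D r).ζ⁻¹ : 𝒪ˣ) : 𝒪) = 1 := by
    intro r
    have := congrArg mkk (zeta_mul_inv (D r))
    rw [map_mul, hζ1, one_mul, map_one] at this
    exact this
  have hd : ∀ r, mkk (D r).d₀ = mkk ((D r).φ₀ : 𝒪) ^ 2 := by
    intro r
    rw [← map_pow]
    exact Ideal.Quotient.eq.mpr (D r).hd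
  -- `χ` kills `I^A`
  have hkill : ∀ t ∈ idealA D h, (red.comp ev) t = 0 := by
    refine map_eq_zero_of_mem_idealA D (red.comp ev) fun r => ?_
    refine (satA_special (PowerSeries.C (mkk ((D r).φ₀ : 𝒪))) PowerSeries.X).congr ?_ ?_ ?_ ?_
    · exact (hχC _).symm
    · rw [RingHom.comp_apply, hχC, hd, map_pow]
    · rw [RingHom.comp_apply, hχC, map_add, hζ1, hζ2, map_add, map_one]
      norm_num
    · intro b i j
      exact (hχX r b i j).symm
  let χ : (MvPowerSeries (Var T h) 𝒪 ⧸ idealA D h) →+* PowerSeries (𝒪 ⧸ Ideal.span {ϖ}) :=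
    Ideal.Quotient.lift _ (red.comp ev) hkill
  have hχϖ : χ (Ideal.Quotient.mk _ (MvPowerSeries.C ϖ)) = 0 := by
    show χ (Ideal.Quotient.mk _ _) = 0
    rw [Ideal.Quotient.lift_mk, RingHom.comp_apply, hχC]
    have : mkk ϖ = 0 := Ideal.Quotient.eq_zero_iff_mem.mpr (Ideal.mem_span_singleton_self ϖ)
    rw [this, map_zero]
  have hχθ : χ (Ideal.Quotient.mk _ (thetaOf D h)) ≠ 0 := by
    show χ (Ideal.Quotient.mk _ _) ≠ 0
    rw [Ideal.Quotient.lift_mk, thetaOf, map_prod]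
    refine Finset.prod_ne_zero_iff.mpr fun r _ => ?_
    rw [← discOf_map, phiMat_eq_affMat, map_affMat]
    have e : (fun i j => (red.comp ev) (MvPowerSeries.X (Sum.inl (r, false, i, j)))) =
        fun i j => PowerSeries.C (mkk ((D r).φ₀ : 𝒪)) *
          (!![0, PowerSeries.X; PowerSeries.X, PowerSeries.X ^ 2] :
            Matrix (Fin 2) (Fin 2) (PowerSeries (𝒪 ⧸ Ideal.span {ϖ}))) i j := by
      funext i j
      rw [RingHom.comp_apply, hχX]
      rfl
    rw [e, RingHom.comp_apply, hχC, discOf_special]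
    have hφ : PowerSeries.C (mkk ((D r).φ₀ : 𝒪)) ≠ 0 := by
      intro h0
      have hu : IsUnit (mkk ((D r).φ₀ : 𝒪)) := (D r).φ₀.isUnit.map mkk
      rw [← map_zero (PowerSeries.C : (𝒪 ⧸ Ideal.span {ϖ}) →+* _)] at h0
      rw [PowerSeries.C_injective h0] at hu
      exact not_isUnit_zero hu
    have h4 : (4 * PowerSeries.X ^ 2 + PowerSeries.X ^ 4 :
        PowerSeries (𝒪 ⧸ Ideal.span {ϖ})) ≠ 0 := by
      intro h0
      have := congrArg (PowerSeries.coeff 4) h0
      have e4 : (4 : PowerSeries (𝒪 ⧸ Ideal.span {ϖ})) = PowerSeries.C 4 := by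
        rw [map_ofNat]
      rw [map_add, e4, PowerSeries.coeff_C_mul, PowerSeries.coeff_X_pow, PowerSeries.coeff_X_pow,
        map_zero] at this
      simp at this
    exact mul_ne_zero (pow_ne_zero 2 hφ) h4
  intro hmem
  obtain ⟨c, hc⟩ := Ideal.mem_span_singleton'.mp hmem
  have := congrArg χ hc
  rw [map_mul, hχϖ, mul_zero, map_pow] at this
  exact pow_ne_zero n hχθ this.symm

end Main

end Fermat.Agent.S43lib.Loc
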